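import Mathlib.RingTheory.Valuation.RamificationGroup
import Mathlib.FieldTheory.IsAlgClosed.AlgebraicClosure
import Fermat.Prelude.Def_FLTPrelim_Ramification

set_option autoImplicit false

namespace Fermat.Agent.S05.H95

open ValuationSubring
open scoped Pointwise

variable {K L : Type*} [Field K] [Field L] [Algebra K L]

/-- An element of the decomposition group maps `A` into `A`. -/
theorem mem_of_mem_decomposition (A : ValuationSubring L) {σ : L ≃ₐ[K] L}
    (hσ : σ ∈ A.decompositionSubgroup K) {x : L} (hx : x ∈ A) : σ x ∈ A := by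
  have h : σ • A = A := hσ
  have : σ • x ∈ σ • A := ValuationSubring.smul_mem_pointwise_smul σ x A hx
  rw [h] at this
  exact this

theorem mem_iff_of_mem_decomposition (A : ValuationSubring L) {σ : L ≃ₐ[K] L}
    (hσ : σ ∈ A.decompositionSubgroup K) {x : L} : σ x ∈ A ↔ x ∈ A := by
  refine ⟨fun h => ?_, mem_of_mem_decomposition A hσ⟩
  have hinv : σ⁻¹ ∈ A.decompositionSubgroup K := inv_mem hσ
  have := mem_of_mem_decomposition A hinv h
  simpa using this

/-- The decomposition group preserves the maximal ideal. -/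
theorem mem_nonunits_iff_of_mem_decomposition (A : ValuationSubring L) {σ : L ≃ₐ[K] L}
    (hσ : σ ∈ A.decompositionSubgroup K) {x : L} : σ x ∈ A.nonunits ↔ x ∈ A.nonunits := by
  rw [A.mem_nonunits_iff_or, A.mem_nonunits_iff_or, ← map_inv₀,
    mem_iff_of_mem_decomposition A hσ]
  simp

/-- Membership in the Prelude's `inertiaSubgroupIn` unfolds to membership in the decomposition
group together with trivial action on the residue field. -/
theorem mem_inertiaSubgroupIn_iff (A : ValuationSubring L) {σ : L ≃ₐ[K] L} :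
    σ ∈ A.inertiaSubgroupIn K ↔
      ∃ hσ : σ ∈ A.decompositionSubgroup K,
        (⟨σ, hσ⟩ : A.decompositionSubgroup K) ∈ A.inertiaSubgroup K := by
  unfold ValuationSubring.inertiaSubgroupIn
  constructor
  · rintro ⟨τ, hτ, rfl⟩
    exact ⟨τ.2, hτ⟩
  · rintro ⟨hσ, h⟩
    exact ⟨⟨σ, hσ⟩, h, rfl⟩

theorem mem_decomposition_of_mem_inertia (A : ValuationSubring L) {σ : L ≃ₐ[K] L}
    (hσ : σ ∈ A.inertiaSubgroupIn K) : σ ∈ A.decompositionSubgroup K :=
  ((mem_inertiaSubgroupIn_iff A).1 hσ).1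

theorem mem_iff_of_mem_inertia (A : ValuationSubring L) {σ : L ≃ₐ[K] L}
    (hσ : σ ∈ A.inertiaSubgroupIn K) {x : L} : σ x ∈ A ↔ x ∈ A :=
  mem_iff_of_mem_decomposition A (mem_decomposition_of_mem_inertia A hσ)

theorem mem_nonunits_iff_of_mem_inertia (A : ValuationSubring L) {σ : L ≃ₐ[K] L}
    (hσ : σ ∈ A.inertiaSubgroupIn K) {x : L} : σ x ∈ A.nonunits ↔ x ∈ A.nonunits :=
  mem_nonunits_iff_of_mem_decomposition A (mem_decomposition_of_mem_inertia A hσ)

/-- Inertia acts trivially modulo the maximal ideal. -/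
theorem sub_mem_nonunits_of_mem_inertia (A : ValuationSubring L) {σ : L ≃ₐ[K] L}
    (hσ : σ ∈ A.inertiaSubgroupIn K) {x : L} (hx : x ∈ A) : σ x - x ∈ A.nonunits := by
  obtain ⟨hd, hi⟩ := (mem_inertiaSubgroupIn_iff A).1 hσ
  have hker : MulSemiringAction.toRingAut (A.decompositionSubgroup K)
      (IsLocalRing.ResidueField A) ⟨σ, hd⟩ = 1 := hi
  have h1 : (⟨σ, hd⟩ : A.decompositionSubgroup K) • (IsLocalRing.residue A ⟨x, hx⟩) =
      IsLocalRing.residue A ⟨x, hx⟩ := by
    have := congrArg (fun f : RingAut (IsLocalRing.ResidueField A) =>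
      f (IsLocalRing.residue A ⟨x, hx⟩)) hker
    simpa using this
  have hσx : σ x ∈ A := mem_of_mem_decomposition A hd hx
  have h2 : IsLocalRing.residue A (⟨σ x, hσx⟩ - ⟨x, hx⟩ : A) = 0 := by
    rw [map_sub, sub_eq_zero]
    rw [← h1]
    rfl
  have h3 : (⟨σ x, hσx⟩ - ⟨x, hx⟩ : A) ∈ IsLocalRing.maximalIdeal A :=
    (IsLocalRing.residue_eq_zero_iff _).1 h2
  have h4 := (A.mem_nonunits_iff_exists_mem_maximalIdeal (a := σ x - x)).2
    ⟨A.sub_mem hσx hx, h3⟩
  exact h4

/-- A square root of an inertia-fixed element which is a unit of `A` is inertia-fixed, provided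
`2` is a unit of `A`. -/
theorem fixed_of_sq_fixed (A : ValuationSubring L) {σ : L ≃ₐ[K] L}
    (hσ : σ ∈ A.inertiaSubgroupIn K) {t : L} (ht : t ∈ A) (htu : t ∉ A.nonunits)
    (h2 : (2 : L) ∉ A.nonunits) (hsq : σ (t ^ 2) = t ^ 2) : σ t = t := by
  have h := sub_mem_nonunits_of_mem_inertia A hσ ht
  rw [map_pow] at hsq
  have h' : (σ t - t) * (σ t + t) = 0 := by ring_nf; rw [hsq]; ring
  rcases mul_eq_zero.1 h' with h1 | h1
  · exact sub_eq_zero.1 h1
  · exfalso
    have h3 : σ t = -t := eq_neg_of_add_eq_zero_left h1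
    rw [h3] at h
    have h4 : -t - t = -(2 * t) := by ring
    rw [h4] at h
    rw [A.mem_nonunits_iff, Valuation.map_neg, map_mul] at h
    rw [A.mem_nonunits_iff, not_lt] at htu h2
    have h2A : A.valuation 2 ≤ 1 := by
      have : ((2 : ℕ) : L) ∈ A := natCast_mem A 2
      rw [← A.valuation_le_one_iff] at this
      simpa using this
    have htA : A.valuation t ≤ 1 := (A.valuation_le_one_iff t).2 ht
    have e2 : A.valuation 2 = 1 := le_antisymm h2A h2
    have et : A.valuation t = 1 := le_antisymm htA htu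
    rw [e2, et, one_mul] at h
    exact lt_irrefl _ h

end Fermat.Agent.S05.H95
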