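import Fermat.Prelude.Def_FLTPrelim_Ramification

/-!
# S05, piece F (helper37): unpacking decomposition / inertia membership

For a valuation subring `A` of `L` (with `L/K` algebraic) and `σ` in the decomposition group:
* `σ x ∈ A ↔ x ∈ A`,
* `A.valuation (σ x) = A.valuation x`  (finite-orbit argument).
For `σ` in the inertia group (`ValuationSubring.inertiaSubgroupIn`, Prelude) and `x ∈ A`:
* `A.valuation (σ x - x) < 1`.
-/

set_option autoImplicit false

namespace Fermat.Agent.S05.H37

open scoped Pointwise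

variable {K L : Type*} [Field K] [Field L] [Algebra K L]

/-- An element of the decomposition group maps `A` into `A`. -/
theorem apply_mem_of_mem_decomposition (A : ValuationSubring L) {σ : L ≃ₐ[K] L}
    (hσ : σ ∈ A.decompositionSubgroup K) {x : L} (hx : x ∈ A) : σ x ∈ A := by
  have h1 : σ • A = A := MulAction.mem_stabilizer_iff.mp hσ
  have h2 : σ • x ∈ σ • A := ValuationSubring.smul_mem_pointwise_smul σ x A hx
  rw [h1] at h2
  exact h2

/-- Membership in `A` is invariant under the decomposition group. -/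
theorem apply_mem_iff_of_mem_decomposition (A : ValuationSubring L) {σ : L ≃ₐ[K] L}
    (hσ : σ ∈ A.decompositionSubgroup K) (x : L) : σ x ∈ A ↔ x ∈ A := by
  constructor
  · intro h
    have hinv : σ⁻¹ ∈ A.decompositionSubgroup K := inv_mem hσ
    have := apply_mem_of_mem_decomposition A hinv h
    have h3 : σ⁻¹ (σ x) = x := by
      change (σ⁻¹ * σ) x = x
      rw [inv_mul_cancel]; rfl
    rwa [h3] at this
  · exact apply_mem_of_mem_decomposition A hσ

/-- The decomposition group preserves the order of valuations. -/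
theorem valuation_apply_le_iff_of_mem_decomposition (A : ValuationSubring L) {σ : L ≃ₐ[K] L}
    (hσ : σ ∈ A.decompositionSubgroup K) (x y : L) :
    A.valuation (σ x) ≤ A.valuation (σ y) ↔ A.valuation x ≤ A.valuation y := by
  by_cases hy : y = 0
  · subst hy
    simp only [map_zero, le_zero_iff, map_eq_zero]
  · have hσy : σ y ≠ 0 := by simpa using hy
    have hvy : A.valuation y ≠ 0 := by simpa using hy
    have hvσy : A.valuation (σ y) ≠ 0 := by simpa using hσy
    rw [← div_le_one₀ (zero_lt_iff.mpr hvσy), ← div_le_one₀ (zero_lt_iff.mpr hvy),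
      ← map_div₀ A.valuation (σ x) (σ y), ← map_div₀ A.valuation x y, ← map_div₀ σ x y,
      A.valuation_le_one_iff, A.valuation_le_one_iff]
    exact apply_mem_iff_of_mem_decomposition A hσ (x / y)

theorem valuation_apply_lt_iff_of_mem_decomposition (A : ValuationSubring L) {σ : L ≃ₐ[K] L}
    (hσ : σ ∈ A.decompositionSubgroup K) (x y : L) :
    A.valuation (σ x) < A.valuation (σ y) ↔ A.valuation x < A.valuation y := by
  rw [← not_le, ← not_le, valuation_apply_le_iff_of_mem_decomposition A hσ]

/-- Every element of an algebraic extension has a finite orbit under a single automorphism. -/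
theorem exists_pow_apply_eq_self [Algebra.IsAlgebraic K L] (σ : L ≃ₐ[K] L) (x : L) :
    ∃ n : ℕ, 0 < n ∧ (σ ^ n) x = x := by
  classical
  have halg : IsAlgebraic K x := Algebra.IsAlgebraic.isAlgebraic x
  have hint : IsIntegral K x := halg.isIntegral
  have hfin : ((minpoly K x).rootSet L).Finite := Polynomial.rootSet_finite _ _
  have hmem : ∀ n : ℕ, (σ ^ n) x ∈ (minpoly K x).rootSet L := by
    intro n
    rw [Polynomial.mem_rootSet]
    refine ⟨minpoly.ne_zero hint, ?_⟩
    have h := Polynomial.aeval_algHom_apply ((σ ^ n : L ≃ₐ[K] L) : L →ₐ[K] L) x (minpoly K x)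
    simp only [AlgEquiv.coe_toAlgHom] at h
    rw [h, minpoly.aeval, map_zero]
  obtain ⟨i, j, hij, heq⟩ : ∃ i j : ℕ, i < j ∧ (σ ^ i) x = (σ ^ j) x := by
    by_contra hcon
    push Not at hcon
    have hinj : Function.Injective fun n : ℕ => (σ ^ n) x := by
      intro i j hij
      rcases lt_trichotomy i j with h | h | h
      · exact absurd hij (hcon i j h)
      · exact h
      · exact absurd hij.symm (hcon j i h)
    exact Set.infinite_of_injective_forall_mem hinj hmem hfin
  refine ⟨j - i, Nat.sub_pos_of_lt hij, ?_⟩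
  have hj : σ ^ j = σ ^ i * σ ^ (j - i) := by
    rw [← pow_add]; congr 1; omega
  rw [hj] at heq
  have h2 : (σ ^ i) x = (σ ^ i) ((σ ^ (j - i)) x) := heq
  exact ((σ ^ i).injective h2).symm

/-- The decomposition group preserves the valuation (for algebraic extensions). -/
theorem valuation_apply_eq_of_mem_decomposition [Algebra.IsAlgebraic K L]
    (A : ValuationSubring L) {σ : L ≃ₐ[K] L}
    (hσ : σ ∈ A.decompositionSubgroup K) (x : L) :
    A.valuation (σ x) = A.valuation x := by
  obtain ⟨n, hn, hfix⟩ := exists_pow_apply_eq_self σ x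
  -- strictly smaller is impossible
  have key : ∀ (τ : L ≃ₐ[K] L), τ ∈ A.decompositionSubgroup K → ∀ y : L, ∀ m : ℕ, 0 < m →
      (τ ^ m) y = y → ¬ A.valuation (τ y) < A.valuation y := by
    intro τ hτ y m hm hfixy hlt
    have hstep : ∀ k : ℕ, A.valuation ((τ ^ (k + 1)) y) < A.valuation y := by
      intro k
      induction k with
      | zero => simpa using hlt
      | succ k ih =>
        have h1 : (τ ^ (k + 1 + 1)) y = τ ((τ ^ (k + 1)) y) := by
          rw [pow_succ' τ (k + 1)]; rfl
        rw [h1]
        have h2 : A.valuation (τ ((τ ^ (k + 1)) y)) < A.valuation (τ y) :=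
          (valuation_apply_lt_iff_of_mem_decomposition A hτ _ _).mpr ih
        exact h2.trans hlt
    obtain ⟨k, rfl⟩ : ∃ k, m = k + 1 := ⟨m - 1, by omega⟩
    have := hstep k
    rw [hfixy] at this
    exact lt_irrefl _ this
  rcases lt_trichotomy (A.valuation (σ x)) (A.valuation x) with h | h | h
  · exact absurd h (key σ hσ x n hn hfix)
  · exact h
  · -- use σ⁻¹ on `σ x`
    exfalso
    have hinv : σ⁻¹ ∈ A.decompositionSubgroup K := inv_mem hσ
    have hx' : σ⁻¹ (σ x) = x := by
      change (σ⁻¹ * σ) x = x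
      rw [inv_mul_cancel]; rfl
    have hfix' : (σ⁻¹ ^ n) (σ x) = σ x := by
      have h1 : (σ⁻¹ ^ n) ((σ ^ n) (σ x)) = σ x := by
        change ((σ⁻¹ ^ n) * (σ ^ n)) (σ x) = σ x
        rw [inv_pow, inv_mul_cancel]; rfl
      have h2 : (σ ^ n) (σ x) = σ x := by
        have : (σ ^ n) (σ x) = σ ((σ ^ n) x) := by
          change ((σ ^ n) * σ) x = (σ * (σ ^ n)) x
          rw [← pow_succ, ← pow_succ']
        rw [this, hfix]
      rw [h2] at h1
      exact h1
    refine key σ⁻¹ hinv (σ x) n hn hfix' ?_
    rw [hx']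
    exact h

/-- Unpacking `inertiaSubgroupIn`: an element of the inertia group lies in the decomposition
group. -/
theorem mem_decomposition_of_mem_inertiaIn (A : ValuationSubring L) {σ : L ≃ₐ[K] L}
    (hσ : σ ∈ A.inertiaSubgroupIn K) : σ ∈ A.decompositionSubgroup K := by
  obtain ⟨τ, -, rfl⟩ := hσ
  exact τ.2

/-- An element of the inertia group moves every element of `A` by an element of the maximal
ideal. -/
theorem valuation_apply_sub_lt_one_of_mem_inertiaIn (A : ValuationSubring L) {σ : L ≃ₐ[K] L}
    (hσ : σ ∈ A.inertiaSubgroupIn K) {x : L} (hx : x ∈ A) :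
    A.valuation (σ x - x) < 1 := by
  obtain ⟨τ, hτ, rfl⟩ := hσ
  have hker : MulSemiringAction.toRingAut (A.decompositionSubgroup K)
      (IsLocalRing.ResidueField A) τ = 1 := hτ
  have h1 : τ • (IsLocalRing.residue A ⟨x, hx⟩) = IsLocalRing.residue A ⟨x, hx⟩ := by
    have := congrArg (fun f : RingAut (IsLocalRing.ResidueField A) =>
      f (IsLocalRing.residue A ⟨x, hx⟩)) hker
    simpa using this
  have h2 : τ • (IsLocalRing.residue A ⟨x, hx⟩) = IsLocalRing.residue A (τ • ⟨x, hx⟩) := rfl
  rw [h2] at h1
  have h3 : IsLocalRing.residue A (τ • ⟨x, hx⟩ - ⟨x, hx⟩) = 0 := by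
    rw [map_sub, h1, sub_self]
  rw [IsLocalRing.residue_eq_zero_iff] at h3
  have h4 := (A.valuation_lt_one_iff _).mp h3
  exact h4

/-- Combined statement for the inertia group. -/
theorem inertia_facts [Algebra.IsAlgebraic K L] (A : ValuationSubring L) {σ : L ≃ₐ[K] L}
    (hσ : σ ∈ A.inertiaSubgroupIn K) :
    (∀ x : L, A.valuation (σ x) = A.valuation x) ∧
      ∀ x : L, A.valuation x ≤ 1 → A.valuation (σ x - x) < 1 :=
  ⟨fun x => valuation_apply_eq_of_mem_decomposition A
      (mem_decomposition_of_mem_inertiaIn A hσ) x,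
    fun _ hx => valuation_apply_sub_lt_one_of_mem_inertiaIn A hσ
      ((A.valuation_le_one_iff _).mp hx)⟩

end Fermat.Agent.S05.H37
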