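import Mathlib.RingTheory.Valuation.ValuationSubring
import Mathlib.FieldTheory.IsAlgClosed.AlgebraicClosure
import Mathlib.Data.Int.GCD
import Mathlib.RingTheory.Int.Basic

/-!
# Valuations of rational integers at a valuation subring lying over a prime `q`

Helper lemmas for S05 piece G (helper15).
-/

set_option autoImplicit false

namespace Fermat.Agent.S05.H15

variable {L : Type*} [Field L] (A : ValuationSubring L)

/-- every integer is in `A` -/
theorem intCast_mem' (n : ℤ) : (n : L) ∈ A :=
  _root_.intCast_mem A n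

theorem valuation_intCast_le_one (n : ℤ) : A.valuation (n : L) ≤ 1 :=
  (A.valuation_le_one_iff _).2 (intCast_mem' A n)

theorem valuation_natCast_le_one (n : ℕ) : A.valuation (n : L) ≤ 1 :=
  (A.valuation_le_one_iff _).2 (_root_.natCast_mem A n)

variable {A}

/-- If `q` is a nonunit of `A` then `|q| < 1`. -/
theorem valuation_lt_one_of_mem_nonunits {x : L} (hx : x ∈ A.nonunits) : A.valuation x < 1 :=
  (ValuationSubring.mem_nonunits_iff A).1 hx

theorem valuation_intCast_lt_one_of_dvd {q : ℕ} (hq : (q : L) ∈ A.nonunits) {n : ℤ}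
    (h : (q : ℤ) ∣ n) : A.valuation (n : L) < 1 := by
  obtain ⟨m, rfl⟩ := h
  push_cast
  rw [map_mul]
  have h1 : A.valuation (q : L) < 1 := valuation_lt_one_of_mem_nonunits hq
  have h2 : A.valuation (m : L) ≤ 1 := valuation_intCast_le_one A m
  calc A.valuation (q : L) * A.valuation (m : L) ≤ A.valuation (q : L) * 1 := by gcongr
    _ = A.valuation (q : L) := mul_one _
    _ < 1 := h1

theorem valuation_intCast_eq_one_of_not_dvd {q : ℕ} (hqp : q.Prime) (hq : (q : L) ∈ A.nonunits)
    {n : ℤ} (h : ¬ (q : ℤ) ∣ n) : A.valuation (n : L) = 1 := by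
  refine le_antisymm (valuation_intCast_le_one A n) ?_
  by_contra hlt
  rw [not_le] at hlt
  have hcop : IsCoprime (q : ℤ) n := by
    rw [Int.isCoprime_iff_gcd_eq_one]
    have hp : Prime (q : ℤ) := Nat.prime_iff_prime_int.mp hqp
    exact Int.isCoprime_iff_gcd_eq_one.mp ((Prime.coprime_iff_not_dvd hp).2 h)
  obtain ⟨u, v, huv⟩ := hcop
  have h1 : A.valuation ((u * q + v * n : ℤ) : L) < 1 := by
    push_cast
    refine lt_of_le_of_lt (A.valuation.map_add _ _) (max_lt ?_ ?_)
    · rw [map_mul]
      calc A.valuation (u : L) * A.valuation (q : L) ≤ 1 * A.valuation (q : L) := by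
            gcongr; exact valuation_intCast_le_one A u
        _ = A.valuation (q : L) := one_mul _
        _ < 1 := valuation_lt_one_of_mem_nonunits hq
    · rw [map_mul]
      calc A.valuation (v : L) * A.valuation (n : L) ≤ 1 * A.valuation (n : L) := by
            gcongr; exact valuation_intCast_le_one A v
        _ = A.valuation (n : L) := one_mul _
        _ < 1 := hlt
  rw [huv] at h1
  simp at h1

theorem valuation_intCast_lt_one_iff {q : ℕ} (hqp : q.Prime) (hq : (q : L) ∈ A.nonunits)
    {n : ℤ} : A.valuation (n : L) < 1 ↔ (q : ℤ) ∣ n := by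
  constructor
  · intro h
    by_contra hn
    rw [valuation_intCast_eq_one_of_not_dvd hqp hq hn] at h
    exact lt_irrefl _ h
  · exact valuation_intCast_lt_one_of_dvd hq

theorem valuation_natCast_eq_one_of_ne {q : ℕ} (hqp : q.Prime) (hq : (q : L) ∈ A.nonunits)
    {r : ℕ} (hr : r.Prime) (hne : r ≠ q) : A.valuation (r : L) = 1 := by
  have : ¬ (q : ℤ) ∣ (r : ℤ) := by
    intro h
    have := (Nat.prime_dvd_prime_iff_eq hqp hr).1 (Int.natCast_dvd_natCast.1 h)
    exact hne this.symm
  simpa using valuation_intCast_eq_one_of_not_dvd hqp hq this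

end Fermat.Agent.S05.H15
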