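import Fermat.Agent.S05.Defs
import Fermat.Agent.S05.H37_Inertia

/-!
# S05, piece F: inertia unpacking (helper37)
-/

set_option autoImplicit false

namespace Fermat.Agent.S05

/-- `AlgebraicClosure ℚ` is algebraic over `ℚ` for the `ℚ`-algebra structure that instance search
finds first (`DivisionRing.toRatAlgebra`). -/
theorem isAlgebraic_algebraicClosure_rat : Algebra.IsAlgebraic ℚ (AlgebraicClosure ℚ) := by
  refine ⟨fun x => ?_⟩
  obtain ⟨p, hp0, hp⟩ := (AlgebraicClosure.isAlgebraic ℚ).isAlgebraic x
  refine ⟨p, hp0, ?_⟩
  rw [Polynomial.aeval_def] at hp ⊢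
  have h : algebraMap ℚ (AlgebraicClosure ℚ) =
      @algebraMap ℚ (AlgebraicClosure ℚ) _ _ (AlgebraicClosure.instAlgebra ℚ) :=
    Subsingleton.elim _ _
  rw [h]
  exact hp

/-- Piece F: an element of the inertia group at `A` preserves the valuation of `A` and moves
every element of `A` by an element of the maximal ideal. -/
theorem inertia : Stmt_inertia := by
  intro A σ hσ
  haveI := isAlgebraic_algebraicClosure_rat
  exact H37.inertia_facts A hσ

end Fermat.Agent.S05
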