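/-
S05 (Frey curve mod-p representation is unramified at odd q ≠ p): shared definitions and the
exact statements of the pieces of the proof.  Convention: `|x| := A.valuation x`, so `|x| ≤ 1 ↔ x ∈ A`.
Model curve: `W : Affine L` with `a₁ = a₃ = a₆ = 0`, i.e. `y² = x³ + a x² + b x`, `a := W.a₂`, `b := W.a₄`.
-/
import Mathlib
import Fermat.Prelude.Def_FLTPrelim_Ramification

set_option autoImplicit false

namespace Fermat.Agent.S05

open WeierstrassCurve WeierstrassCurve.Affine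

section model

variable {L : Type*} [Field L]

/-- Hypotheses on the model curve `y² = x³ + a x² + b x` relative to a valuation subring `A`:
integral coefficients, `2` and `a² - 4b` units, `b ≠ 0`.  (Good reduction iff `|b| = 1`; otherwise
multiplicative reduction with node at `(0,0)`.) -/
structure ModelHyp (A : ValuationSubring L) (W : Affine L) : Prop where
  a₁ : W.a₁ = 0
  a₃ : W.a₃ = 0
  a₆ : W.a₆ = 0
  a_le : A.valuation W.a₂ ≤ 1
  b_le : A.valuation W.a₄ ≤ 1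
  b_ne : W.a₄ ≠ 0
  two : A.valuation (2 : L) = 1
  disc : A.valuation (W.a₂ ^ 2 - 4 * W.a₄) = 1

/-- Kernel of reduction: `P = 0` or `|x(P)| > 1`. -/
def InE1 (A : ValuationSubring L) {W : Affine L} : W.Point → Prop
  | .zero => True
  | .some x _ _ => 1 < A.valuation x

/-- `P = 0` or `|x(P)| ≥ 1`. -/
def InE0 (A : ValuationSubring L) {W : Affine L} : W.Point → Prop
  | .zero => True
  | .some x _ _ => 1 ≤ A.valuation x

/-- A field endomorphism `σ` preserving the valuation and acting trivially on the residue field,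
together with the additive map `s` it induces on points. -/
structure InertiaLike (A : ValuationSubring L) (W : Affine L) (σ : L →+* L)
    (s : W.Point → W.Point) : Prop where
  val_eq : ∀ x, A.valuation (σ x) = A.valuation x
  res : ∀ x, A.valuation x ≤ 1 → A.valuation (σ x - x) < 1
  map_zero : s 0 = 0
  map_some : ∀ (x y : L) (h : W.Nonsingular x y),
    ∃ h' : W.Nonsingular (σ x) (σ y), s (.some x y h) = .some (σ x) (σ y) h'

/-- `|b|` as a unit of the value group. -/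
noncomputable def bUnit {A : ValuationSubring L} {W : Affine L} (hyp : ModelHyp A W) :
    (A.ValueGroup)ˣ :=
  Units.mk0 (A.valuation W.a₄) (by simpa using hyp.b_ne)

/-- `|x|` as a unit of the value group, for `x ≠ 0`. -/
noncomputable def valUnit (A : ValuationSubring L) (x : L) (hx : x ≠ 0) : (A.ValueGroup)ˣ :=
  Units.mk0 (A.valuation x) (by simpa using hx)

/-- The component group `Γˣ / ⟨|b|²⟩`. -/
abbrev CompGroup {A : ValuationSubring L} {W : Affine L} (hyp : ModelHyp A W) : Type _ :=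
  (A.ValueGroup)ˣ ⧸ Subgroup.zpowers (bUnit hyp ^ 2)

variable [DecidableEq L]

/-- Piece A (line data / Vieta). -/
def Stmt_line : Prop :=
  ∀ (W : Affine L), W.a₁ = 0 → W.a₃ = 0 → W.a₆ = 0 →
  ∀ (x₁ y₁ x₂ y₂ x₃ y₃ : L) (h₁ : W.Nonsingular x₁ y₁) (h₂ : W.Nonsingular x₂ y₂)
    (h₃ : W.Nonsingular x₃ y₃),
    Point.some x₁ y₁ h₁ + Point.some x₂ y₂ h₂ = Point.some x₃ y₃ h₃ →
    ∃ ℓ μ : L, y₁ = ℓ * x₁ + μ ∧ y₂ = ℓ * x₂ + μ ∧ -y₃ = ℓ * x₃ + μ ∧
      x₁ + x₂ + x₃ = ℓ ^ 2 - W.a₂ ∧ x₁ * x₂ + x₁ * x₃ + x₂ * x₃ = W.a₄ - 2 * ℓ * μ ∧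
      x₁ * x₂ * x₃ = μ ^ 2

/-- Piece B1: `E₁` is closed under addition. -/
def Stmt_E1_add : Prop :=
  ∀ (A : ValuationSubring L) (W : Affine L), ModelHyp A W →
  ∀ P Q : W.Point, InE1 A P → InE1 A Q → InE1 A (P + Q)

/-- Piece B2 (F1): `E₁` has no `n`-torsion for `n` a unit of `A`. -/
def Stmt_F1 : Prop :=
  ∀ (A : ValuationSubring L) (W : Affine L), ModelHyp A W →
  ∀ (P : W.Point), InE1 A P → P ≠ 0 → ∀ n : ℕ, A.valuation (n : L) = 1 → n • P ≠ 0

/-- Piece C (F2): inertia moves points of `E₀` inside `E₁`-cosets. -/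
def Stmt_F2 : Prop :=
  ∀ (A : ValuationSubring L) (W : Affine L), ModelHyp A W →
  ∀ (σ : L →+* L) (s : W.Point → W.Point), InertiaLike A W σ s →
  ∀ Q : W.Point, InE0 A Q → InE1 A (s Q - Q)

/-- Piece D (M1): the component homomorphism in the multiplicative case. -/
def Stmt_M1 : Prop :=
  ∀ (A : ValuationSubring L) (W : Affine L) (hyp : ModelHyp A W), A.valuation W.a₄ < 1 →
  ∀ β : L, β ^ 2 = W.a₂ →
  ∃ φ : W.Point →+ Additive (CompGroup hyp),
    (∀ P, φ P = 0 ↔ InE0 A P) ∧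
    (∀ (x y : L) (h : W.Nonsingular x y) (hx0 : x ≠ 0),
      A.valuation W.a₄ < A.valuation x → A.valuation x < 1 →
      A.valuation (y - β * x) < A.valuation x →
      φ (.some x y h) = Additive.ofMul (QuotientGroup.mk (valUnit A x hx0)))

end model

section core

/-- Piece H (core theorem): on the model curve, an inertia-like automorphism fixes `E[p]`. -/
def Stmt_core : Prop :=
  ∀ (K₀ L : Type) [Field K₀] [Field L] [DecidableEq L] [Algebra K₀ L] [IsAlgClosed L]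
    (A : ValuationSubring L) (W' : Affine K₀), ModelHyp A (W'⁄L) →
  ∀ (p : ℕ), Odd p → A.valuation (p : L) = 1 →
  ∀ (c : K₀), A.valuation (algebraMap K₀ L c) ^ p = A.valuation (algebraMap K₀ L W'.a₄) ^ 2 →
  ∀ (σ : L ≃ₐ[K₀] L), (∀ x, A.valuation (σ x) = A.valuation x) →
    (∀ x, A.valuation x ≤ 1 → A.valuation (σ x - x) < 1) →
  ∀ P : (W'⁄L).Point, (p : ℤ) • P = 0 → σ • P = P

end core

section frey

/-- The model `y² = x(x² + a x + b)` obtained from `Y² + XY = X³ + a₂X² + a₄X` by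
`x = 4X - e`, `y = 8Y + 4X`, where `e` is a root of `x³ + (4a₂+1)x² + 16a₄x`. -/
def modelOf (W : Affine ℚ) (e : ℚ) : Affine ℚ :=
  ⟨0, 4 * W.a₂ + 1 + 3 * e, 0, 3 * e ^ 2 + 2 * (4 * W.a₂ + 1) * e + 16 * W.a₄, 0⟩

/-- Piece E (transfer): the variable change is an additive, Galois-equivariant bijection. -/
def Stmt_transfer : Prop :=
  ∀ (W : Affine ℚ), W.a₁ = 1 → W.a₃ = 0 → W.a₆ = 0 →
  ∀ (e : ℚ), e ^ 3 + (4 * W.a₂ + 1) * e ^ 2 + 16 * W.a₄ * e = 0 →
  ∃ Φ : (W⁄(AlgebraicClosure ℚ)).Point ≃+ ((modelOf W e)⁄(AlgebraicClosure ℚ)).Point,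
    ∀ (σ : AlgebraicClosure ℚ ≃ₐ[ℚ] AlgebraicClosure ℚ) (P : (W⁄(AlgebraicClosure ℚ)).Point),
      Φ (σ • P) = σ • Φ P

/-- Piece F (inertia unpacking). -/
def Stmt_inertia : Prop :=
  ∀ (A : ValuationSubring (AlgebraicClosure ℚ))
    (σ : AlgebraicClosure ℚ ≃ₐ[ℚ] AlgebraicClosure ℚ), σ ∈ A.inertiaSubgroupIn ℚ →
    (∀ x, A.valuation (σ x) = A.valuation x) ∧
    (∀ x, A.valuation x ≤ 1 → A.valuation (σ x - x) < 1)

/-- Piece G (arithmetic of the Frey package at an odd prime `q ≠ p`). -/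
def Stmt_arith : Prop :=
  ∀ (P : FreyPackage) (q : ℕ), q.Prime → q ≠ 2 → q ≠ P.p →
  ∀ (A : ValuationSubring (AlgebraicClosure ℚ)), A.LiesOverPrime q →
  ∃ e c : ℚ, e ^ 3 + (4 * P.freyCurve.a₂ + 1) * e ^ 2 + 16 * P.freyCurve.a₄ * e = 0 ∧
    ModelHyp A ((modelOf P.freyCurve e)⁄(AlgebraicClosure ℚ)) ∧
    A.valuation ((P.p : ℕ) : AlgebraicClosure ℚ) = 1 ∧
    A.valuation (algebraMap ℚ (AlgebraicClosure ℚ) c) ^ P.p =
      A.valuation (algebraMap ℚ (AlgebraicClosure ℚ) (modelOf P.freyCurve e).a₄) ^ 2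

end frey

end Fermat.Agent.S05
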