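/-
S05, piece H1 (helper55): the core theorem on the model curve `y² = x³ + a x² + b x` in the
GOOD REDUCTION case `|b| = 1`.  Every point is in `E₀` or in `T + E₁` with `T = (0,0)`; hence
`σ P - P ∈ E₁` for every point (piece F2), and `E₁` has no `p`-torsion (piece F1).
-/
import Fermat.Agent.S05.Defs

set_option autoImplicit false

namespace Fermat.Agent.S05

open WeierstrassCurve WeierstrassCurve.Affine WeierstrassCurve.Affine.Point

namespace H55

section general

variable {L : Type*} [Field L]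

/-- `E₁ ⊆ E₀`. -/
theorem inE0_of_inE1 (A : ValuationSubring L) {W : Affine L} (P : W.Point) (h : InE1 A P) :
    InE0 A P := by
  cases P with
  | zero => trivial
  | some x y hxy => exact le_of_lt h

/-- The point `T = (0,0)` is nonsingular on `y² = x³ + a x² + b x` when `b ≠ 0`. -/
theorem nonsingular_zero_zero {W : Affine L} (h₁ : W.a₁ = 0) (_h₃ : W.a₃ = 0) (h₆ : W.a₆ = 0)
    (hb : W.a₄ ≠ 0) : W.Nonsingular 0 0 := by
  rw [nonsingular_iff, equation_iff]
  refine ⟨by simp [h₆], Or.inl ?_⟩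
  simpa [h₁] using hb.symm

/-- On `y² = x³ + a x² + b x`, a point with `x = 0` has `y = 0`. -/
theorem y_eq_zero_of_x_eq_zero {W : Affine L} (h₁ : W.a₁ = 0) (h₃ : W.a₃ = 0) (h₆ : W.a₆ = 0)
    {y : L} (h : W.Nonsingular 0 y) : y = 0 := by
  have he := h.1
  rw [equation_iff] at he
  simpa [h₁, h₃, h₆] using he

variable [DecidableEq L]

/-- The `x`-coordinate of `P + T` is `b / x`. -/
theorem addX_zero_zero {W : Affine L} (h₁ : W.a₁ = 0) (h₃ : W.a₃ = 0) (h₆ : W.a₆ = 0)
    {x y : L} (hx : x ≠ 0) (h : W.Nonsingular x y) :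
    W.addX x 0 (W.slope x 0 y 0) = W.a₄ / x := by
  have he := h.1
  rw [equation_iff] at he
  rw [slope_of_X_ne hx, addX]
  simp only [h₁, h₃, h₆, zero_mul, add_zero, sub_zero] at he ⊢
  field_simp
  linear_combination he

/-- In the good reduction case, a point with `|x| < 1`, `x ≠ 0`, is translated into `E₁` by `T`. -/
theorem inE1_add_T (A : ValuationSubring L) {W : Affine L} (hyp : ModelHyp A W)
    (hb : A.valuation W.a₄ = 1) {x y : L} (h : W.Nonsingular x y) (hx0 : x ≠ 0)
    (hx : A.valuation x < 1) :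
    InE1 A (Point.some x y h +
      Point.some 0 0 (nonsingular_zero_zero hyp.a₁ hyp.a₃ hyp.a₆ hyp.b_ne)) := by
  rw [add_of_X_ne hx0]
  show 1 < A.valuation (W.addX x 0 (W.slope x 0 y 0))
  rw [addX_zero_zero hyp.a₁ hyp.a₃ hyp.a₆ hx0 h, map_div₀, hb, one_div]
  have hv0 : A.valuation x ≠ 0 := (Valuation.ne_zero_iff _).mpr hx0
  exact (one_lt_inv₀ (zero_lt_iff.mpr hv0)).mpr hx

end general

/-- Piece H1: `Stmt_core` restricted to the good reduction case `|b| = 1`. -/
def Stmt_coreGood : Prop :=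
  ∀ (K₀ L : Type) [Field K₀] [Field L] [DecidableEq L] [Algebra K₀ L] [IsAlgClosed L]
    (A : ValuationSubring L) (W' : Affine K₀), ModelHyp A (W'⁄L) →
    A.valuation (algebraMap K₀ L W'.a₄) = 1 →
  ∀ (p : ℕ), Odd p → A.valuation (p : L) = 1 →
  ∀ (σ : L ≃ₐ[K₀] L), (∀ x, A.valuation (σ x) = A.valuation x) →
    (∀ x, A.valuation x ≤ 1 → A.valuation (σ x - x) < 1) →
  ∀ P : (W'⁄L).Point, (p : ℤ) • P = 0 → σ • P = P

section core

variable {K₀ L : Type} [Field K₀] [Field L] [DecidableEq L] [Algebra K₀ L]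

/-- The Galois action on points is inertia-like as soon as `σ` is. -/
theorem inertiaLike_smul (A : ValuationSubring L) (W' : Affine K₀) (σ : L ≃ₐ[K₀] L)
    (hval : ∀ x, A.valuation (σ x) = A.valuation x)
    (hres : ∀ x, A.valuation x ≤ 1 → A.valuation (σ x - x) < 1) :
    InertiaLike A (W'⁄L) (σ : L →+* L) (fun P : (W'⁄L).Point => σ • P) where
  val_eq := hval
  res := hres
  map_zero := smul_zero σ
  map_some _ _ h := ⟨_, Point.map_some σ.toAlgHom h⟩

/-- In the good reduction case, `σ P - P ∈ E₁` for EVERY point `P`. -/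
theorem smul_sub_inE1 (hF2 : Stmt_F2 (L := L)) (A : ValuationSubring L) (W' : Affine K₀)
    (hyp : ModelHyp A (W'⁄L)) (hb : A.valuation (W'⁄L).a₄ = 1) (σ : L ≃ₐ[K₀] L)
    (hval : ∀ x, A.valuation (σ x) = A.valuation x)
    (hres : ∀ x, A.valuation x ≤ 1 → A.valuation (σ x - x) < 1) (P : (W'⁄L).Point) :
    InE1 A (σ • P - P) := by
  have hI := inertiaLike_smul A W' σ hval hres
  have key : ∀ Q : (W'⁄L).Point, InE0 A Q → InE1 A (σ • Q - Q) := fun Q hQ =>
    hF2 A (W'⁄L) hyp (σ : L →+* L) _ hI Q hQ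
  cases P with
  | zero => exact key _ trivial
  | some x y h =>
    by_cases hx : 1 ≤ A.valuation x
    · exact key _ hx
    · have hx' : A.valuation x < 1 := not_le.mp hx
      set T : (W'⁄L).Point :=
        Point.some 0 0 (nonsingular_zero_zero hyp.a₁ hyp.a₃ hyp.a₆ hyp.b_ne) with hT
      have hσT : σ • T = T := by
        rw [hT, algEquiv_smul_def, Point.map_some]
        congr 1 <;> exact map_zero _
      by_cases hx0 : x = 0
      · subst hx0
        have hy : y = 0 := y_eq_zero_of_x_eq_zero hyp.a₁ hyp.a₃ hyp.a₆ h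
        subst hy
        have : σ • (Point.some (0 : L) 0 h : (W'⁄L).Point) - Point.some 0 0 h = 0 := by
          rw [sub_eq_zero]; exact hσT
        rw [this]
        trivial
      · have hR : InE1 A (Point.some x y h + T) := inE1_add_T A hyp hb h hx0 hx'
        have h1 := key _ (inE0_of_inE1 A _ hR)
        have h2 : σ • (Point.some x y h + T) - (Point.some x y h + T) =
            σ • (Point.some x y h : (W'⁄L).Point) - Point.some x y h := by
          rw [smul_add, hσT]; abel
        rwa [h2] at h1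

end core

/-- Piece H1 (good reduction core), from pieces F1 and F2. -/
theorem coreGood (hF1 : ∀ (L : Type) [Field L] [DecidableEq L], Stmt_F1 (L := L))
    (hF2 : ∀ (L : Type) [Field L] [DecidableEq L], Stmt_F2 (L := L)) : Stmt_coreGood := by
  intro K₀ L _ _ _ _ _ A W' hyp hb p _ hp σ hval hres P hP
  have hb' : A.valuation (W'⁄L).a₄ = 1 := hb
  have hD : InE1 A (σ • P - P) := smul_sub_inE1 (hF2 L) A W' hyp hb' σ hval hres P
  have hpD : p • (σ • P - P) = 0 := by
    have h : (p : ℤ) • (σ • P - P) = 0 := by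
      rw [smul_sub, ← algEquiv_smul_zsmul, hP, smul_zero, sub_zero]
    rwa [natCast_zsmul] at h
  by_contra hne
  exact hF1 L A (W'⁄L) hyp (σ • P - P) hD (fun h0 => hne (sub_eq_zero.mp h0)) p hp hpD

end H55

end Fermat.Agent.S05
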