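/-
S05 piece A: line data (Vieta relations) for the sum of two affine points on `y² = x³ + a x² + b x`.
-/
import Fermat.Agent.S05.Defs

set_option autoImplicit false

namespace Fermat.Agent.S05

open WeierstrassCurve WeierstrassCurve.Affine

variable {L : Type*} [Field L]

lemma legendre_equation_iff {W : Affine L} (h₁ : W.a₁ = 0) (h₃ : W.a₃ = 0) (h₆ : W.a₆ = 0)
    (x y : L) : W.Equation x y ↔ y ^ 2 = x ^ 3 + W.a₂ * x ^ 2 + W.a₄ * x := by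
  rw [Affine.equation_iff, h₁, h₃, h₆]
  constructor <;> intro h <;> linear_combination h

lemma legendre_negY {W : Affine L} (h₁ : W.a₁ = 0) (h₃ : W.a₃ = 0) (x y : L) :
    W.negY x y = -y := by
  simp [Affine.negY, h₁, h₃]

variable [DecidableEq L]

theorem line : Stmt_line (L := L) := by
  intro W h₁ h₃ h₆ x₁ y₁ x₂ y₂ x₃ y₃ hP₁ hP₂ hP₃ hadd
  have e₁ := (legendre_equation_iff h₁ h₃ h₆ x₁ y₁).1 hP₁.1
  have e₂ := (legendre_equation_iff h₁ h₃ h₆ x₂ y₂).1 hP₂.1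
  by_cases hxy : x₁ = x₂ ∧ y₁ = W.negY x₂ y₂
  · rw [Point.add_of_Y_eq hxy.1 hxy.2] at hadd
    exact absurd hadd.symm (Point.some_ne_zero hP₃)
  rw [Point.add_some hxy] at hadd
  have hx₃ : W.addX x₁ x₂ (W.slope x₁ x₂ y₁ y₂) = x₃ := by
    injection hadd
  have hy₃ : W.addY x₁ x₂ y₁ (W.slope x₁ x₂ y₁ y₂) = y₃ := by
    injection hadd
  obtain ⟨ℓ, hℓ⟩ : ∃ ℓ, ℓ = W.slope x₁ x₂ y₁ y₂ := ⟨_, rfl⟩
  rw [← hℓ] at hx₃ hy₃
  simp only [addX, h₁] at hx₃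
  simp only [addY, negAddY, addX, legendre_negY h₁ h₃, h₁] at hy₃
  -- the key relation (*) : divided difference of the cubic along the line
  have key : x₁ ^ 2 + x₁ * x₂ + x₂ ^ 2 + W.a₂ * (x₁ + x₂) + W.a₄ - ℓ ^ 2 * (x₁ + x₂)
      - 2 * ℓ * (y₁ - ℓ * x₁) = 0 ∧ y₂ = ℓ * x₂ + (y₁ - ℓ * x₁) := by
    by_cases hx : x₁ = x₂
    · have hy : y₁ ≠ W.negY x₂ y₂ := fun h => hxy ⟨hx, h⟩
      have hyy := Y_eq_of_Y_ne hP₁.1 hP₂.1 hx hy
      subst hx; subst hyy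
      have hd : y₁ - W.negY x₁ y₁ ≠ 0 := sub_ne_zero.2 hy
      have hℓ' : ℓ * (y₁ - W.negY x₁ y₁) = 3 * x₁ ^ 2 + 2 * W.a₂ * x₁ + W.a₄ - W.a₁ * y₁ := by
        rw [hℓ, slope_of_Y_ne rfl hy, div_mul_cancel₀ _ hd]
      rw [legendre_negY h₁ h₃, h₁] at hℓ'
      refine ⟨?_, by ring⟩
      linear_combination (-1 : L) * hℓ'
    · have hd : x₁ - x₂ ≠ 0 := sub_ne_zero.2 hx
      have hℓ' : ℓ * (x₁ - x₂) = y₁ - y₂ := by
        rw [hℓ, slope_of_X_ne hx, div_mul_cancel₀ _ hd]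
      refine ⟨?_, by linear_combination hℓ'⟩
      apply mul_left_cancel₀ hd
      linear_combination (-1 : L) * e₁ + e₂ + (ℓ * (x₁ - x₂) - y₁ - y₂) * hℓ'
  obtain ⟨key, hy₂⟩ := key
  refine ⟨ℓ, y₁ - ℓ * x₁, by ring, hy₂, ?_, ?_, ?_, ?_⟩
  · rw [← hy₃, ← hx₃]; ring
  · rw [← hx₃]; ring
  · -- Vieta 2
    rw [← hx₃]
    linear_combination (-1 : L) * key
  · -- Vieta 3
    rw [← hx₃]
    linear_combination (-1 : L) * e₁ - x₁ * key
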