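/-
S05 piece H2: the core theorem in the multiplicative case `|b| < 1`, assuming pieces B (F1), C (F2), D (M1).
-/
import Fermat.Agent.S05.Line

set_option autoImplicit false

namespace Fermat.Agent.S05

open WeierstrassCurve WeierstrassCurve.Affine

section aux

variable {L : Type*} [Field L]

/-- Nonvanishing of the discriminant of the model curve. -/
lemma ModelHyp.Δ_ne_zero {A : ValuationSubring L} {W : Affine L} (hyp : ModelHyp A W) :
    W.Δ ≠ 0 := by
  have h2 : (2 : L) ≠ 0 := by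
    intro h
    have := hyp.two
    rw [h, map_zero] at this
    exact zero_ne_one this
  have hd : W.a₂ ^ 2 - 4 * W.a₄ ≠ 0 := by
    intro h
    have := hyp.disc
    rw [h, map_zero] at this
    exact zero_ne_one this
  have hΔ : W.Δ = 16 * W.a₄ ^ 2 * (W.a₂ ^ 2 - 4 * W.a₄) := by
    simp only [WeierstrassCurve.Δ, WeierstrassCurve.b₂, WeierstrassCurve.b₄, WeierstrassCurve.b₆,
      WeierstrassCurve.b₈, hyp.a₁, hyp.a₃, hyp.a₆]
    ring
  rw [hΔ]
  have h16 : (16 : L) ≠ 0 := by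
    have : (16 : L) = 2 ^ 4 := by norm_num
    rw [this]
    exact pow_ne_zero _ h2
  exact mul_ne_zero (mul_ne_zero h16 (pow_ne_zero _ hyp.b_ne)) hd

/-- In the multiplicative case `a` is a unit. -/
lemma ModelHyp.val_a_eq_one {A : ValuationSubring L} {W : Affine L} (hyp : ModelHyp A W)
    (hb : A.valuation W.a₄ < 1) : A.valuation W.a₂ = 1 := by
  have h4 : A.valuation (4 * W.a₄) < 1 := by
    have h4' : A.valuation (4 : L) ≤ 1 := by
      have : (4 : L) = 2 * 2 := by norm_num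
      rw [this, map_mul, hyp.two, one_mul]
    rw [map_mul]
    calc A.valuation 4 * A.valuation W.a₄ ≤ 1 * A.valuation W.a₄ := by gcongr
      _ = A.valuation W.a₄ := one_mul _
      _ < 1 := hb
  have h1 : A.valuation (W.a₂ ^ 2) = 1 := by
    have := hyp.disc
    have e : W.a₂ ^ 2 = (W.a₂ ^ 2 - 4 * W.a₄) + 4 * W.a₄ := by ring
    rw [e, Valuation.map_add_eq_of_lt_left _ (by rw [this]; exact h4), this]
  rw [map_pow] at h1
  exact (pow_eq_one_iff_left (two_ne_zero)).mp h1

end aux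

end Fermat.Agent.S05

namespace Fermat.Agent.S05

open WeierstrassCurve WeierstrassCurve.Affine

section fixedpoint

variable {L : Type*} [Field L] [IsAlgClosed L]

/-- Existence of a point on the `+`-branch above a given `x₀` with `|b| < |x₀| < 1`, fixed by an
inertia-like automorphism fixing `x₀`, `a`, `b`. -/
lemma exists_fixed_branch_point {A : ValuationSubring L} {W : Affine L} (hyp : ModelHyp A W)
    (hb : A.valuation W.a₄ < 1) (β : L) (hβ : β ^ 2 = W.a₂)
    (σ : L →+* L) (hσr : ∀ x, A.valuation x ≤ 1 → A.valuation (σ x - x) < 1)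
    (hσa : σ W.a₂ = W.a₂) (hσb : σ W.a₄ = W.a₄)
    (x₀ : L) (hσx : σ x₀ = x₀) (hx1 : A.valuation x₀ < 1) (hxb : A.valuation W.a₄ < A.valuation x₀) :
    ∃ (y₀ : L) (_ : W.Nonsingular x₀ y₀), A.valuation (y₀ - β * x₀) < A.valuation x₀ ∧ σ y₀ = y₀ := by
  have hx0 : x₀ ≠ 0 := by
    rintro rfl
    rw [map_zero] at hxb
    exact not_lt_zero hxb
  have hvx0 : A.valuation x₀ ≠ 0 := by simpa using hx0
  have hva := hyp.val_a_eq_one hb
  have hvβ : A.valuation β = 1 := by
    have : A.valuation β ^ 2 = 1 := by rw [← map_pow, hβ, hva]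
    exact (pow_eq_one_iff_left two_ne_zero).mp this
  obtain ⟨y', hy'⟩ := IsAlgClosed.exists_pow_nat_eq (x₀ ^ 3 + W.a₂ * x₀ ^ 2 + W.a₄ * x₀)
    (n := 2) (by norm_num)
  -- the product of the two branches is small
  have hprod : (y' - β * x₀) * (y' + β * x₀) = x₀ * (x₀ ^ 2 + W.a₄) := by
    linear_combination hy' - x₀ ^ 2 * hβ
  have hsmall : A.valuation (x₀ ^ 2 + W.a₄) < A.valuation x₀ := by
    apply Valuation.map_add_lt _ _ hxb
    rw [map_pow, pow_two]
    calc A.valuation x₀ * A.valuation x₀ < 1 * A.valuation x₀ :=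
          mul_lt_mul_of_pos_right hx1 (zero_lt_iff.2 hvx0)
      _ = A.valuation x₀ := one_mul _
  have hlt : A.valuation (y' - β * x₀) * A.valuation (y' + β * x₀) <
      A.valuation x₀ * A.valuation x₀ := by
    rw [← map_mul, hprod, map_mul]
    exact mul_lt_mul_of_pos_left hsmall (zero_lt_iff.2 hvx0)
  -- choose the branch
  obtain ⟨y₀, hy₀, hbr⟩ : ∃ y₀ : L, y₀ ^ 2 = x₀ ^ 3 + W.a₂ * x₀ ^ 2 + W.a₄ * x₀ ∧
      A.valuation (y₀ - β * x₀) < A.valuation x₀ := by
    by_cases h1 : A.valuation (y' - β * x₀) < A.valuation x₀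
    · exact ⟨y', hy', h1⟩
    · refine ⟨-y', by rw [neg_sq, hy'], ?_⟩
      have h2 : A.valuation (y' + β * x₀) < A.valuation x₀ := by
        by_contra h2
        push Not at h1 h2
        exact absurd hlt (not_lt.2 (mul_le_mul' h1 h2))
      have : -y' - β * x₀ = -(y' + β * x₀) := by ring
      rw [this, Valuation.map_neg]
      exact h2
  have hns : W.Nonsingular x₀ y₀ :=
    (equation_iff_nonsingular_of_Δ_ne_zero hyp.Δ_ne_zero).1
      ((legendre_equation_iff hyp.a₁ hyp.a₃ hyp.a₆ x₀ y₀).2 hy₀)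
  refine ⟨y₀, hns, hbr, ?_⟩
  -- `σ y₀ = ± y₀`, and the sign is `+` since `σ` is trivial on the residue field
  have hsq : (σ y₀) ^ 2 = y₀ ^ 2 := by
    rw [← map_pow, hy₀]
    simp only [map_add, map_mul, map_pow, hσx, hσa, hσb]
  have hvy : A.valuation y₀ = A.valuation x₀ := by
    have e : y₀ = β * x₀ + (y₀ - β * x₀) := by ring
    rw [e, Valuation.map_add_eq_of_lt_left _ (by rwa [map_mul, hvβ, one_mul]), map_mul, hvβ,
      one_mul]
  rcases eq_or_eq_neg_of_sq_eq_sq _ _ hsq with h | h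
  · exact h
  · exfalso
    -- z = y₀ / x₀ is a unit with σ z = -z
    have hz : A.valuation (y₀ / x₀) = 1 := by
      rw [map_div₀, hvy, div_self hvx0]
    have hσz : σ (y₀ / x₀) = -(y₀ / x₀) := by
      rw [map_div₀, h, hσx, neg_div]
    have := hσr (y₀ / x₀) hz.le
    rw [hσz] at this
    have e : -(y₀ / x₀) - y₀ / x₀ = -(2 * (y₀ / x₀)) := by ring
    rw [e, Valuation.map_neg, map_mul, hyp.two, one_mul, hz] at this
    exact lt_irrefl _ this

end fixedpoint

end Fermat.Agent.S05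

namespace Fermat.Agent.S05

open WeierstrassCurve WeierstrassCurve.Affine

section main

variable {K₀ L : Type} [Field K₀] [Field L] [DecidableEq L] [Algebra K₀ L] [IsAlgClosed L]

omit [IsAlgClosed L] in
/-- The action of `σ` on points is inertia-like. -/
lemma inertiaLike_smul (A : ValuationSubring L) (W' : Affine K₀) (σ : L ≃ₐ[K₀] L)
    (hσv : ∀ x, A.valuation (σ x) = A.valuation x)
    (hσr : ∀ x, A.valuation x ≤ 1 → A.valuation (σ x - x) < 1) :
    InertiaLike A (W'⁄L) (σ : L →+* L) (fun P => σ • P) where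
  val_eq := hσv
  res := hσr
  map_zero := rfl
  map_some := fun _ _ _ => ⟨_, rfl⟩

/-- Core theorem, multiplicative case. -/
theorem core_mult (hM1 : Stmt_M1 (L := L)) (hF1 : Stmt_F1 (L := L)) (hF2 : Stmt_F2 (L := L))
    (A : ValuationSubring L) (W' : Affine K₀) (hyp : ModelHyp A (W'⁄L))
    (hb : A.valuation (algebraMap K₀ L W'.a₄) < 1)
    (p : ℕ) (hodd : Odd p) (hp : A.valuation (p : L) = 1)
    (c : K₀) (hc : A.valuation (algebraMap K₀ L c) ^ p = A.valuation (algebraMap K₀ L W'.a₄) ^ 2)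
    (σ : L ≃ₐ[K₀] L) (hσv : ∀ x, A.valuation (σ x) = A.valuation x)
    (hσr : ∀ x, A.valuation x ≤ 1 → A.valuation (σ x - x) < 1)
    (P : (W'⁄L).Point) (hP : (p : ℤ) • P = 0) : σ • P = P := by
  have hp0 : p ≠ 0 := by
    rintro rfl
    exact absurd hodd (by decide)
  have hP' : p • P = 0 := by rwa [natCast_zsmul] at hP
  have hb' : A.valuation (W'⁄L).a₄ < 1 := hb
  have hI := inertiaLike_smul A W' σ hσv hσr
  obtain ⟨β, hβ⟩ := IsAlgClosed.exists_pow_nat_eq ((W'⁄L).a₂) (n := 2) (by norm_num)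
  obtain ⟨φ, hker, hφ⟩ := hM1 A (W'⁄L) hyp hb' β hβ
  -- it suffices to find a σ-fixed point `P₀` in the same component as `P`
  suffices h : ∃ P₀ : (W'⁄L).Point, σ • P₀ = P₀ ∧ φ P₀ = φ P by
    obtain ⟨P₀, hfix, hcomp⟩ := h
    have hQ : InE0 A (P - P₀) := by
      rw [← hker, map_sub, hcomp, sub_self]
    have hR := hF2 A (W'⁄L) hyp _ _ hI (P - P₀) hQ
    have hR' : σ • (P - P₀) - (P - P₀) = σ • P - P := by
      rw [smul_sub, hfix]; abel
    simp only [hR'] at hR
    by_contra hne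
    have hne' : σ • P - P ≠ 0 := fun h => hne (sub_eq_zero.1 h)
    apply hF1 A (W'⁄L) hyp _ hR hne' p hp
    rw [smul_sub, ← smul_comm σ p P, hP', smul_zero, sub_zero]
  -- notation
  have hb0 : algebraMap K₀ L W'.a₄ ≠ 0 := hyp.b_ne
  have hvb0 : A.valuation (algebraMap K₀ L W'.a₄) ≠ 0 := by simpa using hb0
  have hc0 : algebraMap K₀ L c ≠ 0 := by
    intro h
    rw [h, map_zero, zero_pow hp0] at hc
    exact pow_ne_zero 2 hvb0 hc.symm
  have hvc0 : A.valuation (algebraMap K₀ L c) ≠ 0 := by simpa using hc0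
  have hvc1 : A.valuation (algebraMap K₀ L c) < 1 := by
    by_contra h
    push Not at h
    have h1 : 1 ≤ A.valuation (algebraMap K₀ L c) ^ p := one_le_pow₀ h
    rw [hc] at h1
    have h2 : A.valuation (algebraMap K₀ L W'.a₄) ^ 2 < 1 := pow_lt_one₀ zero_le hb two_ne_zero
    exact absurd h1 (not_le.2 h2)
  have hσc : σ (algebraMap K₀ L c) = algebraMap K₀ L c := σ.commutes c
  have hσa : (σ : L →+* L) (W'⁄L).a₂ = (W'⁄L).a₂ := σ.commutes _
  have hσb : (σ : L →+* L) (W'⁄L).a₄ = (W'⁄L).a₄ := σ.commutes _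
  set cU : (A.ValueGroup)ˣ := valUnit A (algebraMap K₀ L c) hc0 with hcU
  have hcUp : cU ^ p = bUnit hyp ^ 2 := by
    apply Units.ext
    simp only [hcU, valUnit, bUnit, Units.val_pow_eq_pow_val, Units.val_mk0]
    exact hc
  -- small case: `0 < r`, `2 r < p`
  have small : ∀ r : ℕ, 0 < r → 2 * r < p → ∃ P₀ : (W'⁄L).Point, σ • P₀ = P₀ ∧
      φ P₀ = Additive.ofMul (QuotientGroup.mk (cU ^ r)) := by
    intro r hr0 hr
    have hx1 : A.valuation ((algebraMap K₀ L c) ^ r) < 1 := by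
      rw [map_pow]
      exact pow_lt_one₀ zero_le hvc1 hr0.ne'
    have hxb : A.valuation (W'⁄L).a₄ < A.valuation ((algebraMap K₀ L c) ^ r) := by
      by_contra h
      push Not at h
      have h2 : A.valuation ((algebraMap K₀ L c) ^ r) ^ 2 ≤ A.valuation (W'⁄L).a₄ ^ 2 :=
        pow_le_pow_left₀ zero_le h 2
      have h3 : A.valuation (algebraMap K₀ L c) ^ p < A.valuation (algebraMap K₀ L c) ^ (2 * r) :=
        pow_lt_pow_right_of_lt_one₀ (zero_lt_iff.2 hvc0) hvc1 hr
      rw [map_pow, ← pow_mul, mul_comm r 2] at h2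
      exact absurd (h3.trans_le h2) (by rw [hc]; exact lt_irrefl _)
    have hσx : (σ : L →+* L) ((algebraMap K₀ L c) ^ r) = (algebraMap K₀ L c) ^ r := by
      rw [map_pow]; congr 1
    obtain ⟨y₀, hns, hbr, hσy⟩ := exists_fixed_branch_point hyp hb' β hβ (σ : L →+* L) hσr hσa hσb
      _ hσx hx1 hxb
    refine ⟨Point.some _ _ hns, ?_, ?_⟩
    · show Point.some (σ _) (σ y₀) _ = _
      have h1 : σ ((algebraMap K₀ L c) ^ r) = (algebraMap K₀ L c) ^ r := hσx
      have h2 : σ y₀ = y₀ := hσy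
      simp only [h1, h2]
    · rw [hφ _ _ hns (pow_ne_zero _ hc0) hxb hx1 hbr]
      congr 2
      apply Units.ext
      simp [hcU, valUnit, map_pow]
  -- all residues `r < p`
  have allr : ∀ r : ℕ, r < p → ∃ P₀ : (W'⁄L).Point, σ • P₀ = P₀ ∧
      φ P₀ = Additive.ofMul (QuotientGroup.mk (cU ^ r)) := by
    intro r hr
    rcases Nat.eq_zero_or_pos r with rfl | hr0
    · exact ⟨0, smul_zero σ, by simp⟩
    rcases lt_or_gt_of_ne (show 2 * r ≠ p from fun h => by
        obtain ⟨k, hk⟩ := hodd; omega) with h2 | h2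
    · exact small r hr0 h2
    · obtain ⟨P₀, hfix, hcomp⟩ := small (p - r) (by omega) (by omega)
      refine ⟨-P₀, by rw [smul_neg, hfix], ?_⟩
      rw [map_neg, hcomp, ← ofMul_inv, ← QuotientGroup.mk_inv]
      congr 1
      rw [QuotientGroup.eq]
      rw [inv_inv, ← pow_add, Nat.sub_add_cancel hr.le, hcUp]
      exact Subgroup.mem_zpowers _
  -- the component of `P`
  obtain ⟨g, hg⟩ := QuotientGroup.mk_surjective (Additive.toMul (φ P))
  have hgp : g ^ p ∈ Subgroup.zpowers (bUnit hyp ^ 2) := by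
    rw [← QuotientGroup.eq_one_iff, QuotientGroup.mk_pow, hg, ← toMul_nsmul, ← map_nsmul, hP',
      map_zero, toMul_zero]
  obtain ⟨k, hk⟩ := Subgroup.mem_zpowers_iff.1 hgp
  have hgk : g = cU ^ k := by
    have : g ^ p = (cU ^ k) ^ p := by
      rw [← hk, ← hcUp, ← zpow_natCast (cU ^ k) p, ← zpow_natCast cU p, ← zpow_mul, ← zpow_mul,
        mul_comm]
    exact pow_left_injective hp0 this
  have hpZ : (p : ℤ) ≠ 0 := by exact_mod_cast hp0
  obtain ⟨P₀, hfix, hcomp⟩ := allr (k % (p : ℤ)).toNat (by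
    have := Int.emod_lt_of_pos k (show (0 : ℤ) < p by omega)
    have := Int.emod_nonneg k hpZ
    omega)
  refine ⟨P₀, hfix, ?_⟩
  rw [hcomp]
  apply Additive.toMul.injective
  rw [toMul_ofMul, ← hg, hgk, QuotientGroup.eq]
  have hkr : cU ^ k = (bUnit hyp ^ 2) ^ (k / (p : ℤ)) * cU ^ (k % (p : ℤ)).toNat := by
    rw [← hcUp, ← zpow_natCast cU p, ← zpow_mul, ← zpow_natCast cU (k % (p : ℤ)).toNat,
      Int.toNat_of_nonneg (Int.emod_nonneg k hpZ), ← zpow_add, Int.mul_ediv_add_emod]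
  rw [hkr, mul_comm, mul_inv_cancel_right]
  exact Subgroup.zpow_mem _ (Subgroup.mem_zpowers _) _

end main

end Fermat.Agent.S05
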