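/-
S05, piece C (F2), helper87: an inertia-like automorphism moves a point of `E₀` by an element
of the kernel of reduction `E₁`.
-/
import Fermat.Agent.S05.Defs

set_option autoImplicit false

namespace Fermat.Agent.S05

open WeierstrassCurve WeierstrassCurve.Affine

namespace H87

section val

variable {L : Type*} [Field L] {Γ : Type*} [LinearOrderedCommGroupWithZero Γ]
  (v : Valuation L Γ)

lemma val_le_one_of_sq_le_one {g : Γ} (h : g ^ 2 ≤ 1) : g ≤ 1 := by
  by_contra hg
  push Not at hg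
  have : 1 < g ^ 2 := one_lt_pow₀ hg (by norm_num)
  exact absurd h (not_le.mpr this)

lemma val_eq_one_of_sq_eq_one {g : Γ} (h : g ^ 2 = 1) : g = 1 := by
  rcases lt_trichotomy g 1 with hg | hg | hg
  · have : g ^ 2 < 1 := pow_lt_one₀ zero_le hg (by norm_num)
    exact absurd h this.ne
  · exact hg
  · have : 1 < g ^ 2 := one_lt_pow₀ hg (by norm_num)
    exact absurd h this.ne'

variable {v}

/-- On the curve `y² = x³ + a x² + b x` with integral `a, b`, a point with `|x| = 1` has
`|y| ≤ 1`. -/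
lemma val_y_le_one {a b x y : L} (ha : v a ≤ 1) (hb : v b ≤ 1) (hx : v x = 1)
    (heq : y ^ 2 = x ^ 3 + a * x ^ 2 + b * x) : v y ≤ 1 := by
  apply val_le_one_of_sq_le_one
  rw [← map_pow, heq]
  refine v.map_add_le (v.map_add_le ?_ ?_) ?_
  · rw [map_pow, hx, one_pow]
  · rw [map_mul, map_pow, hx, one_pow, mul_one]; exact ha
  · rw [map_mul, hx, mul_one]; exact hb

/-- `|x² + a x + b| < 1` at a point with `|x| = 1`, `|y| < 1`. -/
lemma val_quad_lt_one {a b x y : L} (hx : v x = 1) (hy : v y < 1)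
    (heq : y ^ 2 = x ^ 3 + a * x ^ 2 + b * x) : v (x ^ 2 + a * x + b) < 1 := by
  have h1 : y ^ 2 = x * (x ^ 2 + a * x + b) := by rw [heq]; ring
  have h2 : v y ^ 2 = v (x ^ 2 + a * x + b) := by
    rw [← map_pow, h1, map_mul, hx, one_mul]
  rw [← h2]
  exact pow_lt_one₀ zero_le hy (by norm_num)

/-- The derivative `3x² + 2ax + b` is a unit at a point with `|x| = 1`, `|y| < 1`. -/
lemma val_deriv_eq_one {a b x y : L} (h2 : v (2 : L) = 1)
    (hd : v (a ^ 2 - 4 * b) = 1) (hx : v x = 1) (hy : v y < 1)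
    (heq : y ^ 2 = x ^ 3 + a * x ^ 2 + b * x) :
    v (3 * x ^ 2 + 2 * a * x + b) = 1 := by
  have hu : v (x ^ 2 + a * x + b) < 1 := val_quad_lt_one hx hy heq
  have h4 : v (4 : L) = 1 := by
    have : (4 : L) = 2 * 2 := by norm_num
    rw [this, map_mul, h2, one_mul]
  have h4u : v (4 * (x ^ 2 + a * x + b)) < 1 := by rw [map_mul, h4, one_mul]; exact hu
  have hsq : v ((2 * x + a) ^ 2) = 1 := by
    have : (2 * x + a) ^ 2 = 4 * (x ^ 2 + a * x + b) + (a ^ 2 - 4 * b) := by ring
    rw [this, v.map_add_eq_of_lt_right (by rw [hd]; exact h4u), hd]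
  have h2xa : v (2 * x + a) = 1 := by
    rw [map_pow] at hsq
    exact val_eq_one_of_sq_eq_one hsq
  have : 3 * x ^ 2 + 2 * a * x + b = (x ^ 2 + a * x + b) + x * (2 * x + a) := by ring
  rw [this, v.map_add_eq_of_lt_right (by rw [map_mul, hx, h2xa, one_mul]; exact hu), map_mul, hx,
    h2xa, one_mul]

/-- If `1 < |ℓ|` and `|c| ≤ 1`, `|x₁| ≤ 1`, `|x₂| ≤ 1` then `1 < |ℓ² - c - x₁ - x₂|`. -/
lemma one_lt_val_addX {ℓ c x₁ x₂ : L} (hℓ : 1 < v ℓ) (hc : v c ≤ 1) (h₁ : v x₁ ≤ 1)
    (h₂ : v x₂ ≤ 1) : 1 < v (ℓ ^ 2 - c - x₁ - x₂) := by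
  have hℓ2 : 1 < v (ℓ ^ 2) := by rw [map_pow]; exact one_lt_pow₀ hℓ (by norm_num)
  have hrest : v (c + x₁ + x₂) ≤ 1 := v.map_add_le (v.map_add_le hc h₁) h₂
  have : ℓ ^ 2 - c - x₁ - x₂ = ℓ ^ 2 - (c + x₁ + x₂) := by ring
  rw [this, v.map_sub_eq_of_lt_left (lt_of_le_of_lt hrest hℓ2)]
  exact hℓ2

/-- Secant case. -/
lemma secant_case {a b x y x' y' : L} (ha : v a ≤ 1) (hb : v b ≤ 1) (h2 : v (2 : L) = 1)
    (hd : v (a ^ 2 - 4 * b) = 1) (hx : v x = 1) (hx' : v x' = 1)
    (hxx : v (x' - x) < 1) (hyy : v (y' - y) < 1)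
    (heq : y ^ 2 = x ^ 3 + a * x ^ 2 + b * x)
    (heq' : y' ^ 2 = x' ^ 3 + a * x' ^ 2 + b * x') (hne : x' ≠ x) :
    1 < v (((y' - (-y)) / (x' - x)) ^ 2 - a - x' - x) := by
  have hxx0 : v (x' - x) ≠ 0 := by
    rw [Ne, map_eq_zero, sub_eq_zero]; exact hne
  have hy1 : v y ≤ 1 := val_y_le_one ha hb hx heq
  apply one_lt_val_addX _ ha hx'.le hx.le
  rw [map_div₀, sub_neg_eq_add]
  rcases hy1.lt_or_eq with hy | hy
  · -- |y| < 1
    have hg0 : v (3 * x ^ 2 + 2 * a * x + b) = 1 := val_deriv_eq_one h2 hd hx hy heq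
    have hg : v (x' ^ 2 + x' * x + x ^ 2 + a * (x' + x) + b) = 1 := by
      have : x' ^ 2 + x' * x + x ^ 2 + a * (x' + x) + b
          = (x' - x) * (x' + 2 * x + a) + (3 * x ^ 2 + 2 * a * x + b) := by ring
      rw [this, v.map_add_eq_of_lt_right, hg0]
      rw [hg0, map_mul]
      have h3 : v (x' + 2 * x + a) ≤ 1 := by
        refine v.map_add_le (v.map_add_le hx'.le ?_) ha
        rw [map_mul, h2, hx, one_mul]
      calc v (x' - x) * v (x' + 2 * x + a) ≤ v (x' - x) * 1 := by gcongr
        _ = v (x' - x) := mul_one _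
        _ < 1 := hxx
    have hid : (y' - y) * (y' + y) = (x' - x) * (x' ^ 2 + x' * x + x ^ 2 + a * (x' + x) + b) := by
      have : (y' - y) * (y' + y) = y' ^ 2 - y ^ 2 := by ring
      rw [this, heq, heq']; ring
    have hval : v (y' - y) * v (y' + y) = v (x' - x) := by
      rw [← map_mul, hid, map_mul, hg, mul_one]
    have hyy0 : v (y' - y) ≠ 0 := by
      intro h0
      rw [h0, zero_mul] at hval
      exact hxx0 hval.symm
    have hsum0 : v (y' + y) ≠ 0 := by
      intro h0
      rw [h0, mul_zero] at hval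
      exact hxx0 hval.symm
    rw [one_lt_div₀ (zero_lt_iff.mpr hxx0), ← hval]
    calc v (y' - y) * v (y' + y) < 1 * v (y' + y) := by
          exact mul_lt_mul_of_pos_right hyy (zero_lt_iff.mpr hsum0)
      _ = v (y' + y) := one_mul _
  · -- |y| = 1
    have hsum : v (y' + y) = 1 := by
      have : y' + y = 2 * y + (y' - y) := by ring
      rw [this, v.map_add_eq_of_lt_left, map_mul, h2, hy, one_mul]
      rw [map_mul, h2, hy, one_mul]; exact hyy
    rw [hsum, one_lt_div₀ (zero_lt_iff.mpr hxx0)]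
    exact hxx

/-- Tangent case. -/
lemma tangent_case {a b x y : L} (ha : v a ≤ 1) (h2 : v (2 : L) = 1)
    (hd : v (a ^ 2 - 4 * b) = 1) (hx : v x = 1) (hy : v y < 1) (hy0 : y ≠ 0)
    (heq : y ^ 2 = x ^ 3 + a * x ^ 2 + b * x) :
    1 < v (((3 * x ^ 2 + 2 * a * x + b) / (-y - y)) ^ 2 - a - x - x) := by
  apply one_lt_val_addX _ ha hx.le hx.le
  have hg0 : v (3 * x ^ 2 + 2 * a * x + b) = 1 := val_deriv_eq_one h2 hd hx hy heq
  have hden : v (-y - y) = v y := by
    have : -y - y = -(2 * y) := by ring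
    rw [this, v.map_neg, map_mul, h2, one_mul]
  have hvy0 : v y ≠ 0 := by rw [Ne, map_eq_zero]; exact hy0
  rw [map_div₀, hg0, hden, one_lt_div₀ (zero_lt_iff.mpr hvy0)]
  exact hy

end val

end H87

section main

variable {L : Type*} [Field L]

/-- The curve equation of the model, in the form `y² = x³ + a x² + b x`. -/
lemma H87.model_equation {A : ValuationSubring L} {W : Affine L} (hyp : ModelHyp A W) {x y : L}
    (h : W.Nonsingular x y) : y ^ 2 = x ^ 3 + W.a₂ * x ^ 2 + W.a₄ * x := by
  have := (W.equation_iff x y).mp h.1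
  rw [hyp.a₁, hyp.a₃, hyp.a₆] at this
  linear_combination this

lemma H87.model_negY {A : ValuationSubring L} {W : Affine L} (hyp : ModelHyp A W) (x y : L) :
    W.negY x y = -y := by
  rw [Affine.negY, hyp.a₁, hyp.a₃]; ring

variable [DecidableEq L]

/-- Piece C (F2), assuming that `E₁` is closed under addition (piece B1). -/
theorem F2_of_E1_add (hE1 : Stmt_E1_add (L := L)) : Stmt_F2 (L := L) := by
  intro A W hyp σ s hs Q hQ
  rcases Q with _ | ⟨x, y, h⟩
  · show InE1 A (s 0 - 0)
    rw [hs.map_zero, sub_zero]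
    trivial
  · obtain ⟨h', hsQ⟩ := hs.map_some x y h
    rw [hsQ, sub_eq_add_neg, Point.neg_some]
    have hx1 : 1 ≤ A.valuation x := hQ
    rcases hx1.lt_or_eq with hgt | heq1
    · -- `Q ∈ E₁`
      apply hE1 A W hyp
      · show 1 < A.valuation (σ x)
        rw [hs.val_eq]; exact hgt
      · exact hgt
    · -- `|x| = 1`
      have hx : A.valuation x = 1 := heq1.symm
      have hx' : A.valuation (σ x) = 1 := by rw [hs.val_eq, hx]
      have heq := H87.model_equation hyp h
      have heq' := H87.model_equation hyp h'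
      have hy1 : A.valuation y ≤ 1 := H87.val_y_le_one hyp.a_le hyp.b_le hx heq
      have hxx : A.valuation (σ x - x) < 1 := hs.res x hx.le
      have hyy : A.valuation (σ y - y) < 1 := hs.res y hy1
      by_cases hX : σ x = x
      · by_cases hY : σ y = W.negY x (W.negY x y)
        · rw [Point.add_of_Y_eq hX hY]
          trivial
        · rw [Point.add_of_Y_ne hY]
          show 1 < A.valuation (W.addX (σ x) x (W.slope (σ x) x (σ y) (W.negY x y)))
          rw [Affine.slope_of_Y_ne hX hY, Affine.addX, hyp.a₁, H87.model_negY hyp]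
          rw [H87.model_negY hyp, H87.model_negY hyp, neg_neg] at hY
          -- `σ y = -y`
          have hsq : (σ y) ^ 2 = y ^ 2 := by rw [heq, heq', hX]
          have hσy : σ y = -y := by
            have : (σ y - y) * (σ y + y) = 0 := by linear_combination hsq
            rcases mul_eq_zero.mp this with h0 | h0
            · exact absurd (sub_eq_zero.mp h0) hY
            · exact eq_neg_of_add_eq_zero_left h0
          have hy0 : y ≠ 0 := by
            rintro rfl
            apply hY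
            rw [hσy, neg_zero]
          have hylt : A.valuation y < 1 := by
            have : σ y - y = -(2 * y) := by rw [hσy]; ring
            rw [this, Valuation.map_neg, map_mul, hyp.two, one_mul] at hyy
            exact hyy
          have key := H87.tangent_case (v := A.valuation) hyp.a_le hyp.two hyp.disc hx hylt hy0 heq
          rw [hX, hσy]
          convert key using 2
          ring
      · rw [Point.add_of_X_ne hX]
        show 1 < A.valuation (W.addX (σ x) x (W.slope (σ x) x (σ y) (W.negY x y)))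
        rw [Affine.slope_of_X_ne hX, Affine.addX, hyp.a₁, H87.model_negY hyp]
        have key := H87.secant_case (v := A.valuation) hyp.a_le hyp.b_le hyp.two hyp.disc hx hx'
          hxx hyy heq heq' hX
        convert key using 2
        ring

end main

end Fermat.Agent.S05
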