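/-
S05 piece B2 (F1): the kernel of reduction `E₁` has no `n`-torsion for `n` a unit of `A`.
Proved from the line data (`Stmt_line`) and closure of `E₁` under addition (`Stmt_E1_add`).
Local parameter `z = x / y`; key identity `z₃ = z₁ + z₂ - z₁ z₂ z₃ R`, `R = a - 2 b ℓ / μ`, `|R| ≤ 1`.
-/
import Fermat.Agent.S05.Defs

set_option autoImplicit false

namespace Fermat.Agent.S05.H28

open WeierstrassCurve WeierstrassCurve.Affine

variable {L : Type*} [Field L]

/-- The curve equation of the model, `y² = x³ + a x² + b x`. -/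
lemma eqn_of_nonsingular {A : ValuationSubring L} {W : Affine L} (hyp : ModelHyp A W) {x y : L}
    (h : W.Nonsingular x y) : y ^ 2 = x ^ 3 + W.a₂ * x ^ 2 + W.a₄ * x := by
  have h1 := (W.equation_iff x y).1 h.1
  rw [hyp.a₁, hyp.a₃, hyp.a₆] at h1
  linear_combination h1

/-- On `E₁`: `|y|² = |x|³`. -/
lemma val_y_sq {A : ValuationSubring L} {W : Affine L} (hyp : ModelHyp A W) {x y : L}
    (h : W.Nonsingular x y) (hx : 1 < A.valuation x) :
    A.valuation y ^ 2 = A.valuation x ^ 3 := by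
  have h1 := eqn_of_nonsingular hyp h
  have hx0 : 0 < A.valuation x := lt_trans zero_lt_one hx
  have e1 : A.valuation (W.a₂ * x ^ 2) < A.valuation (x ^ 3) := by
    rw [map_mul, map_pow, map_pow]
    calc A.valuation W.a₂ * A.valuation x ^ 2 ≤ 1 * A.valuation x ^ 2 := by
          gcongr; exact hyp.a_le
      _ = A.valuation x ^ 2 := one_mul _
      _ < A.valuation x ^ 3 := by
          exact pow_lt_pow_right₀ hx (by norm_num)
  have e2 : A.valuation (W.a₄ * x) < A.valuation (x ^ 3) := by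
    rw [map_mul, map_pow]
    calc A.valuation W.a₄ * A.valuation x ≤ 1 * A.valuation x := by
          gcongr; exact hyp.b_le
      _ = A.valuation x ^ 1 := by rw [one_mul, pow_one]
      _ < A.valuation x ^ 3 := by
          exact pow_lt_pow_right₀ hx (by norm_num)
  have e3 : A.valuation (W.a₂ * x ^ 2 + W.a₄ * x) < A.valuation (x ^ 3) :=
    Valuation.map_add_lt _ e1 e2
  have : A.valuation (y ^ 2) = A.valuation (x ^ 3) := by
    rw [h1, add_assoc]
    exact Valuation.map_add_eq_of_lt_left _ e3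
  rwa [map_pow, map_pow] at this

/-- On `E₁`: `1 < |y|`. -/
lemma one_lt_val_y {A : ValuationSubring L} {W : Affine L} (hyp : ModelHyp A W) {x y : L}
    (h : W.Nonsingular x y) (hx : 1 < A.valuation x) : 1 < A.valuation y := by
  have h2 := val_y_sq hyp h hx
  by_contra hcon
  have hcon := not_lt.mp hcon
  have h3 : A.valuation y ^ 2 ≤ 1 := pow_le_one₀ zero_le hcon
  have h4 : 1 < A.valuation x ^ 3 := one_lt_pow₀ hx (by norm_num)
  rw [h2] at h3
  exact absurd h4 (not_lt.mpr h3)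

/-- On `E₁`: `|x / y| < 1`. -/
lemma val_z_lt_one {A : ValuationSubring L} {W : Affine L} (hyp : ModelHyp A W) {x y : L}
    (h : W.Nonsingular x y) (hx : 1 < A.valuation x) : A.valuation (x / y) < 1 := by
  have h2 := val_y_sq hyp h hx
  have hx0 : 0 < A.valuation x := lt_trans zero_lt_one hx
  have hy1 := one_lt_val_y hyp h hx
  have hy0 : 0 < A.valuation y := lt_trans zero_lt_one hy1
  rw [map_div₀, div_lt_one₀ hy0]
  by_contra hcon
  have hcon := not_lt.mp hcon
  -- |y| ≤ |x| gives |y|^2 ≤ |x|^2 < |x|^3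
  have h3 : A.valuation y ^ 2 ≤ A.valuation x ^ 2 := pow_le_pow_left₀ zero_le hcon 2
  have h4 : A.valuation x ^ 2 < A.valuation x ^ 3 := pow_lt_pow_right₀ hx (by norm_num)
  rw [h2] at h3
  exact absurd h4 (not_lt.mpr h3)

/-- The local parameter `z = x / y` (with `z(0) = 0`). -/
noncomputable def zc {W : Affine L} : W.Point → L
  | .zero => 0
  | .some x y _ => x / y

@[simp] lemma zc_zero {W : Affine L} : zc (0 : W.Point) = 0 := rfl

@[simp] lemma zc_some {W : Affine L} {x y : L} (h : W.Nonsingular x y) :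
    zc (Point.some x y h) = x / y := rfl

lemma zc_neg {A : ValuationSubring L} {W : Affine L} (hyp : ModelHyp A W) (P : W.Point) :
    zc (-P) = - zc P := by
  rcases P with _ | ⟨x, y, h⟩
  · show zc (-(0 : W.Point)) = - zc (0 : W.Point)
    simp
  · rw [Point.neg_some, zc_some, zc_some, Affine.negY, hyp.a₁, hyp.a₃]
    ring

lemma val_zc_lt_one {A : ValuationSubring L} {W : Affine L} (hyp : ModelHyp A W) (P : W.Point)
    (hP : InE1 A P) : A.valuation (zc P) < 1 := by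
  rcases P with _ | ⟨x, y, h⟩
  · show A.valuation (0 : L) < 1
    simp
  · exact val_z_lt_one hyp h hP

lemma zc_ne_zero {A : ValuationSubring L} {W : Affine L} (hyp : ModelHyp A W) (P : W.Point)
    (hP : InE1 A P) (hP0 : P ≠ 0) : zc P ≠ 0 := by
  rcases P with _ | ⟨x, y, h⟩
  · exact absurd rfl hP0
  · have hx : 1 < A.valuation x := hP
    have hx0 : x ≠ 0 := by
      rintro rfl
      simp at hx
    have hy0 : y ≠ 0 := by
      rintro rfl
      have := one_lt_val_y hyp h hx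
      simp at this
    rw [zc_some]
    exact div_ne_zero hx0 hy0

/-- The algebraic identity behind the key estimate. -/
lemma key_identity (a b x₁ y₁ x₂ y₂ x₃ y₃ ℓ μ : L)
    (e1 : y₁ = ℓ * x₁ + μ) (e2 : y₂ = ℓ * x₂ + μ) (e3 : -y₃ = ℓ * x₃ + μ)
    (V1 : x₁ + x₂ + x₃ = ℓ ^ 2 - a) (V2 : x₁ * x₂ + x₁ * x₃ + x₂ * x₃ = b - 2 * ℓ * μ)
    (V3 : x₁ * x₂ * x₃ = μ ^ 2) (hy₁ : y₁ ≠ 0) (hy₂ : y₂ ≠ 0) (hy₃ : y₃ ≠ 0) (hμ : μ ≠ 0) :
    x₃ / y₃ = x₁ / y₁ + x₂ / y₂ - (x₁ / y₁) * (x₂ / y₂) * (x₃ / y₃) * (a - 2 * b * ℓ / μ) := by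
  have hy₃' : y₃ = -(ℓ * x₃ + μ) := by linear_combination -e3
  have S : x₃ * y₁ * y₂ - x₁ * y₂ * y₃ - x₂ * y₁ * y₃ = 2 * b * ℓ * μ - a * μ ^ 2 := by
    rw [e1, e2, hy₃']
    linear_combination (3 * ℓ ^ 2) * V3 + (2 * ℓ * μ) * V2 + μ ^ 2 * V1
  field_simp
  linear_combination (μ) * S + (a * μ - 2 * b * ℓ) * V3

/-- Key estimate: for `P₁, P₂, P₁ + P₂` affine points of `E₁`,
`z₃ = z₁ + z₂ - z₁ z₂ z₃ R` with `|R| ≤ 1`. -/
lemma key_estimate [DecidableEq L] (hline : Stmt_line (L := L))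
    {A : ValuationSubring L} {W : Affine L} (hyp : ModelHyp A W)
    {x₁ y₁ x₂ y₂ x₃ y₃ : L} (h₁ : W.Nonsingular x₁ y₁) (h₂ : W.Nonsingular x₂ y₂)
    (h₃ : W.Nonsingular x₃ y₃) (hx₁ : 1 < A.valuation x₁) (hx₂ : 1 < A.valuation x₂)
    (hx₃ : 1 < A.valuation x₃)
    (hadd : Point.some x₁ y₁ h₁ + Point.some x₂ y₂ h₂ = Point.some x₃ y₃ h₃) :
    ∃ R : L, A.valuation R ≤ 1 ∧
      x₃ / y₃ = x₁ / y₁ + x₂ / y₂ - (x₁ / y₁) * (x₂ / y₂) * (x₃ / y₃) * R := by
  obtain ⟨ℓ, μ, e1, e2, e3, V1, V2, V3⟩ :=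
    hline W hyp.a₁ hyp.a₃ hyp.a₆ x₁ y₁ x₂ y₂ x₃ y₃ h₁ h₂ h₃ hadd
  have hv0 : ∀ {x : L}, 1 < A.valuation x → x ≠ 0 := by
    intro x hx
    rintro rfl
    simp at hx
  have hy₁ : y₁ ≠ 0 := hv0 (one_lt_val_y hyp h₁ hx₁)
  have hy₂ : y₂ ≠ 0 := hv0 (one_lt_val_y hyp h₂ hx₂)
  have hy₃ : y₃ ≠ 0 := hv0 (one_lt_val_y hyp h₃ hx₃)
  have hμ : μ ≠ 0 := by
    intro h0
    rw [h0] at V3
    have : x₁ * x₂ * x₃ ≠ 0 := mul_ne_zero (mul_ne_zero (hv0 hx₁) (hv0 hx₂)) (hv0 hx₃)
    exact this (by rw [V3]; ring)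
  refine ⟨W.a₂ - 2 * W.a₄ * ℓ / μ, ?_, key_identity _ _ _ _ _ _ _ _ _ _ e1 e2 e3 V1 V2 V3 hy₁ hy₂ hy₃ hμ⟩
  -- valuation bound
  have hμv : 0 < A.valuation μ := by
    rw [Valuation.pos_iff]; exact hμ
  have hM : A.valuation μ ^ 2 = A.valuation x₁ * A.valuation x₂ * A.valuation x₃ := by
    rw [← map_pow, ← V3, map_mul, map_mul]
  have p1 : (0 : A.ValueGroup) ≤ A.valuation x₁ := zero_le
  have p2 : (0 : A.ValueGroup) ≤ A.valuation x₂ := zero_le
  have p3 : (0 : A.ValueGroup) ≤ A.valuation x₃ := zero_le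
  have b1 : A.valuation x₁ ≤ A.valuation μ ^ 2 := by
    rw [hM]
    calc A.valuation x₁ = A.valuation x₁ * 1 * 1 := by rw [mul_one, mul_one]
      _ ≤ A.valuation x₁ * A.valuation x₂ * A.valuation x₃ := by
          gcongr
  have b2 : A.valuation x₂ ≤ A.valuation μ ^ 2 := by
    rw [hM]
    calc A.valuation x₂ = 1 * A.valuation x₂ * 1 := by rw [mul_one, one_mul]
      _ ≤ A.valuation x₁ * A.valuation x₂ * A.valuation x₃ := by
          gcongr
  have b3 : A.valuation x₃ ≤ A.valuation μ ^ 2 := by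
    rw [hM]
    calc A.valuation x₃ = 1 * 1 * A.valuation x₃ := by rw [one_mul, one_mul]
      _ ≤ A.valuation x₁ * A.valuation x₂ * A.valuation x₃ := by
          gcongr
  have b0 : A.valuation W.a₂ ≤ A.valuation μ ^ 2 := hyp.a_le.trans (hx₁.le.trans b1)
  have hℓ2 : A.valuation ℓ ^ 2 ≤ A.valuation μ ^ 2 := by
    have : ℓ ^ 2 = x₁ + x₂ + x₃ + W.a₂ := by linear_combination -V1
    rw [← map_pow, this]
    exact Valuation.map_add_le _ (Valuation.map_add_le _ (Valuation.map_add_le _ b1 b2) b3) b0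
  have hℓ : A.valuation ℓ ≤ A.valuation μ :=
    (pow_le_pow_iff_left₀ zero_le zero_le (by norm_num : (2 : ℕ) ≠ 0)).1 hℓ2
  refine Valuation.map_sub_le _ hyp.a_le ?_
  rw [map_div₀, map_mul, map_mul, hyp.two, one_mul, div_le_one₀ hμv]
  calc A.valuation W.a₄ * A.valuation ℓ ≤ 1 * A.valuation μ := by
        gcongr
        exact hyp.b_le
    _ = A.valuation μ := one_mul _

/-- A small inequality in the value group. -/
lemma mul4_lt {Γ : Type*} [LinearOrderedCommGroupWithZero Γ] {a b c d : Γ}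
    (ha : a < 1) (hb : 0 < b) (hc : c < 1) (hd : d ≤ 1) : a * b * c * d < b := by
  have h1 : a * c * d ≤ a * 1 * 1 := by gcongr
  have h2 : a * c * d < 1 := lt_of_le_of_lt (by simpa using h1) ha
  calc a * b * c * d = b * (a * c * d) := by ac_rfl
    _ < b * 1 := by gcongr
    _ = b := mul_one b

/-- The induction behind F1: for `P ∈ E₁`, `P ≠ 0` and all `k`,
`k • P ∈ E₁` and `|z(k • P) - k z(P)| < |z(P)|`. -/
lemma nsmul_estimate [DecidableEq L] (hline : Stmt_line (L := L)) (hE1 : Stmt_E1_add (L := L))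
    {A : ValuationSubring L} {W : Affine L} (hyp : ModelHyp A W) (P : W.Point)
    (hP : InE1 A P) (hP0 : P ≠ 0) (k : ℕ) :
    InE1 A (k • P) ∧ A.valuation (zc (k • P) - (k : L) * zc P) < A.valuation (zc P) := by
  have hzP : zc P ≠ 0 := zc_ne_zero hyp P hP hP0
  have hzPv : 0 < A.valuation (zc P) := by rw [Valuation.pos_iff]; exact hzP
  induction k with
  | zero =>
    refine ⟨by rw [zero_smul]; trivial, ?_⟩
    rw [zero_smul, zc_zero, Nat.cast_zero, zero_mul, sub_zero, map_zero]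
    exact hzPv
  | succ k ih =>
    obtain ⟨ihE, ihz⟩ := ih
    have hE' : InE1 A ((k + 1) • P) := by
      rw [succ_nsmul]
      exact hE1 A W hyp _ _ ihE hP
    refine ⟨hE', ?_⟩
    rw [succ_nsmul] at hE' ⊢
    push_cast
    rcases hQ : k • P with _ | ⟨x₁, y₁, h₁⟩
    · -- `k • P = 0`
      rw [hQ] at ihz
      have e0 : (Point.zero : W.Point) + P = P := zero_add P
      rw [e0]
      have e1 : zc P - ((k : L) + 1) * zc P = zc (Point.zero : W.Point) - (k : L) * zc P := by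
        show zc P - ((k : L) + 1) * zc P = 0 - (k : L) * zc P
        ring
      rw [e1]
      exact ihz
    · rw [hQ] at ihz ihE hE'
      rcases hQ' : Point.some x₁ y₁ h₁ + P with _ | ⟨x₃, y₃, h₃⟩
      · -- `k • P + P = 0`
        have e0 : Point.some x₁ y₁ h₁ = -P := eq_neg_of_add_eq_zero_left hQ'
        rw [e0, zc_neg hyp] at ihz
        have e1 : zc (Point.zero : W.Point) - ((k : L) + 1) * zc P = -zc P - (k : L) * zc P := by
          show 0 - ((k : L) + 1) * zc P = -zc P - (k : L) * zc P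
          ring
        rw [e1]
        exact ihz
      · rw [hQ'] at hE'
        rcases P with _ | ⟨x₂, y₂, h₂⟩
        · exact absurd rfl hP0
        · obtain ⟨R, hR, hz⟩ := key_estimate hline hyp h₁ h₂ h₃ ihE hP hE' hQ'
          simp only [zc_some] at ihz hzPv ⊢
          have e1 : x₃ / y₃ - ((k : L) + 1) * (x₂ / y₂) =
              (x₁ / y₁ - (k : L) * (x₂ / y₂)) - (x₁ / y₁) * (x₂ / y₂) * (x₃ / y₃) * R := by
            linear_combination hz
          rw [e1]
          refine Valuation.map_sub_lt _ ihz ?_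
          rw [map_mul, map_mul, map_mul]
          exact mul4_lt (val_z_lt_one hyp h₁ ihE) hzPv (val_z_lt_one hyp h₃ hE') hR

/-- Piece B2 (F1), from the line data and closure of `E₁` under addition. -/
theorem stmt_F1_of [DecidableEq L] (hline : Stmt_line (L := L)) (hE1 : Stmt_E1_add (L := L)) :
    Stmt_F1 (L := L) := by
  intro A W hyp P hP hP0 n hn hnP
  obtain ⟨-, hz⟩ := nsmul_estimate hline hE1 hyp P hP hP0 n
  rw [hnP, zc_zero, zero_sub, Valuation.map_neg, map_mul, hn, one_mul] at hz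
  exact lt_irrefl _ hz

end Fermat.Agent.S05.H28
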