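/-
S05 piece B1: the kernel of reduction `E₁` is closed under addition, from the line data.
-/
import Fermat.Agent.S05.H28_F1

set_option autoImplicit false

namespace Fermat.Agent.S05.H28

open WeierstrassCurve WeierstrassCurve.Affine

variable {L : Type*} [Field L]

/-- From the line data: `(b - x₁x₂) x₁ x₂ = μ (x₂ y₁ + x₁ y₂)`. -/
lemma line_mu_identity (b x₁ y₁ x₂ y₂ x₃ ℓ μ : L)
    (e1 : y₁ = ℓ * x₁ + μ) (e2 : y₂ = ℓ * x₂ + μ)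
    (V2 : x₁ * x₂ + x₁ * x₃ + x₂ * x₃ = b - 2 * ℓ * μ)
    (V3 : x₁ * x₂ * x₃ = μ ^ 2) :
    (b - x₁ * x₂) * (x₁ * x₂) = μ * (x₂ * y₁ + x₁ * y₂) := by
  rw [e1, e2]
  linear_combination (-(x₁ * x₂)) * V2 + (x₁ + x₂) * V3

/-- Affine case of closure of `E₁` under addition. -/
lemma one_lt_val_add [DecidableEq L] (hline : Stmt_line (L := L))
    {A : ValuationSubring L} {W : Affine L} (hyp : ModelHyp A W)
    {x₁ y₁ x₂ y₂ x₃ y₃ : L} (h₁ : W.Nonsingular x₁ y₁) (h₂ : W.Nonsingular x₂ y₂)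
    (h₃ : W.Nonsingular x₃ y₃) (hx₁ : 1 < A.valuation x₁) (hx₂ : 1 < A.valuation x₂)
    (hadd : Point.some x₁ y₁ h₁ + Point.some x₂ y₂ h₂ = Point.some x₃ y₃ h₃) :
    1 < A.valuation x₃ := by
  obtain ⟨ℓ, μ, e1, e2, -, -, V2, V3⟩ :=
    hline W hyp.a₁ hyp.a₃ hyp.a₆ x₁ y₁ x₂ y₂ x₃ y₃ h₁ h₂ h₃ hadd
  have hI := line_mu_identity W.a₄ x₁ y₁ x₂ y₂ x₃ ℓ μ e1 e2 V2 V3
  set X₁ := A.valuation x₁ with hX₁
  set X₂ := A.valuation x₂ with hX₂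
  have hX₁0 : 0 < X₁ := lt_trans zero_lt_one hx₁
  have hX₂0 : 0 < X₂ := lt_trans zero_lt_one hx₂
  have hX12 : 1 < X₁ * X₂ := one_lt_mul_of_lt_of_le' hx₁ hx₂.le
  have hX120 : 0 < X₁ * X₂ := lt_trans zero_lt_one hX12
  have hY₁ : A.valuation y₁ ^ 2 = X₁ ^ 3 := val_y_sq hyp h₁ hx₁
  have hY₂ : A.valuation y₂ ^ 2 = X₂ ^ 3 := val_y_sq hyp h₂ hx₂
  -- `|b - x₁x₂| = |x₁x₂|`
  have hb : A.valuation (W.a₄ - x₁ * x₂) = X₁ * X₂ := by
    have : A.valuation W.a₄ < A.valuation (x₁ * x₂) := by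
      rw [map_mul]; exact lt_of_le_of_lt hyp.b_le hX12
    rw [Valuation.map_sub_eq_of_lt_right _ this, map_mul]
  -- `|μ| |S| = |x₁x₂|²`
  have hprod : A.valuation μ * A.valuation (x₂ * y₁ + x₁ * y₂) = (X₁ * X₂) ^ 2 := by
    rw [← map_mul, ← hI, map_mul, hb, map_mul, pow_two]
  -- `|S|² < |x₁x₂|³`
  have hS : A.valuation (x₂ * y₁ + x₁ * y₂) ^ 2 < (X₁ * X₂) ^ 3 := by
    have t1 : A.valuation (x₂ * y₁) ^ 2 < (X₁ * X₂) ^ 3 := by
      rw [map_mul, mul_pow, hY₁, mul_pow]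
      calc X₂ ^ 2 * X₁ ^ 3 = X₁ ^ 3 * X₂ ^ 2 := mul_comm _ _
        _ < X₁ ^ 3 * X₂ ^ 3 := by
          have : X₂ ^ 2 < X₂ ^ 3 := pow_lt_pow_right₀ hx₂ (by norm_num)
          have h3 : 0 < X₁ ^ 3 := pow_pos hX₁0 3
          gcongr
    have t2 : A.valuation (x₁ * y₂) ^ 2 < (X₁ * X₂) ^ 3 := by
      rw [map_mul, mul_pow, hY₂, mul_pow]
      have : X₁ ^ 2 < X₁ ^ 3 := pow_lt_pow_right₀ hx₁ (by norm_num)
      have h3 : 0 < X₂ ^ 3 := pow_pos hX₂0 3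
      gcongr
    rcases Valuation.map_add' A.valuation (x₂ * y₁) (x₁ * y₂) with h | h
    · exact lt_of_le_of_lt (pow_le_pow_left₀ zero_le h 2) t1
    · exact lt_of_le_of_lt (pow_le_pow_left₀ zero_le h 2) t2
  -- `|μ|² > |x₁x₂|`
  have hμ : X₁ * X₂ < A.valuation μ ^ 2 := by
    by_contra hcon
    have hcon := not_lt.mp hcon
    have h4 : (X₁ * X₂) ^ 4 = A.valuation μ ^ 2 * A.valuation (x₂ * y₁ + x₁ * y₂) ^ 2 := by
      rw [← mul_pow, hprod, ← pow_mul]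
    have h5 : A.valuation μ ^ 2 * A.valuation (x₂ * y₁ + x₁ * y₂) ^ 2 < (X₁ * X₂) ^ 4 := by
      calc A.valuation μ ^ 2 * A.valuation (x₂ * y₁ + x₁ * y₂) ^ 2
          ≤ (X₁ * X₂) * A.valuation (x₂ * y₁ + x₁ * y₂) ^ 2 := by gcongr
        _ < (X₁ * X₂) * (X₁ * X₂) ^ 3 := by gcongr
        _ = (X₁ * X₂) ^ 4 := by rw [← pow_succ']
    rw [← h4] at h5
    exact lt_irrefl _ h5
  have h6 : A.valuation (x₁ * x₂ * x₃) = A.valuation μ ^ 2 := by rw [V3, map_pow]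
  rw [map_mul, map_mul] at h6
  by_contra hcon
  have hcon := not_lt.mp hcon
  have : X₁ * X₂ * A.valuation x₃ ≤ X₁ * X₂ * 1 := by gcongr
  rw [h6, mul_one] at this
  exact absurd hμ (not_lt.mpr this)

/-- Piece B1: `E₁` is closed under addition. -/
theorem stmt_E1_add_of [DecidableEq L] (hline : Stmt_line (L := L)) :
    Stmt_E1_add (L := L) := by
  intro A W hyp P Q hP hQ
  rcases P with _ | ⟨x₁, y₁, h₁⟩
  · have : (Point.zero : W.Point) + Q = Q := zero_add Q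
    rw [this]; exact hQ
  rcases Q with _ | ⟨x₂, y₂, h₂⟩
  · have : Point.some x₁ y₁ h₁ + (Point.zero : W.Point) = Point.some x₁ y₁ h₁ := add_zero _
    rw [this]; exact hP
  rcases hR : Point.some x₁ y₁ h₁ + Point.some x₂ y₂ h₂ with _ | ⟨x₃, y₃, h₃⟩
  · trivial
  · exact one_lt_val_add hline hyp h₁ h₂ h₃ hP hQ hR

/-- Piece B2 (F1) from the line data alone. -/
theorem stmt_F1_of_line [DecidableEq L] (hline : Stmt_line (L := L)) : Stmt_F1 (L := L) :=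
  stmt_F1_of hline (stmt_E1_add_of hline)

end Fermat.Agent.S05.H28
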