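/-
S05 piece H: the core theorem `Stmt_core` on the model curve, from the component homomorphism
(piece D, `Stmt_M1`).  Pieces A (line data), B (F1), C (F2), H1 (good case), H2 (multiplicative
case) are used in their proved form.
-/
import Fermat.Agent.S05.CoreMult
import Fermat.Agent.S05.CoreGood
import Fermat.Agent.S05.H28_E1add
import Fermat.Agent.S05.F2

set_option autoImplicit false

namespace Fermat.Agent.S05

open WeierstrassCurve WeierstrassCurve.Affine

namespace H5

/-- Piece B1, proved. -/
theorem E1_add {L : Type*} [Field L] [DecidableEq L] : Stmt_E1_add (L := L) :=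
  H28.stmt_E1_add_of line

/-- Piece B2 (F1), proved. -/
theorem F1 {L : Type*} [Field L] [DecidableEq L] : Stmt_F1 (L := L) :=
  H28.stmt_F1_of_line line

/-- Piece C (F2), proved. -/
theorem F2 {L : Type*} [Field L] [DecidableEq L] : Stmt_F2 (L := L) :=
  F2_of_E1_add E1_add

end H5

/-- The core theorem, given the component homomorphism. -/
theorem core_of_M1 (hM1 : ∀ (L : Type) [Field L] [DecidableEq L], Stmt_M1 (L := L)) :
    Stmt_core := by
  intro K₀ L _ _ _ _ _ A W' hyp p hodd hp c hc σ hσv hσr P hP
  rcases lt_or_eq_of_le hyp.b_le with hb | hb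
  · exact core_mult (hM1 L) H5.F1 H5.F2 A W' hyp hb p hodd hp c hc σ hσv hσr P hP
  · exact H55.coreGood (fun L _ _ => H5.F1) (fun L _ _ => H5.F2) K₀ L A W' hyp hb p hodd hp σ hσv hσr
      P hP

end Fermat.Agent.S05
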