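/-
S05, piece D (M1, component homomorphism): region predicates and the exact statements of the
sub-lemmas.  Conventions as in `Defs.lean`: `|x| := A.valuation x`, model `y² = x³ + a x² + b x`,
`a := W.a₂`, `b := W.a₄`, multiplicative case `|b| < 1`, `β² = a`.
Regions of an affine point `(x, y)`:
  `E₀`  : `|x| ≥ 1` (or the origin)           -- `InE0` (Defs.lean)
  `C₊`  : `|b| < |x| < 1`, `|y - βx| < |x|`   -- `InCp`
  `C₋`  : `|b| < |x| < 1`, `|y + βx| < |x|`   -- `InCm`
  `T+E₀`: `|x| ≤ |b|` (contains `T = (0,0)`)  -- `InET`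
-/
import Fermat.Agent.S05.Defs

set_option autoImplicit false

namespace Fermat.Agent.S05

open WeierstrassCurve WeierstrassCurve.Affine

section regions

variable {L : Type*} [Field L]

/-- `T + E₀`: affine point with `|x| ≤ |b|` (this includes `T = (0,0)`). -/
def InET (A : ValuationSubring L) {W : Affine L} : W.Point → Prop
  | .zero => False
  | .some x _ _ => A.valuation x ≤ A.valuation W.a₄

/-- The region `C₊`: `|b| < |x| < 1` and `|y - βx| < |x|`. -/
def InCp (A : ValuationSubring L) {W : Affine L} (β : L) : W.Point → Prop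
  | .zero => False
  | .some x y _ => A.valuation W.a₄ < A.valuation x ∧ A.valuation x < 1 ∧
      A.valuation (y - β * x) < A.valuation x

/-- The region `C₋`: `|b| < |x| < 1` and `|y + βx| < |x|`. -/
def InCm (A : ValuationSubring L) {W : Affine L} (β : L) : W.Point → Prop
  | .zero => False
  | .some x y _ => A.valuation W.a₄ < A.valuation x ∧ A.valuation x < 1 ∧
      A.valuation (y + β * x) < A.valuation x

/-- `|x(P)|`, with junk value `0` at the origin. -/
noncomputable def xVal (A : ValuationSubring L) {W : Affine L} : W.Point → A.ValueGroup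
  | .zero => 0
  | .some x _ _ => A.valuation x

variable [DecidableEq L]

/-- D1: `E₀` is closed under addition (multiplicative case). -/
def Stmt_M1_E0E0 : Prop :=
  ∀ (A : ValuationSubring L) (W : Affine L), ModelHyp A W → A.valuation W.a₄ < 1 →
  ∀ P Q : W.Point, InE0 A P → InE0 A Q → InE0 A (P + Q)

/-- D2: `E₀ + C₊ ⊆ C₊`, preserving `|x|`. -/
def Stmt_M1_E0Cp : Prop :=
  ∀ (A : ValuationSubring L) (W : Affine L), ModelHyp A W → A.valuation W.a₄ < 1 →
  ∀ β : L, β ^ 2 = W.a₂ →
  ∀ P Q : W.Point, InE0 A P → InCp A β Q →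
    InCp A β (P + Q) ∧ xVal A (P + Q) = xVal A Q

/-- D3: `C₊ + C₊`, three cases according to `|x₁x₂|` versus `|b|`. -/
def Stmt_M1_CpCp : Prop :=
  ∀ (A : ValuationSubring L) (W : Affine L), ModelHyp A W → A.valuation W.a₄ < 1 →
  ∀ β : L, β ^ 2 = W.a₂ →
  ∀ P Q : W.Point, InCp A β P → InCp A β Q →
    (A.valuation W.a₄ < xVal A P * xVal A Q →
      InCp A β (P + Q) ∧ xVal A (P + Q) = xVal A P * xVal A Q) ∧
    (xVal A P * xVal A Q < A.valuation W.a₄ →
      InCm A β (P + Q) ∧ xVal A (P + Q) * (xVal A P * xVal A Q) = A.valuation W.a₄ ^ 2) ∧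
    (xVal A P * xVal A Q = A.valuation W.a₄ → InET A (P + Q))

/-- D4: translation by `T = (0,0)`: `(x,y) + T = (b/x, -b y/x²)` for `x ≠ 0`. -/
def Stmt_M1_addT : Prop :=
  ∀ (W : Affine L), W.a₁ = 0 → W.a₃ = 0 → W.a₆ = 0 →
  ∀ (hT : W.Nonsingular 0 0) (x y : L) (h : W.Nonsingular x y), x ≠ 0 →
    ∃ h' : W.Nonsingular (W.a₄ / x) (-(W.a₄ * y / x ^ 2)),
      Point.some x y h + Point.some 0 0 hT = Point.some _ _ h'

end regions

end Fermat.Agent.S05
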