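/-
S05 piece D (component homomorphism), helper6: the cases `E₀ + E₀ ⊆ E₀` and `E₀ + C₊ ⊆ C₊`
(`Stmt_M1_E0E0`, `Stmt_M1_E0Cp`), as valuation computations on the line data of three collinear
points of `y² = x³ + a x² + b x`.
-/
import Fermat.Agent.S05.Line
import Fermat.Agent.S05.M1Defs

set_option autoImplicit false

namespace Fermat.Agent.S05.H6

open WeierstrassCurve WeierstrassCurve.Affine

variable {L : Type*} [Field L] {Γ₀ : Type*} [LinearOrderedCommGroupWithZero Γ₀]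
  (v : Valuation L Γ₀)

/-- Line data: `x₁, x₂, x₃` are the abscissae of the intersection of the line
`y = ℓ x + μ` with `y² = x³ + a x² + b x` (Vieta relations); symmetric in `x₁, x₂, x₃`. -/
structure LineData (a b x₁ x₂ x₃ ℓ μ : L) : Prop where
  e₁ : x₁ + x₂ + x₃ = ℓ ^ 2 - a
  e₂ : x₁ * x₂ + x₁ * x₃ + x₂ * x₃ = b - 2 * ℓ * μ
  e₃ : x₁ * x₂ * x₃ = μ ^ 2

namespace LineData

variable {a b x₁ x₂ x₃ ℓ μ : L}

lemma swap₂₃ (h : LineData a b x₁ x₂ x₃ ℓ μ) : LineData a b x₁ x₃ x₂ ℓ μ :=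
  ⟨by linear_combination h.e₁, by linear_combination h.e₂, by linear_combination h.e₃⟩

lemma swap₁₂ (h : LineData a b x₁ x₂ x₃ ℓ μ) : LineData a b x₂ x₁ x₃ ℓ μ :=
  ⟨by linear_combination h.e₁, by linear_combination h.e₂, by linear_combination h.e₃⟩

end LineData

section basic

variable {v}

lemma mul_lt_of_le_of_lt_one {a b c : Γ₀} (hc : 0 < c) (ha : a ≤ c) (hb : b < 1) : a * b < c := by
  rcases eq_or_ne a 0 with rfl | ha0
  · simpa using hc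
  · calc a * b < a * 1 := by
          exact mul_lt_mul_of_pos_left hb (zero_lt_iff.2 ha0)
      _ = a := mul_one a
      _ ≤ c := ha

/-- If `v (b - c) = r` and `v b < r` then `v c = r`. -/
lemma val_eq_of_sub_of_lt {b c : L} {r : Γ₀} (h : v (b - c) = r) (hb : v b < r) : v c = r := by
  have hc : c = b - (b - c) := by ring
  rw [hc, sub_eq_add_neg, add_comm]
  have : v b < v (-(b - c)) := by rw [Valuation.map_neg, h]; exact hb
  rw [Valuation.map_add_eq_of_lt_left v this, Valuation.map_neg, h]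

end basic

/-- Case 1: `E₀ + E₀ ⊆ E₀`. -/
theorem one_le_of_one_le {a b x₁ x₂ x₃ ℓ μ : L} (ha : v a ≤ 1) (hb : v b < 1) (h2 : v 2 = 1)
    (hl : LineData a b x₁ x₂ x₃ ℓ μ) (h₁ : 1 ≤ v x₁) (h₂ : 1 ≤ v x₂) : 1 ≤ v x₃ := by
  by_contra h₃
  rw [not_le] at h₃
  have h12 : 1 ≤ v (x₁ * x₂) := by
    rw [map_mul]; exact one_le_mul_of_one_le_of_one_le h₁ h₂
  have h12pos : 0 < v (x₁ * x₂) := lt_of_lt_of_le zero_lt_one h12
  have hx1 : v x₁ ≤ v (x₁ * x₂) := by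
    rw [map_mul]; exact le_mul_of_one_le_right' h₂
  have hx2 : v x₂ ≤ v (x₁ * x₂) := by
    rw [map_mul]; exact le_mul_of_one_le_left' h₁
  have hsum : v (x₁ + x₂) ≤ v (x₁ * x₂) :=
    (v.map_add_le_max' _ _).trans (max_le hx1 hx2)
  have hsmall : v ((x₁ + x₂) * x₃) < v (x₁ * x₂) := by
    rw [map_mul]; exact mul_lt_of_le_of_lt_one h12pos hsum h₃
  have he₂ : v (b - 2 * ℓ * μ) = v (x₁ * x₂) := by
    rw [← hl.e₂]
    have : x₁ * x₂ + x₁ * x₃ + x₂ * x₃ = x₁ * x₂ + (x₁ + x₂) * x₃ := by ring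
    rw [this]
    exact Valuation.map_add_eq_of_lt_left v hsmall
  have hlm : v (ℓ * μ) = v (x₁ * x₂) := by
    have h2lm : v (2 * ℓ * μ) = v (ℓ * μ) := by
      rw [mul_assoc, map_mul, h2, one_mul]
    rw [← h2lm]
    exact val_eq_of_sub_of_lt he₂ (lt_of_lt_of_le hb h12)
  have hμ : v μ ^ 2 < v (x₁ * x₂) := by
    rw [← map_pow, ← hl.e₃, map_mul]
    exact mul_lt_of_le_of_lt_one h12pos le_rfl h₃
  have hℓ : v ℓ ^ 2 ≤ v (x₁ * x₂) := by
    rw [← map_pow]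
    have : ℓ ^ 2 = x₁ + x₂ + x₃ + a := by linear_combination -hl.e₁
    rw [this]
    refine (v.map_add_le_max' _ _).trans (max_le ?_ (ha.trans h12))
    refine (v.map_add_le_max' _ _).trans (max_le hsum (h₃.le.trans h12))
  have hsq : (v (ℓ * μ)) ^ 2 < v (x₁ * x₂) ^ 2 := by
    rw [map_mul, mul_pow, sq (v (x₁ * x₂))]
    calc v ℓ ^ 2 * v μ ^ 2 ≤ v (x₁ * x₂) * v μ ^ 2 := mul_le_mul_left hℓ _
      _ < v (x₁ * x₂) * v (x₁ * x₂) := mul_lt_mul_of_pos_left hμ h12pos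
  rw [hlm] at hsq
  exact lt_irrefl _ hsq

section basic2

variable {v}

lemma sq_lt_self_of_lt_one {a : Γ₀} (h0 : 0 < a) (h1 : a < 1) : a ^ 2 < a := by
  rw [sq]
  calc a * a < a * 1 := mul_lt_mul_of_pos_left h1 h0
    _ = a := mul_one a

lemma mul_lt_mul_of_lt_of_lt' {a b c d : Γ₀} (h1 : a < b) (h2 : c < d) : a * c < b * d := by
  have hb : 0 < b := lt_of_le_of_lt zero_le h1
  have hd : 0 < d := lt_of_le_of_lt zero_le h2
  calc a * c ≤ b * c := mul_le_mul_left h1.le c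
    _ < b * d := mul_lt_mul_of_pos_left h2 hb

lemma val_pos_of_lt {x y : L} (h : v x < v y) : 0 < v y := lt_of_le_of_lt zero_le h

end basic2

/-- Lower bound: if `1 ≤ |x₁|` and `|b| < |x₂|` then `|b| < |x₃|`. -/
theorem lt_of_one_le_of_lt {a b x₁ x₂ x₃ ℓ μ : L} (ha : v a ≤ 1) (hb : v b < 1) (h2 : v 2 = 1)
    (hl : LineData a b x₁ x₂ x₃ ℓ μ) (h₁ : 1 ≤ v x₁) (h₂ : v b < v x₂) : v b < v x₃ := by
  by_contra h₃
  rw [not_lt] at h₃
  have hx1pos : 0 < v x₁ := lt_of_lt_of_le zero_lt_one h₁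
  have hx2pos : 0 < v x₂ := val_pos_of_lt h₂
  have h12pos : 0 < v (x₁ * x₂) := by rw [map_mul]; exact mul_pos hx1pos hx2pos
  have hb12 : v b < v (x₁ * x₂) := by
    rw [map_mul]
    calc v b < v x₂ := h₂
      _ = 1 * v x₂ := (one_mul _).symm
      _ ≤ v x₁ * v x₂ := mul_le_mul_left h₁ _
  have h13 : v (x₁ * x₃) < v (x₁ * x₂) := by
    rw [map_mul, map_mul]
    exact mul_lt_mul_of_pos_left (lt_of_le_of_lt h₃ h₂) hx1pos
  have h23 : v (x₂ * x₃) < v (x₁ * x₂) := by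
    rw [map_mul, map_mul, mul_comm (v x₁)]
    exact mul_lt_mul_of_pos_left (lt_of_le_of_lt h₃ (lt_of_lt_of_le hb h₁)) hx2pos
  have he₂ : v (b - 2 * ℓ * μ) = v (x₁ * x₂) := by
    rw [← hl.e₂, add_assoc]
    exact Valuation.map_add_eq_of_lt_left v (Valuation.map_add_lt v h13 h23)
  have hlm : v (ℓ * μ) = v (x₁ * x₂) := by
    have h2lm : v (2 * ℓ * μ) = v (ℓ * μ) := by
      rw [mul_assoc, map_mul, h2, one_mul]
    rw [← h2lm]
    exact val_eq_of_sub_of_lt he₂ hb12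
  -- `|x₁x₂| = |ℓ|² |x₃|`
  have hkey : v (x₁ * x₂) = v ℓ ^ 2 * v x₃ := by
    have h1 : v (x₁ * x₂) * v (x₁ * x₂) = v ℓ ^ 2 * v x₃ * v (x₁ * x₂) := by
      calc v (x₁ * x₂) * v (x₁ * x₂) = v ((ℓ * μ) ^ 2) := by rw [map_pow, hlm, sq]
        _ = v (ℓ ^ 2 * (x₁ * x₂ * x₃)) := by rw [hl.e₃]; ring_nf
        _ = v ℓ ^ 2 * v x₃ * v (x₁ * x₂) := by
            rw [map_mul, map_mul v (x₁ * x₂), map_pow, mul_assoc, mul_comm (v x₃)]
    exact (mul_left_inj' h12pos.ne').mp h1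
  have hℓ : v ℓ ^ 2 ≤ max (v x₁) (v x₂) := by
    rw [← map_pow]
    have : ℓ ^ 2 = x₁ + x₂ + x₃ + a := by linear_combination -hl.e₁
    rw [this]
    refine Valuation.map_add_le v (Valuation.map_add_le v ?_ ?_) ?_
    · exact (v.map_add_le_max' _ _)
    · exact le_max_of_le_left ((h₃.trans hb.le).trans h₁)
    · exact le_max_of_le_left (ha.trans h₁)
  rcases le_total (v x₂) (v x₁) with h | h
  · rw [max_eq_left h] at hℓ
    have : v x₁ * v x₂ ≤ v x₁ * v b := by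
      rw [← map_mul, hkey]
      exact mul_le_mul' hℓ h₃
    have := le_of_mul_le_mul_left this hx1pos
    exact absurd h₂ (not_lt.2 this)
  · rw [max_eq_right h] at hℓ
    have : v x₁ * v x₂ ≤ v b * v x₂ := by
      rw [← map_mul, hkey, mul_comm (v b)]
      exact mul_le_mul' hℓ h₃
    have := le_of_mul_le_mul_right this hx2pos
    exact absurd (lt_of_lt_of_le hb h₁) (not_lt.2 this)

/-- Case 2 (branch and size): if `P₁ ∈ E₀`, `P₂ ∈ C₊(β)` and `P₃' = -(P₁ + P₂)` lies in the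
annulus, then `P₃'` is on the branch `-β` and `|x₃| = |x₂|`. -/
theorem branch_of_one_le {a b β x₁ x₂ x₃ y₂ y₃ ℓ μ : L} (ha : v a = 1)
    (h2 : v 2 = 1) (hβ : β ^ 2 = a)
    (hl : LineData a b x₁ x₂ x₃ ℓ μ) (hy₂ : y₂ = ℓ * x₂ + μ) (hy₃ : y₃ = ℓ * x₃ + μ)
    (heq₃ : y₃ ^ 2 = x₃ ^ 3 + a * x₃ ^ 2 + b * x₃)
    (h₁ : 1 ≤ v x₁) (h₂ : v b < v x₂) (h₂' : v x₂ < 1) (h₃ : v b < v x₃) (h₃' : v x₃ < 1)
    (hbr : v (y₂ - β * x₂) < v x₂) :
    v (y₃ + β * x₃) < v x₃ ∧ v x₃ = v x₂ := by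
  have hx1pos : 0 < v x₁ := lt_of_lt_of_le zero_lt_one h₁
  have hx2pos : 0 < v x₂ := val_pos_of_lt h₂
  have hx3pos : 0 < v x₃ := val_pos_of_lt h₃
  have h23pos : 0 < v (x₂ * x₃) := by rw [map_mul]; exact mul_pos hx2pos hx3pos
  have hvβ : v β = 1 := by
    have : v β ^ 2 = 1 := by rw [← map_pow, hβ, ha]
    exact sq_eq_one.mp this
  have h2β : v (2 * β) = 1 := by rw [map_mul, h2, hvβ, one_mul]
  -- the product of the two branch functions is small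
  have hprod : v (y₃ + β * x₃) * v (y₃ - β * x₃) < v x₃ * v x₃ := by
    have : (y₃ + β * x₃) * (y₃ - β * x₃) = x₃ * (x₃ ^ 2 + b) := by
      linear_combination heq₃ - x₃ ^ 2 * hβ
    rw [← map_mul, this, map_mul]
    refine mul_lt_mul_of_pos_left ?_ hx3pos
    refine Valuation.map_add_lt v ?_ h₃
    rw [map_pow]; exact sq_lt_self_of_lt_one hx3pos h₃'
  -- relations (R+) and (R-)
  have Rp : μ * (y₂ * x₃ + y₃ * x₂) = (b - x₂ * x₃) * (x₂ * x₃) := by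
    rw [hy₂, hy₃]
    linear_combination (x₂ * x₃) * hl.e₂ - (x₂ + x₃) * hl.e₃
  have Rm : y₂ * x₃ - y₃ * x₂ = μ * (x₃ - x₂) := by
    rw [hy₂, hy₃]; ring
  have hμ : v μ ^ 2 = v x₁ * v (x₂ * x₃) := by
    rw [← map_pow, ← hl.e₃, mul_assoc, map_mul]
  have hux : v ((y₂ - β * x₂) * x₃) < v (x₂ * x₃) := by
    rw [map_mul, map_mul]
    exact mul_lt_mul_of_pos_right hbr hx3pos
  have hw : v (y₃ + β * x₃) < v x₃ := by
    by_contra hcon
    rw [not_lt] at hcon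
    have hw' : v (y₃ - β * x₃) < v x₃ := by
      by_contra hcon'
      rw [not_lt] at hcon'
      exact absurd hprod (not_lt.2 (mul_le_mul' hcon hcon'))
    have hweq : v (y₃ + β * x₃) = v x₃ := by
      have : y₃ + β * x₃ = (2 * β) * x₃ + (y₃ - β * x₃) := by ring
      rw [this]
      have h2 : v (y₃ - β * x₃) < v (2 * β * x₃) := by
        rw [map_mul, h2β, one_mul]; exact hw'
      rw [Valuation.map_add_eq_of_lt_left v h2, map_mul, h2β, one_mul]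
    have hsum : v (y₂ * x₃ + y₃ * x₂) = v (x₂ * x₃) := by
      have : y₂ * x₃ + y₃ * x₂ = (y₃ + β * x₃) * x₂ + (y₂ - β * x₂) * x₃ := by ring
      rw [this]
      have h2 : v ((y₂ - β * x₂) * x₃) < v ((y₃ + β * x₃) * x₂) := by
        rw [map_mul v (y₃ + β * x₃), hweq, mul_comm (v x₃), ← map_mul]; exact hux
      rw [Valuation.map_add_eq_of_lt_left v h2, map_mul, hweq, mul_comm, ← map_mul]
    have hμeq : v μ = v (b - x₂ * x₃) := by
      have := congrArg v Rp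
      rw [map_mul, hsum, map_mul v (b - x₂ * x₃)] at this
      exact (mul_left_inj' h23pos.ne').mp this
    have hlt : v (b - x₂ * x₃) ^ 2 < v (x₂ * x₃) := by
      rcases le_total (v b) (v (x₂ * x₃)) with hle | hle
      · have h1 : v (b - x₂ * x₃) ≤ v (x₂ * x₃) := Valuation.map_sub_le v hle le_rfl
        have h23lt : v (x₂ * x₃) < 1 := by
          rw [map_mul]
          calc v x₂ * v x₃ < 1 * 1 := mul_lt_mul_of_lt_of_lt' h₂' h₃'
            _ = 1 := one_mul 1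
        exact lt_of_le_of_lt (pow_le_pow_left' h1 2) (sq_lt_self_of_lt_one h23pos h23lt)
      · have h1 : v (b - x₂ * x₃) ≤ v b := Valuation.map_sub_le v le_rfl hle
        refine lt_of_le_of_lt (pow_le_pow_left' h1 2) ?_
        rw [sq, map_mul]
        exact mul_lt_mul_of_lt_of_lt' h₂ h₃
    have hge : v (x₂ * x₃) ≤ v μ ^ 2 := by
      rw [hμ]
      calc v (x₂ * x₃) = 1 * v (x₂ * x₃) := (one_mul _).symm
        _ ≤ v x₁ * v (x₂ * x₃) := mul_le_mul_left h₁ _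
    rw [hμeq] at hge
    exact absurd hlt (not_lt.2 hge)
  refine ⟨hw, ?_⟩
  -- size
  have hwx : v ((y₃ + β * x₃) * x₂) < v (x₂ * x₃) := by
    rw [map_mul, map_mul, mul_comm (v x₂)]
    exact mul_lt_mul_of_pos_right hw hx2pos
  have hdiff : v (y₂ * x₃ - y₃ * x₂) = v (x₂ * x₃) := by
    have : y₂ * x₃ - y₃ * x₂ =
        (2 * β) * (x₂ * x₃) + ((y₂ - β * x₂) * x₃ - (y₃ + β * x₃) * x₂) := by ring
    rw [this]
    have h2 : v ((y₂ - β * x₂) * x₃ - (y₃ + β * x₃) * x₂) < v (2 * β * (x₂ * x₃)) := by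
      rw [map_mul v (2 * β), h2β, one_mul]
      exact Valuation.map_sub_lt v hux hwx
    rw [Valuation.map_add_eq_of_lt_left v h2, map_mul v (2 * β), h2β, one_mul]
  have hμd : v μ * v (x₃ - x₂) = v (x₂ * x₃) := by
    rw [← map_mul, ← Rm, hdiff]
  have hsq : v x₁ * v (x₃ - x₂) ^ 2 = v x₂ * v x₃ := by
    have h1 : v x₁ * v (x₃ - x₂) ^ 2 * v (x₂ * x₃) = v x₂ * v x₃ * v (x₂ * x₃) := by
      calc v x₁ * v (x₃ - x₂) ^ 2 * v (x₂ * x₃)
          = v μ ^ 2 * v (x₃ - x₂) ^ 2 := by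
            rw [hμ, mul_assoc, mul_assoc, mul_comm (v (x₃ - x₂) ^ 2)]
        _ = (v μ * v (x₃ - x₂)) ^ 2 := by rw [mul_pow]
        _ = v x₂ * v x₃ * v (x₂ * x₃) := by rw [hμd, sq, map_mul]
    exact (mul_left_inj' h23pos.ne').mp h1
  by_contra hne
  rcases lt_or_gt_of_ne hne with hlt | hgt
  · -- |x₃| < |x₂|
    rw [Valuation.map_sub_eq_of_lt_right v hlt, sq, ← mul_assoc] at hsq
    have h3 : v x₁ * v x₂ = v x₃ := by
      have := (mul_left_inj' hx2pos.ne').mp (hsq.trans (mul_comm _ _))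
      exact this
    have : v x₂ ≤ v x₃ := by
      rw [← h3]
      calc v x₂ = 1 * v x₂ := (one_mul _).symm
        _ ≤ v x₁ * v x₂ := mul_le_mul_left h₁ _
    exact absurd hlt (not_lt.2 this)
  · -- |x₂| < |x₃|
    rw [Valuation.map_sub_eq_of_lt_left v hgt, sq, ← mul_assoc] at hsq
    have h3 : v x₁ * v x₃ = v x₂ := (mul_left_inj' hx3pos.ne').mp hsq
    have : v x₃ ≤ v x₂ := by
      rw [← h3]
      calc v x₃ = 1 * v x₃ := (one_mul _).symm
        _ ≤ v x₁ * v x₃ := mul_le_mul_left h₁ _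
    exact absurd hgt (not_lt.2 this)

section points

variable {L : Type*} [Field L] [DecidableEq L]

omit [DecidableEq L] in
lemma val_a_eq_one {A : ValuationSubring L} {W : Affine L} (hyp : ModelHyp A W)
    (hb : A.valuation W.a₄ < 1) : A.valuation W.a₂ = 1 := by
  have h4 : A.valuation (4 * W.a₄) < 1 := by
    have : (4 : L) = 2 * 2 := by norm_num
    rw [this, map_mul, map_mul, hyp.two, one_mul, one_mul]; exact hb
  have hsq : A.valuation (W.a₂ ^ 2) = 1 := by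
    have : W.a₂ ^ 2 = (W.a₂ ^ 2 - 4 * W.a₄) + 4 * W.a₄ := by ring
    rw [this]
    have h' : A.valuation (4 * W.a₄) < A.valuation (W.a₂ ^ 2 - 4 * W.a₄) := by
      rw [hyp.disc]; exact h4
    rw [Valuation.map_add_eq_of_lt_left _ h', hyp.disc]
  rw [map_pow] at hsq
  exact sq_eq_one.mp hsq

/-- `Stmt_M1_E0E0`: `E₀` is closed under addition. -/
theorem M1_E0E0 : Stmt_M1_E0E0 (L := L) := by
  intro A W hyp hb P Q hP hQ
  rcases P with _ | ⟨x₁, y₁, h₁⟩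
  · rw [← Point.zero_def, zero_add]; exact hQ
  rcases Q with _ | ⟨x₂, y₂, h₂⟩
  · rw [← Point.zero_def, add_zero]; exact hP
  generalize hR : Point.some x₁ y₁ h₁ + Point.some x₂ y₂ h₂ = R
  rcases R with _ | ⟨x₃, y₃, h₃⟩
  · trivial
  obtain ⟨ℓ, μ, -, -, -, e₁, e₂, e₃⟩ :=
    line W hyp.a₁ hyp.a₃ hyp.a₆ x₁ y₁ x₂ y₂ x₃ y₃ h₁ h₂ h₃ hR
  exact one_le_of_one_le A.valuation hyp.a_le hb hyp.two ⟨e₁, e₂, e₃⟩ hP hQ

/-- `Stmt_M1_E0Cp`: `E₀ + C₊ ⊆ C₊`, preserving `|x|`. -/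
theorem M1_E0Cp : Stmt_M1_E0Cp (L := L) := by
  intro A W hyp hb β hβ P Q hP hQ
  rcases P with _ | ⟨x₁, y₁, h₁⟩
  · rw [← Point.zero_def, zero_add]; exact ⟨hQ, rfl⟩
  rcases Q with _ | ⟨x₂, y₂, h₂⟩
  · exact absurd hQ id
  obtain ⟨hQ1, hQ2, hQ3⟩ := hQ
  have hP' : 1 ≤ A.valuation x₁ := hP
  generalize hR : Point.some x₁ y₁ h₁ + Point.some x₂ y₂ h₂ = R
  rcases R with _ | ⟨x₃, y₃, h₃⟩
  · exfalso
    rw [← Point.zero_def] at hR
    have h := eq_neg_of_add_eq_zero_left hR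
    rw [Point.neg_some] at h
    have hx : x₁ = x₂ := by injection h
    rw [hx] at hP'
    exact absurd hQ2 (not_lt.2 hP')
  obtain ⟨ℓ, μ, -, hy₂, hy₃, e₁, e₂, e₃⟩ :=
    line W hyp.a₁ hyp.a₃ hyp.a₆ x₁ y₁ x₂ y₂ x₃ y₃ h₁ h₂ h₃ hR
  have hl : LineData W.a₂ W.a₄ x₁ x₂ x₃ ℓ μ := ⟨e₁, e₂, e₃⟩
  have hlt1 : A.valuation x₃ < 1 := by
    by_contra hcon
    rw [not_lt] at hcon
    have := one_le_of_one_le A.valuation hyp.a_le hb hyp.two hl.swap₂₃ hP' hcon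
    exact absurd hQ2 (not_lt.2 this)
  have hltb : A.valuation W.a₄ < A.valuation x₃ :=
    lt_of_one_le_of_lt A.valuation hyp.a_le hb hyp.two hl hP' hQ1
  have heq₃ : (-y₃) ^ 2 = x₃ ^ 3 + W.a₂ * x₃ ^ 2 + W.a₄ * x₃ := by
    have := (legendre_equation_iff hyp.a₁ hyp.a₃ hyp.a₆ x₃ y₃).1 h₃.1
    rw [neg_sq]; exact this
  obtain ⟨hbr, hsz⟩ := branch_of_one_le A.valuation (val_a_eq_one hyp hb) hyp.two hβ hl hy₂ hy₃
    heq₃ hP' hQ1 hQ2 hltb hlt1 hQ3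
  refine ⟨⟨hltb, hlt1, ?_⟩, hsz⟩
  have : y₃ - β * x₃ = -(-y₃ + β * x₃) := by ring
  rw [this, Valuation.map_neg]
  exact hbr

end points

end Fermat.Agent.S05.H6
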