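/-
S05 piece A': formulas derived from the line data (`Line.lean`) on the model curve
`y² = x³ + a x² + b x`  (`a := W.a₂`, `b := W.a₄`, `a₁ = a₃ = a₆ = 0`).

Everything is stated division-free first (`derived_*`), then with `t = y / x`.
`T = (0,0)` is the distinguished 2-torsion point; `P + T = (b / x, -(b y) / x²)`.
-/
import Fermat.Agent.S05.Line
import Fermat.Agent.S05.M1Defs

set_option autoImplicit false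

namespace Fermat.Agent.S05

open WeierstrassCurve WeierstrassCurve.Affine

variable {L : Type*} [Field L]

/-! ### Pure algebra consequences of the line data -/

/-- (R1)  `μ (x₂ y₁ + x₁ y₂) = x₁ x₂ (b - x₁ x₂)`. -/
lemma derived_R1 {b ℓ μ x₁ y₁ x₂ y₂ x₃ : L} (hy₁ : y₁ = ℓ * x₁ + μ) (hy₂ : y₂ = ℓ * x₂ + μ)
    (hV₂ : x₁ * x₂ + x₁ * x₃ + x₂ * x₃ = b - 2 * ℓ * μ) (hV₃ : x₁ * x₂ * x₃ = μ ^ 2) :
    μ * (x₂ * y₁ + x₁ * y₂) = x₁ * x₂ * (b - x₁ * x₂) := by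
  subst hy₁ hy₂
  linear_combination (-(x₁ + x₂)) * hV₃ + x₁ * x₂ * hV₂

/-- (R2)  `μ (x₂ - x₁) = x₂ y₁ - x₁ y₂`. -/
lemma derived_R2 {ℓ μ x₁ y₁ x₂ y₂ : L} (hy₁ : y₁ = ℓ * x₁ + μ) (hy₂ : y₂ = ℓ * x₂ + μ) :
    μ * (x₂ - x₁) = x₂ * y₁ - x₁ * y₂ := by
  subst hy₁ hy₂
  ring

/-- (R3)  `x₁ y₃ + x₃ y₁ = μ (x₃ - x₁)`  (this is (R2) for the pair `P₁, -P₃`). -/
lemma derived_R3 {ℓ μ x₁ y₁ x₃ y₃ : L} (hy₁ : y₁ = ℓ * x₁ + μ) (hy₃ : -y₃ = ℓ * x₃ + μ) :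
    x₁ * y₃ + x₃ * y₁ = μ * (x₃ - x₁) := by
  subst hy₁
  linear_combination (-x₁) * hy₃

/-- (A1), division-free:  `x₃ (x₂ y₁ + x₁ y₂)² = x₁ x₂ (x₁ x₂ - b)²`  when `x₁ x₂ ≠ 0`. -/
lemma derived_A1 {b ℓ μ x₁ y₁ x₂ y₂ x₃ : L} (hy₁ : y₁ = ℓ * x₁ + μ) (hy₂ : y₂ = ℓ * x₂ + μ)
    (hV₂ : x₁ * x₂ + x₁ * x₃ + x₂ * x₃ = b - 2 * ℓ * μ) (hV₃ : x₁ * x₂ * x₃ = μ ^ 2)
    (hx₁ : x₁ ≠ 0) (hx₂ : x₂ ≠ 0) :
    x₃ * (x₂ * y₁ + x₁ * y₂) ^ 2 = x₁ * x₂ * (x₁ * x₂ - b) ^ 2 := by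
  have hR1 := derived_R1 hy₁ hy₂ hV₂ hV₃
  have h12 : x₁ * x₂ ≠ 0 := mul_ne_zero hx₁ hx₂
  apply mul_left_cancel₀ h12
  have : (μ * (x₂ * y₁ + x₁ * y₂)) ^ 2 = (x₁ * x₂ * (b - x₁ * x₂)) ^ 2 := by rw [hR1]
  linear_combination this + (x₂ * y₁ + x₁ * y₂) ^ 2 * hV₃

variable [DecidableEq L]

/-! ### The same, packaged for a sum of two affine points -/

/-- All division-free relations for `P₁ + P₂ = P₃` (all three affine) in one statement. -/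
theorem derived_line {W : Affine L} (h₁ : W.a₁ = 0) (h₃ : W.a₃ = 0) (h₆ : W.a₆ = 0)
    {x₁ y₁ x₂ y₂ x₃ y₃ : L} {hP₁ : W.Nonsingular x₁ y₁} {hP₂ : W.Nonsingular x₂ y₂}
    {hP₃ : W.Nonsingular x₃ y₃}
    (hadd : Point.some x₁ y₁ hP₁ + Point.some x₂ y₂ hP₂ = Point.some x₃ y₃ hP₃) :
    ∃ μ : L, x₁ * x₂ * x₃ = μ ^ 2 ∧
      μ * (x₂ * y₁ + x₁ * y₂) = x₁ * x₂ * (W.a₄ - x₁ * x₂) ∧
      μ * (x₂ - x₁) = x₂ * y₁ - x₁ * y₂ ∧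
      x₁ * y₃ + x₃ * y₁ = μ * (x₃ - x₁) ∧
      x₂ * y₃ + x₃ * y₂ = μ * (x₃ - x₂) := by
  obtain ⟨ℓ, μ, hy₁, hy₂, hy₃, -, hV₂, hV₃⟩ :=
    line W h₁ h₃ h₆ x₁ y₁ x₂ y₂ x₃ y₃ hP₁ hP₂ hP₃ hadd
  exact ⟨μ, hV₃, derived_R1 hy₁ hy₂ hV₂ hV₃, derived_R2 hy₁ hy₂, derived_R3 hy₁ hy₃,
    derived_R3 hy₂ hy₃⟩

/-- (A1) for a sum of affine points with `x₁ x₂ ≠ 0`, in the coordinates `t = y / x`:
`x₃ · x₁ x₂ (t₁ + t₂)² = (x₁ x₂ - b)²`. -/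
theorem derived_A1_t {W : Affine L} (h₁ : W.a₁ = 0) (h₃ : W.a₃ = 0) (h₆ : W.a₆ = 0)
    {x₁ y₁ x₂ y₂ x₃ y₃ : L} {hP₁ : W.Nonsingular x₁ y₁} {hP₂ : W.Nonsingular x₂ y₂}
    {hP₃ : W.Nonsingular x₃ y₃}
    (hadd : Point.some x₁ y₁ hP₁ + Point.some x₂ y₂ hP₂ = Point.some x₃ y₃ hP₃)
    (hx₁ : x₁ ≠ 0) (hx₂ : x₂ ≠ 0) :
    x₃ * (x₁ * x₂ * (y₁ / x₁ + y₂ / x₂) ^ 2) = (x₁ * x₂ - W.a₄) ^ 2 := by
  obtain ⟨ℓ, μ, hy₁, hy₂, -, -, hV₂, hV₃⟩ :=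
    line W h₁ h₃ h₆ x₁ y₁ x₂ y₂ x₃ y₃ hP₁ hP₂ hP₃ hadd
  have hA1 := derived_A1 hy₁ hy₂ hV₂ hV₃ hx₁ hx₂
  have h12 : x₁ * x₂ ≠ 0 := mul_ne_zero hx₁ hx₂
  apply mul_left_cancel₀ h12
  have ht : x₁ * x₂ * (y₁ / x₁ + y₂ / x₂) = x₂ * y₁ + x₁ * y₂ := by
    field_simp
  calc x₁ * x₂ * (x₃ * (x₁ * x₂ * (y₁ / x₁ + y₂ / x₂) ^ 2))
      = x₃ * (x₁ * x₂ * (y₁ / x₁ + y₂ / x₂)) ^ 2 := by ring
    _ = x₃ * (x₂ * y₁ + x₁ * y₂) ^ 2 := by rw [ht]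
    _ = x₁ * x₂ * (x₁ * x₂ - W.a₄) ^ 2 := hA1

/-- The `μ` of the line in terms of `t`-coordinates: `μ (t₁ + t₂) = b - x₁ x₂`, together with
`x₁ x₂ x₃ = μ²` and the formula `t₃ = -t₁ + μ / x₁ - x₁ x₂ / μ` (valid when `μ ≠ 0`, i.e. `x₃ ≠ 0`). -/
theorem derived_t {W : Affine L} (h₁ : W.a₁ = 0) (h₃ : W.a₃ = 0) (h₆ : W.a₆ = 0)
    {x₁ y₁ x₂ y₂ x₃ y₃ : L} {hP₁ : W.Nonsingular x₁ y₁} {hP₂ : W.Nonsingular x₂ y₂}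
    {hP₃ : W.Nonsingular x₃ y₃}
    (hadd : Point.some x₁ y₁ hP₁ + Point.some x₂ y₂ hP₂ = Point.some x₃ y₃ hP₃)
    (hx₁ : x₁ ≠ 0) (hx₂ : x₂ ≠ 0) :
    ∃ μ : L, x₁ * x₂ * x₃ = μ ^ 2 ∧
      μ * (y₁ / x₁ + y₂ / x₂) = W.a₄ - x₁ * x₂ ∧
      μ * (x₂ - x₁) = x₁ * x₂ * (y₁ / x₁ - y₂ / x₂) ∧
      (x₃ ≠ 0 → y₃ / x₃ = -(y₁ / x₁) + μ / x₁ - x₁ * x₂ / μ) ∧
      (x₃ ≠ 0 → y₃ / x₃ = -(y₂ / x₂) + μ / x₂ - x₁ * x₂ / μ) := by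
  obtain ⟨μ, hV₃, hR1, hR2, hR3, hR3'⟩ := derived_line h₁ h₃ h₆ hadd
  have h12 : x₁ * x₂ ≠ 0 := mul_ne_zero hx₁ hx₂
  refine ⟨μ, hV₃, ?_, ?_, ?_, ?_⟩
  · apply mul_left_cancel₀ h12
    have ht : x₁ * x₂ * (y₁ / x₁ + y₂ / x₂) = x₂ * y₁ + x₁ * y₂ := by
      field_simp
    calc x₁ * x₂ * (μ * (y₁ / x₁ + y₂ / x₂)) = μ * (x₁ * x₂ * (y₁ / x₁ + y₂ / x₂)) := by ring
      _ = μ * (x₂ * y₁ + x₁ * y₂) := by rw [ht]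
      _ = x₁ * x₂ * (W.a₄ - x₁ * x₂) := hR1
  · have ht : x₁ * x₂ * (y₁ / x₁ - y₂ / x₂) = x₂ * y₁ - x₁ * y₂ := by
      field_simp
    rw [ht, hR2]
  · intro hx₃
    have hμ : μ ≠ 0 := by
      intro h
      rw [h] at hV₃
      have : x₁ * x₂ * x₃ ≠ 0 := mul_ne_zero h12 hx₃
      exact this (by rw [hV₃]; ring)
    have key : x₁ * x₂ / μ = μ / x₃ := by
      rw [div_eq_div_iff hμ hx₃]
      linear_combination hV₃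
    rw [key]
    field_simp
    linear_combination hR3
  · intro hx₃
    have hμ : μ ≠ 0 := by
      intro h
      rw [h] at hV₃
      have : x₁ * x₂ * x₃ ≠ 0 := mul_ne_zero h12 hx₃
      exact this (by rw [hV₃]; ring)
    have key : x₁ * x₂ / μ = μ / x₃ := by
      rw [div_eq_div_iff hμ hx₃]
      linear_combination hV₃
    rw [key]
    field_simp
    linear_combination hR3'

/-! ### The point `T = (0,0)` and translation by it -/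

omit [DecidableEq L] in
/-- `T = (0,0)` is a nonsingular point of the model curve as soon as `b ≠ 0`. -/
lemma derived_nonsingular_T {W : Affine L} (h₆ : W.a₆ = 0) (hb : W.a₄ ≠ 0) :
    W.Nonsingular 0 0 := by
  rw [Affine.nonsingular_iff, Affine.equation_iff]
  refine ⟨by simp [h₆], Or.inl ?_⟩
  simpa using hb.symm

omit [DecidableEq L] in
/-- On the model curve a point with `x = 0` has `y = 0`. -/
lemma derived_y_eq_zero_of_x_eq_zero {W : Affine L} (h₁ : W.a₁ = 0) (h₃ : W.a₃ = 0) (h₆ : W.a₆ = 0)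
    {y : L} (h : W.Equation 0 y) : y = 0 := by
  have := (legendre_equation_iff h₁ h₃ h₆ 0 y).1 h
  have h2 : y ^ 2 = 0 := by rw [this]; ring
  exact pow_eq_zero_iff (two_ne_zero) |>.1 h2

/-- `T + T = 0`. -/
lemma derived_T_add_T {W : Affine L} (h₁ : W.a₁ = 0) (h₃ : W.a₃ = 0) (hT : W.Nonsingular 0 0) :
    Point.some 0 0 hT + Point.some 0 0 hT = 0 := by
  apply Point.add_of_Y_eq rfl
  rw [legendre_negY h₁ h₃]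
  simp

/-- Translation by `T = (0,0)`:  `(x, y) + T = (b / x, -(b y) / x²)` for `x ≠ 0`. -/
theorem derived_add_T {W : Affine L} (h₁ : W.a₁ = 0) (h₃ : W.a₃ = 0) (h₆ : W.a₆ = 0)
    {x y : L} (h : W.Nonsingular x y) (hT : W.Nonsingular 0 0) (hx : x ≠ 0) :
    ∃ h' : W.Nonsingular (W.a₄ / x) (-(W.a₄ * y) / x ^ 2),
      Point.some x y h + Point.some 0 0 hT = Point.some (W.a₄ / x) (-(W.a₄ * y) / x ^ 2) h' := by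
  have e := (legendre_equation_iff h₁ h₃ h₆ x y).1 h.1
  have hxy : ¬(x = 0 ∧ y = W.negY 0 0) := fun hh => hx hh.1
  have hsl : W.slope x 0 y 0 = y / x := by
    rw [slope_of_X_ne hx]
    simp
  have hX : W.addX x 0 (W.slope x 0 y 0) = W.a₄ / x := by
    rw [hsl]
    simp only [addX, h₁]
    field_simp
    linear_combination e
  have hY : W.addY x 0 y (W.slope x 0 y 0) = -(W.a₄ * y) / x ^ 2 := by
    rw [hsl]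
    simp only [addY, negAddY, addX, legendre_negY h₁ h₃, h₁]
    field_simp
    linear_combination (-y) * e
  have key := Point.add_some (W := W) hxy (h₁ := h) (h₂ := hT)
  have hns : W.Nonsingular (W.a₄ / x) (-(W.a₄ * y) / x ^ 2) := by
    have := nonsingular_add h hT hxy
    rwa [hX, hY] at this
  refine ⟨hns, ?_⟩
  rw [key]
  congr 1

/-- In `t`-coordinates: `x(P + T) = b / x`, `t(P + T) = -t(P)`. -/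
theorem derived_add_T_t {W : Affine L} (h₁ : W.a₁ = 0) (h₃ : W.a₃ = 0) (h₆ : W.a₆ = 0)
    {x y : L} (h : W.Nonsingular x y) (hT : W.Nonsingular 0 0) (hx : x ≠ 0) :
    ∃ (x' y' : L) (h' : W.Nonsingular x' y'),
      Point.some x y h + Point.some 0 0 hT = Point.some x' y' h' ∧
      x' ≠ 0 ∧ x * x' = W.a₄ ∧ y' / x' = -(y / x) := by
  obtain ⟨h', hadd⟩ := derived_add_T h₁ h₃ h₆ h hT hx
  have hb : W.a₄ ≠ 0 := by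
    intro hb
    have := hT
    rw [Affine.nonsingular_iff, Affine.equation_iff] at this
    rcases this with ⟨-, h2 | h2⟩
    · simp [hb] at h2
    · simp [h₁, h₃] at h2
  refine ⟨_, _, h', hadd, div_ne_zero hb hx, by field_simp, ?_⟩
  field_simp

/-- Piece D4 (`Stmt_M1_addT` of `M1Defs.lean`): translation by `T = (0,0)`. -/
theorem M1_addT : Stmt_M1_addT (L := L) := by
  intro W h₁ h₃ h₆ hT x y h hx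
  obtain ⟨h', hadd⟩ := derived_add_T h₁ h₃ h₆ h hT hx
  have e : -(W.a₄ * y) / x ^ 2 = -(W.a₄ * y / x ^ 2) := by ring
  refine ⟨e ▸ h', ?_⟩
  rw [hadd]
  congr 1

omit [DecidableEq L] in
/-- Pure algebra behind `derived_F1_key`. -/
lemma derived_F1_key_alg {a b x₁ x₂ t₁ t₂ μ t₃ : L} (hx₁ : x₁ ≠ 0) (hx₂ : x₂ ≠ 0)
    (hD : x₁ * x₂ - b ≠ 0) (hs : t₁ + t₂ ≠ 0) (hμs : μ * (t₁ + t₂) = b - x₁ * x₂)
    (E₂ : t₂ ^ 2 * x₂ = x₂ ^ 2 + a * x₂ + b)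
    (ht₃ : t₃ = -t₁ + μ / x₁ - x₁ * x₂ / μ) :
    t₃ * (t₁ + t₂) = t₁ * t₂ + a + b / x₁ + b / x₂ + b * (t₁ + t₂) ^ 2 / (x₁ * x₂ - b) := by
  have hμ : μ = -(x₁ * x₂ - b) / (t₁ + t₂) := by
    rw [eq_div_iff hs]; linear_combination hμs
  subst ht₃
  rw [hμ]
  have hD' : b - x₁ * x₂ ≠ 0 := fun h => hD (by linear_combination -h)
  field_simp
  linear_combination (x₁ * (x₁ * x₂ - b)) * E₂

/-- Key identity for F1 (`t = y / x`), valid when `x₁ x₂ ≠ b`, `x₃ ≠ 0`: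
`t₃ (t₁ + t₂) = t₁ t₂ + a + b / x₁ + b / x₂ + b (t₁ + t₂)² / (x₁ x₂ - b)`. -/
theorem derived_F1_key {W : Affine L} (h₁ : W.a₁ = 0) (h₃ : W.a₃ = 0) (h₆ : W.a₆ = 0)
    {x₁ y₁ x₂ y₂ x₃ y₃ : L} {hP₁ : W.Nonsingular x₁ y₁} {hP₂ : W.Nonsingular x₂ y₂}
    {hP₃ : W.Nonsingular x₃ y₃}
    (hadd : Point.some x₁ y₁ hP₁ + Point.some x₂ y₂ hP₂ = Point.some x₃ y₃ hP₃)
    (hx₁ : x₁ ≠ 0) (hx₂ : x₂ ≠ 0) (hx₃ : x₃ ≠ 0) (hb : x₁ * x₂ - W.a₄ ≠ 0) :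
    y₃ / x₃ * (y₁ / x₁ + y₂ / x₂) =
      y₁ / x₁ * (y₂ / x₂) + W.a₂ + W.a₄ / x₁ + W.a₄ / x₂ +
        W.a₄ * (y₁ / x₁ + y₂ / x₂) ^ 2 / (x₁ * x₂ - W.a₄) := by
  obtain ⟨μ, -, hμs, -, ht₃, -⟩ := derived_t h₁ h₃ h₆ hadd hx₁ hx₂
  have e₂ := (legendre_equation_iff h₁ h₃ h₆ x₂ y₂).1 hP₂.1
  have hs : y₁ / x₁ + y₂ / x₂ ≠ 0 := by
    intro h
    rw [h, mul_zero] at hμs
    exact hb (by linear_combination hμs)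
  have E₂ : (y₂ / x₂) ^ 2 * x₂ = x₂ ^ 2 + W.a₂ * x₂ + W.a₄ := by
    field_simp
    linear_combination e₂
  exact derived_F1_key_alg hx₁ hx₂ hb hs hμs E₂ (ht₃ hx₃)

end Fermat.Agent.S05
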