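/-
S05, piece D, case (C+,C+): the sum of two points of the component region `C+`
(`|b| < |x| < 1`, `y ≡ β x`).  Independent of the definition of the component homomorphism.
-/
import Mathlib
import Fermat.Agent.S05.Defs

set_option autoImplicit false

namespace Fermat.Agent.S05.H4

open WeierstrassCurve WeierstrassCurve.Affine

section valuation

variable {L : Type*} [Field L] {Γ₀ : Type*} [LinearOrderedCommGroupWithZero Γ₀]
  (v : Valuation L Γ₀)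

lemma val_eq_one_of_sq {x : L} (h : v (x ^ 2) = 1) : v x = 1 := by
  rw [map_pow] at h
  exact (pow_eq_one_iff_of_nonneg zero_le two_ne_zero).1 h

/-- `|a| = 1` from `|a² - 4b| = 1`, `|2| = 1`, `|b| < 1`. -/
lemma val_a_eq_one {a b : L} (h2 : v (2 : L) = 1) (hb : v b < 1) (hd : v (a ^ 2 - 4 * b) = 1) :
    v a = 1 := by
  apply val_eq_one_of_sq
  have h4 : v (4 * b) < 1 := by
    have : (4 : L) = 2 * 2 := by norm_num
    rw [map_mul, this, map_mul, h2, one_mul, one_mul]; exact hb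
  have : a ^ 2 = (a ^ 2 - 4 * b) + 4 * b := by ring
  rw [this, v.map_add_eq_of_lt_left (by rw [hd]; exact h4), hd]

/-- The data shared by all cases: line through two points of `C+`. -/
structure CData (a b β x₁ y₁ x₂ y₂ x₃ y₃ ℓ μ : L) : Prop where
  hβ : β ^ 2 = a
  h2 : v (2 : L) = 1
  hb : v b < 1
  hd : v (a ^ 2 - 4 * b) = 1
  e₁ : y₁ = ℓ * x₁ + μ
  e₂ : y₂ = ℓ * x₂ + μ
  e₃ : -y₃ = ℓ * x₃ + μ
  s₁ : x₁ + x₂ + x₃ = ℓ ^ 2 - a
  s₂ : x₁ * x₂ + x₁ * x₃ + x₂ * x₃ = b - 2 * ℓ * μ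
  s₃ : x₁ * x₂ * x₃ = μ ^ 2
  hx₁b : v b < v x₁
  hx₁ : v x₁ < 1
  ht₁ : v (y₁ - β * x₁) < v x₁
  hx₂b : v b < v x₂
  hx₂ : v x₂ < 1
  ht₂ : v (y₂ - β * x₂) < v x₂

namespace CData

variable {v} {a b β x₁ y₁ x₂ y₂ x₃ y₃ ℓ μ : L}
  (D : CData v a b β x₁ y₁ x₂ y₂ x₃ y₃ ℓ μ)
include D

lemma va : v a = 1 := val_a_eq_one v D.h2 D.hb D.hd

lemma vβ : v β = 1 := by
  apply val_eq_one_of_sq; rw [D.hβ]; exact D.va

lemma x₁_pos : 0 < v x₁ := lt_of_le_of_lt zero_le D.hx₁b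
lemma x₂_pos : 0 < v x₂ := lt_of_le_of_lt zero_le D.hx₂b
lemma x₁_ne : x₁ ≠ 0 := fun h => by have := D.x₁_pos; rw [h, map_zero] at this; exact lt_irrefl _ this
lemma x₂_ne : x₂ ≠ 0 := fun h => by have := D.x₂_pos; rw [h, map_zero] at this; exact lt_irrefl _ this
lemma X_pos : 0 < v (x₁ * x₂) := by rw [map_mul]; exact mul_pos D.x₁_pos D.x₂_pos

/-- `ε = x₂ δ₁ + x₁ δ₂` is small compared to `x₁ x₂`. -/
lemma vε : v (x₂ * (y₁ - β * x₁) + x₁ * (y₂ - β * x₂)) < v (x₁ * x₂) := by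
  apply v.map_add_lt
  · rw [map_mul, map_mul, mul_comm (v x₁)]
    exact mul_lt_mul_of_pos_left D.ht₁ D.x₂_pos
  · rw [map_mul, map_mul]
    exact mul_lt_mul_of_pos_left D.ht₂ D.x₁_pos

/-- `|x₂ y₁ + x₁ y₂| = |x₁ x₂|`. -/
lemma vS : v (x₂ * y₁ + x₁ * y₂) = v (x₁ * x₂) := by
  have e : x₂ * y₁ + x₁ * y₂ = 2 * β * (x₁ * x₂) + (x₂ * (y₁ - β * x₁) + x₁ * (y₂ - β * x₂)) := by
    ring
  have h1 : v (2 * β * (x₁ * x₂)) = v (x₁ * x₂) := by
    rw [map_mul, map_mul, D.h2, D.vβ, one_mul, one_mul]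
  rw [e, v.map_add_eq_of_lt_left (by rw [h1]; exact D.vε), h1]

/-- `μ (x₂ y₁ + x₁ y₂) = x₁ x₂ (b - x₁ x₂)`. -/
lemma μS : μ * (x₂ * y₁ + x₁ * y₂) = x₁ * x₂ * (b - x₁ * x₂) := by
  have e₁ := D.e₁; have e₂ := D.e₂; have s₂ := D.s₂; have s₃ := D.s₃
  subst e₁ e₂
  linear_combination (x₁ * x₂) * s₂ - (x₁ + x₂) * s₃

/-- `|μ| = |b - x₁ x₂|`. -/
lemma vμ : v μ = v (b - x₁ * x₂) := by
  have h : v (x₁ * x₂) * v μ = v (x₁ * x₂) * v (b - x₁ * x₂) := by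
    rw [mul_comm, ← D.vS, ← map_mul, D.μS, map_mul, D.vS]
  exact mul_left_cancel₀ D.X_pos.ne' h

lemma vx₃_mul : v x₃ * v (x₁ * x₂) = v μ ^ 2 := by
  have h := congrArg v D.s₃
  rw [map_mul, map_pow, mul_comm] at h
  exact h

/-- Case (i): `|b| < |x₁ x₂|`. -/
lemma case_i (h : v b < v (x₁ * x₂)) :
    v x₃ = v (x₁ * x₂) ∧ v (y₃ - β * x₃) < v x₃ := by
  have hμ : v μ = v (x₁ * x₂) := by
    rw [D.vμ, v.map_sub_eq_of_lt_right h]
  have hx₃ : v x₃ = v (x₁ * x₂) := by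
    have := D.vx₃_mul
    rw [hμ, sq] at this
    exact mul_right_cancel₀ D.X_pos.ne' this
  refine ⟨hx₃, ?_⟩
  have hx₃pos : 0 < v x₃ := by rw [hx₃]; exact D.X_pos
  -- `X (2βμ + X) = X b - μ ε`
  have key : x₁ * x₂ * (2 * β * μ + x₁ * x₂) =
      x₁ * x₂ * b - μ * (x₂ * (y₁ - β * x₁) + x₁ * (y₂ - β * x₂)) := by
    linear_combination D.μS
  have h1 : v (2 * β * μ + x₁ * x₂) < v (x₁ * x₂) := by
    have : v (x₁ * x₂) * v (2 * β * μ + x₁ * x₂) < v (x₁ * x₂) * v (x₁ * x₂) := by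
      rw [← map_mul, key]
      apply v.map_sub_lt
      · rw [map_mul]; exact mul_lt_mul_of_pos_left h D.X_pos
      · rw [map_mul, hμ]; exact mul_lt_mul_of_pos_left D.vε D.X_pos
    exact lt_of_mul_lt_mul_left this zero_le
  -- `X (2βx₃ + μ) = μ (2βμ + X)`
  have key2 : x₁ * x₂ * (2 * β * x₃ + μ) = μ * (2 * β * μ + x₁ * x₂) := by
    linear_combination (2 * β) * D.s₃
  have h2 : v (2 * β * x₃ + μ) < v x₃ := by
    have : v (x₁ * x₂) * v (2 * β * x₃ + μ) < v (x₁ * x₂) * v x₃ := by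
      rw [← map_mul, key2, map_mul, hμ, hx₃]
      exact mul_lt_mul_of_pos_left h1 D.X_pos
    exact lt_of_mul_lt_mul_left this zero_le
  -- `x₁ (y₃ - βx₃) = -x₁(2βx₃ + μ) + μ x₃ - δ₁ x₃`
  have key3 : x₁ * (y₃ - β * x₃) =
      -(x₁ * (2 * β * x₃ + μ)) + μ * x₃ - (y₁ - β * x₁) * x₃ := by
    have e₁ := D.e₁; have e₃ := D.e₃
    linear_combination (x₃) * e₁ - x₁ * e₃
  have : v x₁ * v (y₃ - β * x₃) < v x₁ * v x₃ := by
    rw [← map_mul, key3]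
    apply v.map_sub_lt
    · apply v.map_add_lt
      · rw [Valuation.map_neg, map_mul]; exact mul_lt_mul_of_pos_left h2 D.x₁_pos
      · rw [map_mul, hμ, map_mul]
        calc v x₁ * v x₂ * v x₃ < v x₁ * 1 * v x₃ := by
              apply mul_lt_mul_of_pos_right _ hx₃pos
              exact mul_lt_mul_of_pos_left D.hx₂ D.x₁_pos
          _ = v x₁ * v x₃ := by rw [mul_one]
    · rw [map_mul]; exact mul_lt_mul_of_pos_right D.ht₁ hx₃pos
  exact lt_of_mul_lt_mul_left this zero_le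

/-- Case (ii): `|x₁ x₂| < |b|`. -/
lemma case_ii (h : v (x₁ * x₂) < v b) :
    v x₃ * v (x₁ * x₂) = v b ^ 2 ∧ v (y₃ + β * x₃) < v x₃ := by
  have hμ : v μ = v b := by
    rw [D.vμ, v.map_sub_eq_of_lt_left h]
  have hx₃ : v x₃ * v (x₁ * x₂) = v b ^ 2 := by
    rw [D.vx₃_mul, hμ]
  refine ⟨hx₃, ?_⟩
  have hbpos : 0 < v b := lt_of_le_of_lt zero_le h
  have hbx₃ : v b < v x₃ := by
    have : v b * v (x₁ * x₂) < v x₃ * v (x₁ * x₂) := by
      rw [hx₃, sq]; exact mul_lt_mul_of_pos_left h hbpos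
    exact lt_of_mul_lt_mul_right this zero_le
  have hx₃pos : 0 < v x₃ := lt_trans hbpos hbx₃
  have key3 : x₁ * (y₃ + β * x₃) = μ * x₃ - (y₁ - β * x₁) * x₃ - μ * x₁ := by
    have e₁ := D.e₁; have e₃ := D.e₃
    linear_combination (x₃) * e₁ - x₁ * e₃
  have : v x₁ * v (y₃ + β * x₃) < v x₁ * v x₃ := by
    rw [← map_mul, key3]
    apply v.map_sub_lt
    · apply v.map_sub_lt
      · rw [map_mul, hμ]; exact mul_lt_mul_of_pos_right D.hx₁b hx₃pos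
      · rw [map_mul]; exact mul_lt_mul_of_pos_right D.ht₁ hx₃pos
    · rw [map_mul, hμ, mul_comm]; exact mul_lt_mul_of_pos_left hbx₃ D.x₁_pos
  exact lt_of_mul_lt_mul_left this zero_le

/-- Case (iii): `|x₁ x₂| = |b|`. -/
lemma case_iii (h : v (x₁ * x₂) = v b) : v x₃ ≤ v b := by
  have hμ : v μ ≤ v b := by
    rw [D.vμ]; exact v.map_sub_le le_rfl h.le
  have hbpos : 0 < v b := by rw [← h]; exact D.X_pos
  have : v x₃ * v b ≤ v b * v b := by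
    rw [← h, D.vx₃_mul, h, sq]
    exact mul_le_mul' hμ hμ
  exact le_of_mul_le_mul_right this hbpos

/-- The two points are not opposite. -/
lemma ne_neg_aux (hx : x₁ = x₂) (hy : y₁ = -y₂) : False := by
  have h1 := D.ht₁
  have h2 := D.ht₂
  rw [hy, hx] at h1
  have e : (2 * β) * x₂ = -((-y₂ - β * x₂) + (y₂ - β * x₂)) := by ring
  have : v ((2 * β) * x₂) < v x₂ := by
    rw [e, Valuation.map_neg]; exact v.map_add_lt h1 h2
  rw [map_mul, map_mul, D.h2, D.vβ, one_mul, one_mul] at this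
  exact lt_irrefl _ this

end CData

end valuation

section points

variable {L : Type*} [Field L] [DecidableEq L]

/-- Piece D, case `(C+, C+)`: the sum of two points `P₁, P₂` of the region
`C+ = {|b| < |x| < 1, |y - βx| < |x|}` is nonzero, and lies in `C+` with `|x₃| = |x₁x₂|` if
`|b| < |x₁x₂|`, in `C-` with `|x₃| |x₁x₂| = |b|²` if `|x₁x₂| < |b|`, and in `{|x| ≤ |b|}` if
`|x₁x₂| = |b|`. -/
theorem cplus_add_cplus (hline : Stmt_line (L := L))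
    (A : ValuationSubring L) (W : Affine L) (hyp : ModelHyp A W) (hb : A.valuation W.a₄ < 1)
    (β : L) (hβ : β ^ 2 = W.a₂)
    {x₁ y₁ x₂ y₂ : L} (h₁ : W.Nonsingular x₁ y₁) (h₂ : W.Nonsingular x₂ y₂)
    (hx₁b : A.valuation W.a₄ < A.valuation x₁) (hx₁ : A.valuation x₁ < 1)
    (ht₁ : A.valuation (y₁ - β * x₁) < A.valuation x₁)
    (hx₂b : A.valuation W.a₄ < A.valuation x₂) (hx₂ : A.valuation x₂ < 1)
    (ht₂ : A.valuation (y₂ - β * x₂) < A.valuation x₂) :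
    Point.some x₁ y₁ h₁ + Point.some x₂ y₂ h₂ ≠ 0 ∧
    ∀ (x₃ y₃ : L) (h₃ : W.Nonsingular x₃ y₃),
      Point.some x₁ y₁ h₁ + Point.some x₂ y₂ h₂ = Point.some x₃ y₃ h₃ →
      (A.valuation W.a₄ < A.valuation (x₁ * x₂) →
        A.valuation x₃ = A.valuation (x₁ * x₂) ∧
          A.valuation (y₃ - β * x₃) < A.valuation x₃) ∧
      (A.valuation (x₁ * x₂) < A.valuation W.a₄ →
        A.valuation x₃ * A.valuation (x₁ * x₂) = A.valuation W.a₄ ^ 2 ∧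
          A.valuation (y₃ + β * x₃) < A.valuation x₃) ∧
      (A.valuation (x₁ * x₂) = A.valuation W.a₄ → A.valuation x₃ ≤ A.valuation W.a₄) := by
  constructor
  · intro h0
    have hneg : Point.some x₁ y₁ h₁ = -Point.some x₂ y₂ h₂ := eq_neg_of_add_eq_zero_left h0
    rw [Point.neg_some] at hneg
    have hx : x₁ = x₂ := by injection hneg
    have hy : y₁ = W.negY x₂ y₂ := by injection hneg
    have hy' : y₁ = -y₂ := by
      rw [hy, Affine.negY, hyp.a₁, hyp.a₃]; ring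
    -- contradiction with `|2β| = 1`
    have hvβ : A.valuation β = 1 := by
      apply val_eq_one_of_sq; rw [hβ]; exact val_a_eq_one _ hyp.two hb hyp.disc
    rw [hy', hx] at ht₁
    have e : (2 * β) * x₂ = -((-y₂ - β * x₂) + (y₂ - β * x₂)) := by ring
    have : A.valuation ((2 * β) * x₂) < A.valuation x₂ := by
      rw [e, Valuation.map_neg]; exact (A.valuation).map_add_lt ht₁ ht₂
    rw [map_mul, map_mul, hyp.two, hvβ, one_mul, one_mul] at this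
    exact lt_irrefl _ this
  · intro x₃ y₃ h₃ hadd
    obtain ⟨ℓ, μ, e₁, e₂, e₃, s₁, s₂, s₃⟩ :=
      hline W hyp.a₁ hyp.a₃ hyp.a₆ x₁ y₁ x₂ y₂ x₃ y₃ h₁ h₂ h₃ hadd
    have D : CData (A.valuation) W.a₂ W.a₄ β x₁ y₁ x₂ y₂ x₃ y₃ ℓ μ :=
      ⟨hβ, hyp.two, hb, hyp.disc, e₁, e₂, e₃, s₁, s₂, s₃, hx₁b, hx₁, ht₁, hx₂b, hx₂, ht₂⟩
    exact ⟨D.case_i, D.case_ii, D.case_iii⟩

end points

end Fermat.Agent.S05.H4
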