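/-
S05, piece D (M1): the component homomorphism `φ : E → Γˣ/⟨|b|²⟩` in the multiplicative case,
assembled from the case lemmas `Stmt_M1_E0E0`, `Stmt_M1_E0Cp`, `Stmt_M1_CpCp`, `Stmt_M1_addT`.
-/
import Fermat.Agent.S05.M1Defs
import Fermat.Agent.S05.Derived
import Fermat.Agent.S05.H4_M1CpCp

set_option autoImplicit false

namespace Fermat.Agent.S05.M1

open WeierstrassCurve WeierstrassCurve.Affine

variable {L : Type*} [Field L]

section quot

variable {A : ValuationSubring L} {W : Affine L} (hyp : ModelHyp A W)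

/-- The class of a unit of the value group in the component group, written additively. -/
noncomputable def cls (u : (A.ValueGroup)ˣ) : Additive (CompGroup hyp) :=
  Additive.ofMul (QuotientGroup.mk u)

lemma cls_mul (u w : (A.ValueGroup)ˣ) : cls hyp (u * w) = cls hyp u + cls hyp w := rfl

lemma cls_inv (u : (A.ValueGroup)ˣ) : cls hyp u⁻¹ = - cls hyp u := rfl

lemma cls_one : cls hyp 1 = 0 := rfl

lemma cls_eq_zero_iff (u : (A.ValueGroup)ˣ) :
    cls hyp u = 0 ↔ u ∈ Subgroup.zpowers (bUnit hyp ^ 2) :=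
  QuotientGroup.eq_one_iff u

lemma cls_b_add_cls_b : cls hyp (bUnit hyp) + cls hyp (bUnit hyp) = 0 := by
  rw [← cls_mul, cls_eq_zero_iff, ← sq]
  exact Subgroup.mem_zpowers _

lemma neg_cls_b : - cls hyp (bUnit hyp) = cls hyp (bUnit hyp) :=
  neg_eq_of_add_eq_zero_left (cls_b_add_cls_b hyp)

lemma val_bUnit : ((bUnit hyp : (A.ValueGroup)ˣ) : A.ValueGroup) = A.valuation W.a₄ := rfl

lemma val_valUnit (x : L) (hx : x ≠ 0) :
    ((valUnit A x hx : (A.ValueGroup)ˣ) : A.ValueGroup) = A.valuation x := rfl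

/-- A unit `u` with `|b|² < u < 1`... more precisely: an element of `⟨|b|²⟩` is `≥ 1` or `≤ |b|²`. -/
lemma mem_zpowers_cases (hb : A.valuation W.a₄ < 1) {u : (A.ValueGroup)ˣ}
    (hu : u ∈ Subgroup.zpowers (bUnit hyp ^ 2)) :
    (1 : A.ValueGroup) ≤ u ∨ (u : A.ValueGroup) ≤ A.valuation W.a₄ ^ 2 := by
  obtain ⟨k, rfl⟩ := Subgroup.mem_zpowers_iff.1 hu
  have hb0 : (0 : A.ValueGroup) < A.valuation W.a₄ ^ 2 :=
    pow_pos (zero_lt_iff.2 (by simpa using hyp.b_ne)) 2
  have hb1 : A.valuation W.a₄ ^ 2 ≤ 1 := pow_le_one₀ zero_le hb.le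
  have hval : (((bUnit hyp ^ 2) ^ k : (A.ValueGroup)ˣ) : A.ValueGroup) =
      (A.valuation W.a₄ ^ 2) ^ k := by
    rw [Units.val_zpow_eq_zpow_val, Units.val_pow_eq_pow_val, val_bUnit]
  rw [hval]
  rcases le_or_gt k 0 with hk | hk
  · exact Or.inl (one_le_zpow_of_nonpos₀ hb0 hb1 hk)
  · right
    obtain ⟨n, rfl⟩ : ∃ n : ℕ, k = n + 1 := ⟨(k - 1).toNat, by omega⟩
    rw [zpow_add_one₀ hb0.ne', zpow_natCast]
    calc (A.valuation W.a₄ ^ 2) ^ n * A.valuation W.a₄ ^ 2
        ≤ 1 * A.valuation W.a₄ ^ 2 := by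
          gcongr
          exact pow_le_one₀ zero_le hb1
      _ = A.valuation W.a₄ ^ 2 := one_mul _

include hyp in
lemma b_sq_lt_b (hb : A.valuation W.a₄ < 1) : A.valuation W.a₄ ^ 2 < A.valuation W.a₄ := by
  have hb0 : (0 : A.ValueGroup) < A.valuation W.a₄ := zero_lt_iff.2 (by simpa using hyp.b_ne)
  calc A.valuation W.a₄ ^ 2 = A.valuation W.a₄ * A.valuation W.a₄ := sq _
    _ < A.valuation W.a₄ * 1 := by gcongr
    _ = A.valuation W.a₄ := mul_one _

lemma cls_b_ne_zero (hb : A.valuation W.a₄ < 1) : cls hyp (bUnit hyp) ≠ 0 := by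
  intro h
  rcases mem_zpowers_cases hyp hb ((cls_eq_zero_iff hyp _).1 h) with h1 | h1
  · rw [val_bUnit] at h1; exact absurd hb (not_lt.2 h1)
  · rw [val_bUnit] at h1; exact absurd (b_sq_lt_b hyp hb) (not_lt.2 h1)

lemma cls_ne_zero_of_mid (hb : A.valuation W.a₄ < 1) {u : (A.ValueGroup)ˣ}
    (h1 : A.valuation W.a₄ < (u : A.ValueGroup)) (h2 : (u : A.ValueGroup) < 1) :
    cls hyp u ≠ 0 := by
  intro h
  rcases mem_zpowers_cases hyp hb ((cls_eq_zero_iff hyp _).1 h) with h3 | h3
  · exact absurd h2 (not_lt.2 h3)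
  · exact absurd (lt_trans (lt_of_le_of_lt h3 (b_sq_lt_b hyp hb)) h1) (lt_irrefl _)

end quot


section map

variable {A : ValuationSubring L} {W : Affine L} (hyp : ModelHyp A W) (β : L)

open Classical in
/-- The component map. -/
noncomputable def compMap : W.Point → Additive (CompGroup hyp)
  | .zero => 0
  | .some x y _ =>
    if hx : x = 0 then cls hyp (bUnit hyp)
    else if 1 ≤ A.valuation x then 0
    else if A.valuation x ≤ A.valuation W.a₄ then cls hyp (bUnit hyp)
    else if A.valuation (y - β * x) < A.valuation x then cls hyp (valUnit A x hx)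
    else - cls hyp (valUnit A x hx)

lemma compMap_zero : compMap hyp β (0 : W.Point) = 0 := rfl

lemma compMap_of_one_le {x y : L} (h : W.Nonsingular x y) (hx : 1 ≤ A.valuation x) :
    compMap hyp β (.some x y h) = 0 := by
  have hx0 : x ≠ 0 := by
    rintro rfl
    rw [map_zero] at hx
    exact absurd hx (not_le.2 zero_lt_one)
  simp only [compMap, dif_neg hx0, if_pos hx]

lemma compMap_of_le_b (hb : A.valuation W.a₄ < 1) {x y : L} (h : W.Nonsingular x y)
    (hx : A.valuation x ≤ A.valuation W.a₄) :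
    compMap hyp β (.some x y h) = cls hyp (bUnit hyp) := by
  by_cases hx0 : x = 0
  · simp only [compMap, dif_pos hx0]
  · have h1 : ¬ 1 ≤ A.valuation x := not_le.2 (lt_of_le_of_lt hx hb)
    simp only [compMap, dif_neg hx0, if_neg h1, if_pos hx]

lemma compMap_of_Cp {x y : L} (h : W.Nonsingular x y) (hx0 : x ≠ 0)
    (hxb : A.valuation W.a₄ < A.valuation x) (hx1 : A.valuation x < 1)
    (ht : A.valuation (y - β * x) < A.valuation x) :
    compMap hyp β (.some x y h) = cls hyp (valUnit A x hx0) := by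
  simp only [compMap, dif_neg hx0, if_neg (not_le.2 hx1), if_neg (not_le.2 hxb), if_pos ht]

lemma compMap_of_not_Cp {x y : L} (h : W.Nonsingular x y) (hx0 : x ≠ 0)
    (hxb : A.valuation W.a₄ < A.valuation x) (hx1 : A.valuation x < 1)
    (ht : ¬ A.valuation (y - β * x) < A.valuation x) :
    compMap hyp β (.some x y h) = - cls hyp (valUnit A x hx0) := by
  simp only [compMap, dif_neg hx0, if_neg (not_le.2 hx1), if_neg (not_le.2 hxb), if_neg ht]


end map

/-! ### The middle region -/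

section mid

variable {A : ValuationSubring L} {W : Affine L} (hyp : ModelHyp A W)

include hyp

lemma val_a (hb : A.valuation W.a₄ < 1) : A.valuation W.a₂ = 1 :=
  H4.val_a_eq_one _ hyp.two hb hyp.disc

lemma val_β (hb : A.valuation W.a₄ < 1) {β : L} (hβ : β ^ 2 = W.a₂) : A.valuation β = 1 := by
  apply H4.val_eq_one_of_sq
  rw [hβ]
  exact val_a hyp hb

lemma mid_or (_hb : A.valuation W.a₄ < 1) {β : L} (hβ : β ^ 2 = W.a₂) {x y : L}
    (h : W.Nonsingular x y) (hxb : A.valuation W.a₄ < A.valuation x) (hx1 : A.valuation x < 1) :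
    A.valuation (y - β * x) < A.valuation x ∨ A.valuation (y + β * x) < A.valuation x := by
  have e := (legendre_equation_iff hyp.a₁ hyp.a₃ hyp.a₆ x y).1 h.1
  have hxpos : 0 < A.valuation x := lt_of_le_of_lt zero_le hxb
  have key : (y - β * x) * (y + β * x) = x * (x ^ 2 + W.a₄) := by
    linear_combination e - x ^ 2 * hβ
  have h1 : A.valuation (x ^ 2 + W.a₄) < A.valuation x := by
    apply (A.valuation).map_add_lt _ hxb
    rw [map_pow, sq]
    calc A.valuation x * A.valuation x < A.valuation x * 1 := by gcongr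
      _ = A.valuation x := mul_one _
  have h2 : A.valuation (y - β * x) * A.valuation (y + β * x) < A.valuation x * A.valuation x := by
    rw [← map_mul, key, map_mul]
    gcongr
  by_contra hcon
  simp only [not_or, not_lt] at hcon
  exact absurd h2 (not_lt.2 (mul_le_mul' hcon.1 hcon.2))

lemma mid_not_both (hb : A.valuation W.a₄ < 1) {β : L} (hβ : β ^ 2 = W.a₂) {x y : L}
    (_hx0 : x ≠ 0)
    (h1 : A.valuation (y - β * x) < A.valuation x) (h2 : A.valuation (y + β * x) < A.valuation x) :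
    False := by
  have e : 2 * β * x = (y + β * x) - (y - β * x) := by ring
  have h3 : A.valuation (2 * β * x) < A.valuation x := by
    rw [e]; exact (A.valuation).map_sub_lt h2 h1
  rw [map_mul, map_mul, hyp.two, val_β hyp hb hβ, one_mul, one_mul] at h3
  exact lt_irrefl _ h3

end mid

/-! ### Translation by `T` -/

section translate

variable [DecidableEq L] {A : ValuationSubring L} {W : Affine L} (hyp : ModelHyp A W)

/-- The point `T = (0,0)`. -/
noncomputable def ptT : W.Point :=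
  .some 0 0 (derived_nonsingular_T hyp.a₆ hyp.b_ne)

lemma ptT_add_ptT : ptT hyp + ptT hyp = 0 :=
  derived_T_add_T hyp.a₁ hyp.a₃ _

lemma add_ptT_add_ptT (P : W.Point) : P + ptT hyp + ptT hyp = P := by
  rw [add_assoc, ptT_add_ptT, add_zero]

omit [DecidableEq L] in
lemma some_eq_ptT {y : L} (h : W.Nonsingular 0 y) : Point.some 0 y h = ptT hyp := by
  have hy : y = 0 := derived_y_eq_zero_of_x_eq_zero hyp.a₁ hyp.a₃ hyp.a₆ h.1
  subst hy
  rfl

omit [DecidableEq L] in
lemma compMap_ptT (β : L) : compMap hyp β (ptT hyp) = cls hyp (bUnit hyp) := by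
  simp only [ptT, compMap, dif_pos]

omit [DecidableEq L] in
lemma valUnit_div (x : L) (hx : x ≠ 0) (hbx : W.a₄ / x ≠ 0) :
    valUnit A (W.a₄ / x) hbx = bUnit hyp * (valUnit A x hx)⁻¹ := by
  apply Units.ext
  rw [Units.val_mul, Units.val_inv_eq_inv_val, val_valUnit, val_valUnit, val_bUnit, map_div₀,
    div_eq_mul_inv]

/-- `φ(P + T) = φ(P) + [|b|]`. -/
lemma compMap_add_ptT (hb : A.valuation W.a₄ < 1) {β : L} (hβ : β ^ 2 = W.a₂) (P : W.Point) :
    compMap hyp β (P + ptT hyp) = compMap hyp β P + cls hyp (bUnit hyp) := by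
  rcases P with _ | ⟨x, y, h⟩
  · rw [show (Point.zero : W.Point) = 0 from rfl, zero_add, compMap_ptT, compMap_zero, zero_add]
  by_cases hx0 : x = 0
  · subst hx0
    rw [some_eq_ptT hyp h, ptT_add_ptT, compMap_ptT, compMap_zero, cls_b_add_cls_b]
  obtain ⟨h', hadd⟩ := M1_addT W hyp.a₁ hyp.a₃ hyp.a₆ (derived_nonsingular_T hyp.a₆ hyp.b_ne)
    x y h hx0
  have hsum : Point.some x y h + ptT hyp = Point.some _ _ h' := hadd
  rw [hsum]
  have hxpos : 0 < A.valuation x := zero_lt_iff.2 (by simpa using hx0)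
  have hbpos : 0 < A.valuation W.a₄ := zero_lt_iff.2 (by simpa using hyp.b_ne)
  have hbx0 : W.a₄ / x ≠ 0 := div_ne_zero hyp.b_ne hx0
  have hvx' : A.valuation (W.a₄ / x) = A.valuation W.a₄ / A.valuation x := map_div₀ _ _ _
  rcases le_or_gt 1 (A.valuation x) with hx1 | hx1
  · -- `P ∈ E₀`
    rw [compMap_of_one_le hyp β h hx1, zero_add]
    apply compMap_of_le_b hyp β hb
    rw [hvx', div_le_iff₀ hxpos]
    calc A.valuation W.a₄ = A.valuation W.a₄ * 1 := (mul_one _).symm
      _ ≤ A.valuation W.a₄ * A.valuation x := by gcongr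
  rcases le_or_gt (A.valuation x) (A.valuation W.a₄) with hxb | hxb
  · -- `P ∈ T + E₀`
    rw [compMap_of_le_b hyp β hb h hxb, cls_b_add_cls_b]
    apply compMap_of_one_le
    rw [hvx', one_le_div₀ hxpos]
    exact hxb
  -- middle region
  have hx'b : A.valuation W.a₄ < A.valuation (W.a₄ / x) := by
    rw [hvx', lt_div_iff₀ hxpos]
    calc A.valuation W.a₄ * A.valuation x < A.valuation W.a₄ * 1 := by gcongr
      _ = A.valuation W.a₄ := mul_one _
  have hx'1 : A.valuation (W.a₄ / x) < 1 := by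
    rw [hvx', div_lt_one₀ hxpos]
    exact hxb
  have hfac : A.valuation (W.a₄ / x ^ 2) * A.valuation x = A.valuation (W.a₄ / x) := by
    rw [← map_mul]
    congr 1
    field_simp
  by_cases ht : A.valuation (y - β * x) < A.valuation x
  · -- `P ∈ C₊`, so `P + T ∈ C₋`
    have ht' : A.valuation (-(W.a₄ * y / x ^ 2) + β * (W.a₄ / x)) < A.valuation (W.a₄ / x) := by
      have e : -(W.a₄ * y / x ^ 2) + β * (W.a₄ / x) = -((W.a₄ / x ^ 2) * (y - β * x)) := by
        field_simp
        ring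
      rw [e, Valuation.map_neg, map_mul, ← hfac]
      have : 0 < A.valuation (W.a₄ / x ^ 2) :=
        zero_lt_iff.2 (by simpa using div_ne_zero hyp.b_ne (pow_ne_zero 2 hx0))
      gcongr
    have hnot : ¬ A.valuation (-(W.a₄ * y / x ^ 2) - β * (W.a₄ / x)) < A.valuation (W.a₄ / x) :=
      fun hcon => mid_not_both hyp hb hβ hbx0 hcon ht'
    rw [compMap_of_Cp hyp β h hx0 hxb hx1 ht, compMap_of_not_Cp hyp β h' hbx0 hx'b hx'1 hnot,
      valUnit_div hyp x hx0 hbx0, cls_mul, cls_inv, neg_add, neg_neg, neg_cls_b, add_comm]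
  · -- `P ∈ C₋`, so `P + T ∈ C₊`
    have ht2 : A.valuation (y + β * x) < A.valuation x :=
      (mid_or hyp hb hβ h hxb hx1).resolve_left ht
    have ht' : A.valuation (-(W.a₄ * y / x ^ 2) - β * (W.a₄ / x)) < A.valuation (W.a₄ / x) := by
      have e : -(W.a₄ * y / x ^ 2) - β * (W.a₄ / x) = -((W.a₄ / x ^ 2) * (y + β * x)) := by
        field_simp
        ring
      rw [e, Valuation.map_neg, map_mul, ← hfac]
      have : 0 < A.valuation (W.a₄ / x ^ 2) :=
        zero_lt_iff.2 (by simpa using div_ne_zero hyp.b_ne (pow_ne_zero 2 hx0))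
      gcongr
    rw [compMap_of_not_Cp hyp β h hx0 hxb hx1 ht, compMap_of_Cp hyp β h' hbx0 hx'b hx'1 ht',
      valUnit_div hyp x hx0 hbx0, cls_mul, cls_inv, add_comm]

/-- Every point lies in `X = E₀ ∪ C₊` or in `X + T`. -/
lemma mem_X_or (hb : A.valuation W.a₄ < 1) {β : L} (hβ : β ^ 2 = W.a₂) (P : W.Point) :
    (InE0 A P ∨ InCp A β P) ∨ (InE0 A (P + ptT hyp) ∨ InCp A β (P + ptT hyp)) := by
  rcases P with _ | ⟨x, y, h⟩
  · exact Or.inl (Or.inl trivial)
  by_cases hx0 : x = 0
  · subst hx0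
    right; left
    rw [some_eq_ptT hyp h, ptT_add_ptT]
    trivial
  obtain ⟨h', hadd⟩ := M1_addT W hyp.a₁ hyp.a₃ hyp.a₆ (derived_nonsingular_T hyp.a₆ hyp.b_ne)
    x y h hx0
  have hsum : Point.some x y h + ptT hyp = Point.some _ _ h' := hadd
  have hxpos : 0 < A.valuation x := zero_lt_iff.2 (by simpa using hx0)
  have hvx' : A.valuation (W.a₄ / x) = A.valuation W.a₄ / A.valuation x := map_div₀ _ _ _
  rcases le_or_gt 1 (A.valuation x) with hx1 | hx1
  · exact Or.inl (Or.inl hx1)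
  rcases le_or_gt (A.valuation x) (A.valuation W.a₄) with hxb | hxb
  · right; left
    rw [hsum]
    show 1 ≤ A.valuation (W.a₄ / x)
    rw [hvx', one_le_div₀ hxpos]
    exact hxb
  by_cases ht : A.valuation (y - β * x) < A.valuation x
  · exact Or.inl (Or.inr ⟨hxb, hx1, ht⟩)
  · right; right
    rw [hsum]
    have ht2 : A.valuation (y + β * x) < A.valuation x :=
      (mid_or hyp hb hβ h hxb hx1).resolve_left ht
    have hfac : A.valuation (W.a₄ / x ^ 2) * A.valuation x = A.valuation (W.a₄ / x) := by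
      rw [← map_mul]
      congr 1
      field_simp
    refine ⟨?_, ?_, ?_⟩
    · rw [hvx', lt_div_iff₀ hxpos]
      calc A.valuation W.a₄ * A.valuation x < A.valuation W.a₄ * 1 := by
            have hbpos : 0 < A.valuation W.a₄ := zero_lt_iff.2 (by simpa using hyp.b_ne)
            gcongr
        _ = A.valuation W.a₄ := mul_one _
    · rw [hvx', div_lt_one₀ hxpos]
      exact hxb
    · have e : -(W.a₄ * y / x ^ 2) - β * (W.a₄ / x) = -((W.a₄ / x ^ 2) * (y + β * x)) := by
        field_simp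
        ring
      rw [e, Valuation.map_neg, map_mul, ← hfac]
      have : 0 < A.valuation (W.a₄ / x ^ 2) :=
        zero_lt_iff.2 (by simpa using div_ne_zero hyp.b_ne (pow_ne_zero 2 hx0))
      gcongr

end translate

/-! ### Additivity -/

section additivity

variable [DecidableEq L] {A : ValuationSubring L} {W : Affine L} (hyp : ModelHyp A W)

omit [DecidableEq L] in
lemma compMap_of_InE0 (β : L) {P : W.Point} (h : InE0 A P) : compMap hyp β P = 0 := by
  rcases P with _ | ⟨x, y, hns⟩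
  · rfl
  · exact compMap_of_one_le hyp β hns h

omit [DecidableEq L] in
lemma compMap_of_InET (hb : A.valuation W.a₄ < 1) (β : L) {P : W.Point} (h : InET A P) :
    compMap hyp β P = cls hyp (bUnit hyp) := by
  rcases P with _ | ⟨x, y, hns⟩
  · exact h.elim
  · exact compMap_of_le_b hyp β hb hns h

omit [DecidableEq L] in
lemma compMap_of_InCp (β : L) {P : W.Point} (h : InCp A β P) :
    ∃ u : (A.ValueGroup)ˣ, (u : A.ValueGroup) = xVal A P ∧ compMap hyp β P = cls hyp u := by
  rcases P with _ | ⟨x, y, hns⟩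
  · exact h.elim
  · obtain ⟨h1, h2, h3⟩ := h
    have hx0 : x ≠ 0 := by
      rintro rfl
      rw [map_zero] at h1
      exact absurd h1 (not_lt.2 zero_le)
    exact ⟨valUnit A x hx0, rfl, compMap_of_Cp hyp β hns hx0 h1 h2 h3⟩

omit [DecidableEq L] in
lemma compMap_of_InCm (hb : A.valuation W.a₄ < 1) {β : L} (hβ : β ^ 2 = W.a₂) {P : W.Point}
    (h : InCm A β P) :
    ∃ u : (A.ValueGroup)ˣ, (u : A.ValueGroup) = xVal A P ∧ compMap hyp β P = - cls hyp u := by
  rcases P with _ | ⟨x, y, hns⟩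
  · exact h.elim
  · obtain ⟨h1, h2, h3⟩ := h
    have hx0 : x ≠ 0 := by
      rintro rfl
      rw [map_zero] at h1
      exact absurd h1 (not_lt.2 zero_le)
    have hnot : ¬ A.valuation (y - β * x) < A.valuation x :=
      fun hcon => mid_not_both hyp hb hβ hx0 hcon h3
    exact ⟨valUnit A x hx0, rfl, compMap_of_not_Cp hyp β hns hx0 h1 h2 hnot⟩

/-- Additivity on `X × X`, `X = E₀ ∪ C₊`. -/
lemma compMap_add_X (h1 : Stmt_M1_E0E0 (L := L)) (h2 : Stmt_M1_E0Cp (L := L))
    (hb : A.valuation W.a₄ < 1) {β : L} (hβ : β ^ 2 = W.a₂) (P Q : W.Point)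
    (hP : InE0 A P ∨ InCp A β P) (hQ : InE0 A Q ∨ InCp A β Q) :
    compMap hyp β (P + Q) = compMap hyp β P + compMap hyp β Q := by
  have key : ∀ P Q : W.Point, InE0 A P → InCp A β Q →
      compMap hyp β (P + Q) = compMap hyp β P + compMap hyp β Q := by
    intro P Q hP hQ
    obtain ⟨hc, hv⟩ := h2 A W hyp hb β hβ P Q hP hQ
    obtain ⟨u, hu, eu⟩ := compMap_of_InCp hyp β hc
    obtain ⟨w, hw, ew⟩ := compMap_of_InCp hyp β hQ
    have huw : u = w := Units.ext (hu.trans (hv.trans hw.symm))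
    rw [eu, ew, compMap_of_InE0 hyp β hP, zero_add, huw]
  rcases hP with hP | hP <;> rcases hQ with hQ | hQ
  · rw [compMap_of_InE0 hyp β (h1 A W hyp hb P Q hP hQ), compMap_of_InE0 hyp β hP,
      compMap_of_InE0 hyp β hQ, add_zero]
  · exact key P Q hP hQ
  · rw [add_comm P Q, key Q P hQ hP, add_comm]
  · obtain ⟨c1, c2, c3⟩ := M1_CpCp A W hyp hb β hβ P Q hP hQ
    obtain ⟨u, hu, eu⟩ := compMap_of_InCp hyp β hP
    obtain ⟨w, hw, ew⟩ := compMap_of_InCp hyp β hQ
    rw [eu, ew, ← cls_mul]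
    rcases lt_trichotomy (A.valuation W.a₄) (xVal A P * xVal A Q) with h | h | h
    · obtain ⟨hc, hv⟩ := c1 h
      obtain ⟨z, hz, ez⟩ := compMap_of_InCp hyp β hc
      have : z = u * w := Units.ext (by rw [hz, hv, Units.val_mul, hu, hw])
      rw [ez, this]
    · have hET := c3 h.symm
      rw [compMap_of_InET hyp hb β hET]
      have : bUnit hyp = u * w := Units.ext (by rw [val_bUnit, h, Units.val_mul, hu, hw])
      rw [this]
    · obtain ⟨hc, hv⟩ := c2 h
      obtain ⟨z, hz, ez⟩ := compMap_of_InCm hyp hb hβ hc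
      have : z * (u * w) = bUnit hyp ^ 2 :=
        Units.ext (by rw [Units.val_mul, Units.val_mul, hz, hu, hw, hv, Units.val_pow_eq_pow_val,
          val_bUnit])
      have h0 : cls hyp z + cls hyp (u * w) = 0 := by
        rw [← cls_mul, this, cls_eq_zero_iff]
        exact Subgroup.mem_zpowers _
      rw [ez]
      exact neg_eq_of_add_eq_zero_right h0

/-- Additivity of the component map. -/
lemma compMap_add (h1 : Stmt_M1_E0E0 (L := L)) (h2 : Stmt_M1_E0Cp (L := L))
    (hb : A.valuation W.a₄ < 1) {β : L} (hβ : β ^ 2 = W.a₂) (P Q : W.Point) :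
    compMap hyp β (P + Q) = compMap hyp β P + compMap hyp β Q := by
  have hT := compMap_add_ptT hyp hb hβ
  have hbb := cls_b_add_cls_b hyp
  rcases mem_X_or hyp hb hβ P with hP | hP <;> rcases mem_X_or hyp hb hβ Q with hQ | hQ
  · exact compMap_add_X hyp h1 h2 hb hβ P Q hP hQ
  · have e : P + Q = (P + (Q + ptT hyp)) + ptT hyp := by
      rw [← add_assoc, add_ptT_add_ptT]
    have h3 := compMap_add_X hyp h1 h2 hb hβ P (Q + ptT hyp) hP hQ
    rw [e, hT, h3, hT, add_assoc, add_assoc, hbb, add_zero]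
  · have e : P + Q = ((P + ptT hyp) + Q) + ptT hyp := by
      rw [add_right_comm P (ptT hyp) Q, add_ptT_add_ptT]
    have h3 := compMap_add_X hyp h1 h2 hb hβ (P + ptT hyp) Q hP hQ
    rw [e, hT, h3, hT, add_right_comm (compMap hyp β P), add_assoc, hbb, add_zero]
  · have e : P + Q = (P + ptT hyp) + (Q + ptT hyp) := by
      rw [add_add_add_comm, ptT_add_ptT, add_zero]
    have h3 := compMap_add_X hyp h1 h2 hb hβ (P + ptT hyp) (Q + ptT hyp) hP hQ
    rw [e, h3, hT, hT, add_add_add_comm, hbb, add_zero]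

omit [DecidableEq L] in
/-- The kernel of the component map is `E₀`. -/
lemma compMap_eq_zero_iff (hb : A.valuation W.a₄ < 1) {β : L} (P : W.Point) :
    compMap hyp β P = 0 ↔ InE0 A P := by
  refine ⟨fun h => ?_, compMap_of_InE0 hyp β⟩
  rcases P with _ | ⟨x, y, hns⟩
  · trivial
  show 1 ≤ A.valuation x
  by_contra hx1
  rw [not_le] at hx1
  rcases le_or_gt (A.valuation x) (A.valuation W.a₄) with hxb | hxb
  · rw [compMap_of_le_b hyp β hb hns hxb] at h
    exact cls_b_ne_zero hyp hb h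
  have hx0 : x ≠ 0 := by
    rintro rfl
    rw [map_zero] at hxb
    exact absurd hxb (not_lt.2 zero_le)
  have hne : cls hyp (valUnit A x hx0) ≠ 0 := cls_ne_zero_of_mid hyp hb hxb hx1
  by_cases ht : A.valuation (y - β * x) < A.valuation x
  · rw [compMap_of_Cp hyp β hns hx0 hxb hx1 ht] at h
    exact hne h
  · rw [compMap_of_not_Cp hyp β hns hx0 hxb hx1 ht, neg_eq_zero] at h
    exact hne h

end additivity

/-- Piece D (M1), assuming the two remaining case lemmas. -/
theorem M1_of_cases [DecidableEq L] (h1 : Stmt_M1_E0E0 (L := L)) (h2 : Stmt_M1_E0Cp (L := L)) :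
    Stmt_M1 (L := L) := by
  intro A W hyp hb β hβ
  refine ⟨AddMonoidHom.mk' (compMap hyp β) (compMap_add hyp h1 h2 hb hβ), ?_, ?_⟩
  · intro P
    exact compMap_eq_zero_iff hyp hb P
  · intro x y h hx0 hxb hx1 ht
    exact compMap_of_Cp hyp β h hx0 hxb hx1 ht

end Fermat.Agent.S05.M1
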