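/-
S05, piece D (M1): the component homomorphism, final statement `Stmt_M1`.
Assembled in `M1.lean` from the case lemmas of `H6_M1Cases.lean` (E₀+E₀, E₀+C₊),
`H4_M1CpCp.lean` (C₊+C₊) and `Derived.lean` (translation by `T`).
-/
import Fermat.Agent.S05.M1
import Fermat.Agent.S05.H6_M1Cases

set_option autoImplicit false

namespace Fermat.Agent.S05

/-- Piece D (M1): the component homomorphism in the multiplicative case. -/
theorem M1 {L : Type*} [Field L] [DecidableEq L] : Stmt_M1 (L := L) :=
  M1.M1_of_cases H6.M1_E0E0 H6.M1_E0Cp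

end Fermat.Agent.S05
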