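/-
S05 helper (helper14): an explicit linear change of variables between two Weierstrass curves
over a field induces an additive equivalence on nonsingular points.

`IsVarChange E W u r s t` says that `(X, Y) ↦ (u²X + r, u³Y + u²sX + t)` carries `E` to `W`.
-/
import Mathlib.AlgebraicGeometry.EllipticCurve.Affine.Point

set_option autoImplicit false

namespace Fermat.Agent.S05.H14

open WeierstrassCurve WeierstrassCurve.Affine

variable {F : Type*} [Field F]

/-- The coefficient relations saying that `(X, Y) ↦ (u²X + r, u³Y + u²sX + t)` maps the curve `E`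
to the curve `W`. -/
structure IsVarChange (E W : WeierstrassCurve F) (u r s t : F) : Prop where
  hu : u ≠ 0
  h₁ : u * E.a₁ = W.a₁ + 2 * s
  h₂ : u ^ 2 * E.a₂ = W.a₂ - s * W.a₁ + 3 * r - s ^ 2
  h₃ : u ^ 3 * E.a₃ = W.a₃ + r * W.a₁ + 2 * t
  h₄ : u ^ 4 * E.a₄ = W.a₄ - s * W.a₃ + 2 * r * W.a₂ - (t + r * s) * W.a₁ + 3 * r ^ 2 - 2 * s * t
  h₆ : u ^ 6 * E.a₆ = W.a₆ + r * W.a₄ + r ^ 2 * W.a₂ + r ^ 3 - t * W.a₃ - t ^ 2 - r * t * W.a₁

variable {E W : WeierstrassCurve F} {u r s t : F}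

/-- The `x`-coordinate of the image point. -/
def fx (u r : F) (X : F) : F := u ^ 2 * X + r

/-- The `y`-coordinate of the image point. -/
def fy (u s t : F) (X Y : F) : F := u ^ 3 * Y + u ^ 2 * s * X + t

namespace IsVarChange

variable (h : IsVarChange E W u r s t)
include h

lemma equation_sub (X Y : F) :
    ((fy u s t X Y) ^ 2 + W.a₁ * (fx u r X) * (fy u s t X Y) + W.a₃ * (fy u s t X Y)
      - ((fx u r X) ^ 3 + W.a₂ * (fx u r X) ^ 2 + W.a₄ * (fx u r X) + W.a₆))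
    = u ^ 6 * (Y ^ 2 + E.a₁ * X * Y + E.a₃ * Y - (X ^ 3 + E.a₂ * X ^ 2 + E.a₄ * X + E.a₆)) := by
  have e₁ := h.h₁; have e₂ := h.h₂; have e₃ := h.h₃; have e₄ := h.h₄; have e₆ := h.h₆
  simp only [fx, fy]
  linear_combination -(u ^ 5 * X * Y) * e₁
    + (u ^ 4 * X ^ 2) * e₂ - (u ^ 3 * Y) * e₃ + (u ^ 2 * X) * e₄ + e₆

lemma polyY_eq (X Y : F) :
    2 * (fy u s t X Y) + W.a₁ * (fx u r X) + W.a₃ = u ^ 3 * (2 * Y + E.a₁ * X + E.a₃) := by
  have e₁ := h.h₁; have e₃ := h.h₃
  simp only [fx, fy]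
  linear_combination -(u ^ 2 * X) * e₁ - e₃

lemma polyX_eq (X Y : F) :
    W.a₁ * (fy u s t X Y) - (3 * (fx u r X) ^ 2 + 2 * W.a₂ * (fx u r X) + W.a₄)
      = u ^ 4 * (E.a₁ * Y - (3 * X ^ 2 + 2 * E.a₂ * X + E.a₄))
        - s * (u ^ 3 * (2 * Y + E.a₁ * X + E.a₃)) := by
  have e₁ := h.h₁; have e₂ := h.h₂; have e₃ := h.h₃; have e₄ := h.h₄
  simp only [fx, fy]
  linear_combination -(u ^ 3 * Y - u ^ 2 * s * X) * e₁ + (2 * u ^ 2 * X) * e₂ + s * e₃ + e₄

lemma equation_iff (X Y : F) :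
    W.toAffine.Equation (fx u r X) (fy u s t X Y) ↔ E.toAffine.Equation X Y := by
  rw [Affine.equation_iff', Affine.equation_iff', h.equation_sub X Y]
  simp [h.hu]

lemma nonsingular_iff (X Y : F) :
    W.toAffine.Nonsingular (fx u r X) (fy u s t X Y) ↔ E.toAffine.Nonsingular X Y := by
  rw [Affine.nonsingular_iff', Affine.nonsingular_iff', h.equation_iff, h.polyY_eq, h.polyX_eq]
  have hu := h.hu
  refine and_congr_right fun _ => ?_
  by_cases hY : 2 * Y + E.a₁ * X + E.a₃ = 0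
  · simp [hY, hu]
  · simp [hY, hu]

lemma negY_eq (X Y : F) :
    W.toAffine.negY (fx u r X) (fy u s t X Y) = fy u s t X (E.toAffine.negY X Y) := by
  have e := h.polyY_eq X Y
  simp only [Affine.negY, fx, fy] at e ⊢
  linear_combination -e

lemma fx_injective : Function.Injective (fx u r) := by
  intro X X' hX
  simp only [fx] at hX
  have : u ^ 2 * (X - X') = 0 := by linear_combination hX
  rcases mul_eq_zero.1 this with h0 | h0
  · exact absurd (pow_eq_zero_iff (by norm_num) |>.1 h0) h.hu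
  · exact sub_eq_zero.1 h0

lemma fy_injective (X : F) : Function.Injective (fy u s t X) := by
  intro Y Y' hY
  simp only [fy] at hY
  have : u ^ 3 * (Y - Y') = 0 := by linear_combination hY
  rcases mul_eq_zero.1 this with h0 | h0
  · exact absurd (pow_eq_zero_iff (by norm_num) |>.1 h0) h.hu
  · exact sub_eq_zero.1 h0

lemma addX_eq (X₁ X₂ ℓ : F) :
    W.toAffine.addX (fx u r X₁) (fx u r X₂) (u * ℓ + s) = fx u r (E.toAffine.addX X₁ X₂ ℓ) := by
  have e₁ := h.h₁; have e₂ := h.h₂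
  simp only [Affine.addX, fx]
  linear_combination -(u * ℓ) * e₁ + e₂

lemma negAddY_eq (X₁ X₂ Y₁ ℓ : F) :
    W.toAffine.negAddY (fx u r X₁) (fx u r X₂) (fy u s t X₁ Y₁) (u * ℓ + s)
      = fy u s t (E.toAffine.addX X₁ X₂ ℓ) (E.toAffine.negAddY X₁ X₂ Y₁ ℓ) := by
  have e := h.addX_eq X₁ X₂ ℓ
  simp only [Affine.negAddY, e]
  simp only [fx, fy]
  ring

lemma addY_eq (X₁ X₂ Y₁ ℓ : F) :
    W.toAffine.addY (fx u r X₁) (fx u r X₂) (fy u s t X₁ Y₁) (u * ℓ + s)
      = fy u s t (E.toAffine.addX X₁ X₂ ℓ) (E.toAffine.addY X₁ X₂ Y₁ ℓ) := by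
  rw [Affine.addY, h.negAddY_eq, h.addX_eq, h.negY_eq, Affine.addY]

section slope

variable [DecidableEq F]

lemma slope_eq {X₁ X₂ Y₁ Y₂ : F} (h₁ : E.toAffine.Equation X₁ Y₁) (h₂ : E.toAffine.Equation X₂ Y₂)
    (hxy : ¬(X₁ = X₂ ∧ Y₁ = E.toAffine.negY X₂ Y₂)) :
    W.toAffine.slope (fx u r X₁) (fx u r X₂) (fy u s t X₁ Y₁) (fy u s t X₂ Y₂)
      = u * E.toAffine.slope X₁ X₂ Y₁ Y₂ + s := by
  have hu := h.hu
  by_cases hx : X₁ = X₂
  · have hy : Y₁ ≠ E.toAffine.negY X₂ Y₂ := fun hy => hxy ⟨hx, hy⟩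
    have hy' : fy u s t X₁ Y₁ ≠ W.toAffine.negY (fx u r X₂) (fy u s t X₂ Y₂) := by
      rw [h.negY_eq, ← hx]
      exact fun hh => hy (hx ▸ h.fy_injective X₁ hh)
    rw [Affine.slope_of_Y_ne_eq_evalEval (congrArg (fx u r) hx) hy',
      Affine.slope_of_Y_ne_eq_evalEval hx hy, Affine.evalEval_polynomialX,
      Affine.evalEval_polynomialY, Affine.evalEval_polynomialX, Affine.evalEval_polynomialY,
      h.polyX_eq, h.polyY_eq]
    have hne : 2 * Y₁ + E.a₁ * X₁ + E.a₃ ≠ 0 := by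
      intro h0
      apply hy
      have := Affine.Y_eq_of_Y_ne h₁ h₂ hx hy
      subst hx
      subst this
      simp only [Affine.negY]
      linear_combination h0
    generalize 2 * Y₁ + E.a₁ * X₁ + E.a₃ = d at hne
    generalize E.a₁ * Y₁ - (3 * X₁ ^ 2 + 2 * E.a₂ * X₁ + E.a₄) = n
    field_simp
    ring
  · have hx' : fx u r X₁ ≠ fx u r X₂ := fun hh => hx (h.fx_injective hh)
    rw [Affine.slope_of_X_ne hx', Affine.slope_of_X_ne hx]
    have h1 : X₁ - X₂ ≠ 0 := sub_ne_zero.2 hx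
    have h2 : fx u r X₁ - fx u r X₂ ≠ 0 := sub_ne_zero.2 hx'
    rw [div_eq_iff h2]
    simp only [fx, fy]
    field_simp
    ring

end slope

/-- The inverse change of variables. -/
lemma symm : IsVarChange W E u⁻¹ (-r * u⁻¹ ^ 2) (-s * u⁻¹) ((r * s - t) * u⁻¹ ^ 3) := by
  have hu := h.hu
  have e₁ := h.h₁; have e₂ := h.h₂; have e₃ := h.h₃; have e₄ := h.h₄; have e₆ := h.h₆
  refine ⟨inv_ne_zero hu, ?_, ?_, ?_, ?_, ?_⟩
  · field_simp
    linear_combination -e₁
  · field_simp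
    linear_combination -e₂ - s * e₁
  · field_simp
    linear_combination -e₃ + r * e₁
  · field_simp
    linear_combination -e₄ - s * e₃ + 2 * r * e₂ + (2 * r * s - t) * e₁
  · field_simp
    linear_combination -e₆ + r * e₄ - r ^ 2 * e₂ + (r * s - t) * e₃ + (r * t - r ^ 2 * s) * e₁

lemma fx_symm (X : F) : fx u⁻¹ (-r * u⁻¹ ^ 2) (fx u r X) = X := by
  have hu := h.hu
  simp only [fx]
  field_simp
  ring

lemma fy_symm (X Y : F) :
    fy u⁻¹ (-s * u⁻¹) ((r * s - t) * u⁻¹ ^ 3) (fx u r X) (fy u s t X Y) = Y := by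
  have hu := h.hu
  simp only [fx, fy]
  field_simp
  ring

/-- The map on points induced by the change of variables. -/
def toFun : E.toAffine.Point → W.toAffine.Point
  | .zero => .zero
  | .some X Y hXY => .some (fx u r X) (fy u s t X Y) ((h.nonsingular_iff X Y).2 hXY)

@[simp] lemma toFun_zero : h.toFun 0 = 0 := rfl

lemma toFun_some {X Y : F} (hXY : E.toAffine.Nonsingular X Y) :
    h.toFun (.some X Y hXY) = .some (fx u r X) (fy u s t X Y) ((h.nonsingular_iff X Y).2 hXY) :=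
  rfl

omit h in
lemma some_congr {V : WeierstrassCurve F} {x x' y y' : F} (hx : x = x') (hy : y = y')
    (hn : V.toAffine.Nonsingular x y) (hn' : V.toAffine.Nonsingular x' y') :
    (Affine.Point.some x y hn : V.toAffine.Point) = Affine.Point.some x' y' hn' := by
  subst hx; subst hy; rfl

variable [DecidableEq F]

lemma toFun_add (P Q : E.toAffine.Point) : h.toFun (P + Q) = h.toFun P + h.toFun Q := by
  rcases P with _ | ⟨X₁, Y₁, h₁⟩
  · rw [← Affine.Point.zero_def, zero_add, toFun_zero, zero_add]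
  rcases Q with _ | ⟨X₂, Y₂, h₂⟩
  · rw [← Affine.Point.zero_def, add_zero, toFun_zero, add_zero]
  by_cases hxy : X₁ = X₂ ∧ Y₁ = E.toAffine.negY X₂ Y₂
  · rw [Affine.Point.add_of_Y_eq hxy.1 hxy.2, toFun_zero, toFun_some, toFun_some,
      Affine.Point.add_of_Y_eq (congrArg _ hxy.1)]
    rw [h.negY_eq, ← hxy.2, hxy.1]
  · have hxy' : ¬(fx u r X₁ = fx u r X₂ ∧
        fy u s t X₁ Y₁ = W.toAffine.negY (fx u r X₂) (fy u s t X₂ Y₂)) := by
      rintro ⟨hx, hy⟩
      have hx' := h.fx_injective hx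
      refine hxy ⟨hx', ?_⟩
      rw [h.negY_eq, ← hx'] at hy
      exact hx' ▸ h.fy_injective X₁ hy
    rw [Affine.Point.add_some hxy, toFun_some, toFun_some, toFun_some,
      Affine.Point.add_some hxy']
    apply some_congr
    · rw [h.slope_eq h₁.1 h₂.1 hxy, h.addX_eq]
    · rw [h.slope_eq h₁.1 h₂.1 hxy, h.addY_eq]

omit [DecidableEq F] in
lemma symm_toFun (P : E.toAffine.Point) : h.symm.toFun (h.toFun P) = P := by
  rcases P with _ | ⟨X, Y, hXY⟩
  · rfl
  · rw [toFun_some, toFun_some]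
    exact some_congr (h.fx_symm X) (h.fy_symm X Y) _ _

omit [DecidableEq F] in
lemma toFun_symm (P : W.toAffine.Point) : h.toFun (h.symm.toFun P) = P := by
  rcases P with _ | ⟨x, y, hxy⟩
  · rfl
  · rw [toFun_some, toFun_some]
    have hu := h.hu
    apply some_congr
    · simp only [fx]
      field_simp
      ring
    · simp only [fx, fy]
      field_simp
      ring

/-- The additive equivalence on points induced by a change of variables. -/
def addEquiv : E.toAffine.Point ≃+ W.toAffine.Point where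
  toFun := h.toFun
  invFun := h.symm.toFun
  left_inv := h.symm_toFun
  right_inv := h.toFun_symm
  map_add' := h.toFun_add

@[simp] lemma addEquiv_zero : h.addEquiv 0 = 0 := rfl

lemma addEquiv_some {X Y : F} (hXY : E.toAffine.Nonsingular X Y) :
    h.addEquiv (.some X Y hXY) =
      .some (fx u r X) (fy u s t X Y) ((h.nonsingular_iff X Y).2 hXY) :=
  rfl

end IsVarChange

end Fermat.Agent.S05.H14
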