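/-
S05 piece E (helper14): transfer from the Frey-type model `Y² + XY = X³ + a₂X² + a₄X` to the
model `y² = x³ + a x² + b x` by `x = 4X - e`, `y = 8Y + 4X`: an additive, Galois-equivariant
bijection on points over `AlgebraicClosure ℚ`.
-/
import Fermat.Agent.S05.Defs
import Fermat.Agent.S05.H14_VarChange

set_option autoImplicit false

namespace Fermat.Agent.S05

open WeierstrassCurve WeierstrassCurve.Affine

namespace H14

/-- The variable change `x = 4X - e`, `y = 8Y + 4X` over any field extension `L` of `ℚ`. -/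
lemma isVarChange_modelOf {L : Type*} [Field L] [Algebra ℚ L] (W : Affine ℚ) (h₁ : W.a₁ = 1)
    (h₃ : W.a₃ = 0) (h₆ : W.a₆ = 0) (e : ℚ)
    (he : e ^ 3 + (4 * W.a₂ + 1) * e ^ 2 + 16 * W.a₄ * e = 0) :
    IsVarChange (W⁄L) ((modelOf W e)⁄L) (2 : L) (algebraMap ℚ L (-e)) (1 : L) (0 : L) := by
  have : CharZero L := algebraRat.charZero L
  have h2 : (2 : L) ≠ 0 := two_ne_zero
  have he' : (algebraMap ℚ L e) ^ 3 + (4 * algebraMap ℚ L W.a₂ + 1) * (algebraMap ℚ L e) ^ 2
      + 16 * algebraMap ℚ L W.a₄ * algebraMap ℚ L e = 0 := by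
    have := congrArg (algebraMap ℚ L) he
    simpa only [map_add, map_mul, map_pow, map_ofNat, map_one, map_zero] using this
  refine ⟨h2, ?_, ?_, ?_, ?_, ?_⟩
  all_goals
    simp only [modelOf, Affine.baseChange, WeierstrassCurve.baseChange, WeierstrassCurve.map,
      h₁, h₃, h₆, map_one, map_zero, map_neg, map_add, map_mul, map_pow, map_ofNat]
  · ring
  · ring
  · ring
  · ring
  · linear_combination he'

end H14

theorem transfer : Stmt_transfer := by
  intro W h₁ h₃ h₆ e he
  have hvc := H14.isVarChange_modelOf (L := AlgebraicClosure ℚ) W h₁ h₃ h₆ e he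
  refine ⟨hvc.addEquiv, ?_⟩
  intro σ P
  rcases P with _ | ⟨X, Y, hXY⟩
  · rfl
  · rw [WeierstrassCurve.Affine.Point.algEquiv_smul_def, Affine.Point.map_some,
      hvc.addEquiv_some, hvc.addEquiv_some,
      WeierstrassCurve.Affine.Point.algEquiv_smul_def, Affine.Point.map_some]
    apply H14.IsVarChange.some_congr
    · simp only [H14.fx, map_add, map_mul, map_pow, map_ofNat, AlgEquiv.coe_toAlgHom,
        AlgEquiv.commutes]
    · simp only [H14.fy, map_add, map_mul, map_pow, map_ofNat, map_zero, map_one,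
        AlgEquiv.coe_toAlgHom]

end Fermat.Agent.S05
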