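import Fermat.Agent.S05.Defs

/-!
# S05: final wiring (helper37)

`Stmt_core`, `Stmt_transfer`, `Stmt_inertia`, `Stmt_arith` together give the frozen statement
`P.GaloisRepUnramifiedAt q` for every odd prime `q ≠ P.p`.
-/

set_option autoImplicit false

namespace Fermat.Agent.S05

open WeierstrassCurve WeierstrassCurve.Affine WeierstrassCurve.Affine.Point

/-- Final wiring of S05 from the four interface statements. -/
theorem wiring (hcore : Stmt_core) (htr : Stmt_transfer) (hin : Stmt_inertia)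
    (har : Stmt_arith) (P : FreyPackage) {q : ℕ} (hq : q.Prime) (hq2 : q ≠ 2) (hqp : q ≠ P.p) :
    P.GaloisRepUnramifiedAt q := by
  intro A hA σ hσ x
  obtain ⟨e, c, he, hyp, hp1, hc⟩ := har P q hq hq2 hqp A hA
  obtain ⟨Φ, hΦ⟩ := htr P.freyCurve rfl rfl rfl e he
  obtain ⟨hval, hres⟩ := hin A σ hσ
  have hx : (P.p : ℤ) • x.1 = 0 := by
    have := x.2
    rwa [Submodule.mem_torsionBy_iff] at this
  have hΦx : (P.p : ℤ) • Φ x.1 = 0 :=
    (map_zsmul Φ (P.p : ℤ) x.1).symm.trans ((congrArg Φ hx).trans (map_zero Φ))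
  have hfix : σ • Φ x.1 = Φ x.1 :=
    hcore ℚ (AlgebraicClosure ℚ) A (modelOf P.freyCurve e) hyp P.p P.hp_odd hp1 c hc
      σ hval hres (Φ x.1) hΦx
  apply Subtype.ext
  apply Φ.injective
  exact (hΦ σ x.1).trans hfix

end Fermat.Agent.S05
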