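/-
S05 / S13 (WP-p): the core statement WITHOUT the hypothesis `|p| = 1`.  Conclusion: for every
`p`-torsion point `P` and inertia-like `σ`, the point `σ P - P` lies in the kernel of reduction `E₁`.
(With `|p| = 1` and F1 this gives `σ P = P`, which is `Stmt_core`.)
-/
import Fermat.Agent.S05.Core

set_option autoImplicit false

namespace Fermat.Agent.S05

open WeierstrassCurve WeierstrassCurve.Affine

section main

variable {K₀ L : Type} [Field K₀] [Field L] [DecidableEq L] [Algebra K₀ L] [IsAlgClosed L]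

/-- Multiplicative case, without the hypothesis `|p| = 1`: inertia moves every `p`-torsion point
inside its coset of the kernel of reduction. -/
theorem core_mult_E1 (hM1 : Stmt_M1 (L := L)) (hF2 : Stmt_F2 (L := L))
    (A : ValuationSubring L) (W' : Affine K₀) (hyp : ModelHyp A (W'⁄L))
    (hb : A.valuation (algebraMap K₀ L W'.a₄) < 1)
    (p : ℕ) (hodd : Odd p)
    (c : K₀) (hc : A.valuation (algebraMap K₀ L c) ^ p = A.valuation (algebraMap K₀ L W'.a₄) ^ 2)
    (σ : L ≃ₐ[K₀] L) (hσv : ∀ x, A.valuation (σ x) = A.valuation x)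
    (hσr : ∀ x, A.valuation x ≤ 1 → A.valuation (σ x - x) < 1)
    (P : (W'⁄L).Point) (hP : (p : ℤ) • P = 0) : InE1 A (σ • P - P) := by
  have hp0 : p ≠ 0 := by
    rintro rfl
    exact absurd hodd (by decide)
  have hP' : p • P = 0 := by rwa [natCast_zsmul] at hP
  have hb' : A.valuation (W'⁄L).a₄ < 1 := hb
  have hI := inertiaLike_smul A W' σ hσv hσr
  obtain ⟨β, hβ⟩ := IsAlgClosed.exists_pow_nat_eq ((W'⁄L).a₂) (n := 2) (by norm_num)
  obtain ⟨φ, hker, hφ⟩ := hM1 A (W'⁄L) hyp hb' β hβ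
  -- it suffices to find a σ-fixed point `P₀` in the same component as `P`
  suffices h : ∃ P₀ : (W'⁄L).Point, σ • P₀ = P₀ ∧ φ P₀ = φ P by
    obtain ⟨P₀, hfix, hcomp⟩ := h
    have hQ : InE0 A (P - P₀) := by
      rw [← hker, map_sub, hcomp, sub_self]
    have hR := hF2 A (W'⁄L) hyp _ _ hI (P - P₀) hQ
    have hR' : σ • (P - P₀) - (P - P₀) = σ • P - P := by
      rw [smul_sub, hfix]; abel
    simp only [hR'] at hR
    exact hR
  -- notation
  have hb0 : algebraMap K₀ L W'.a₄ ≠ 0 := hyp.b_ne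
  have hvb0 : A.valuation (algebraMap K₀ L W'.a₄) ≠ 0 := by simpa using hb0
  have hc0 : algebraMap K₀ L c ≠ 0 := by
    intro h
    rw [h, map_zero, zero_pow hp0] at hc
    exact pow_ne_zero 2 hvb0 hc.symm
  have hvc0 : A.valuation (algebraMap K₀ L c) ≠ 0 := by simpa using hc0
  have hvc1 : A.valuation (algebraMap K₀ L c) < 1 := by
    by_contra h
    push Not at h
    have h1 : 1 ≤ A.valuation (algebraMap K₀ L c) ^ p := one_le_pow₀ h
    rw [hc] at h1
    have h2 : A.valuation (algebraMap K₀ L W'.a₄) ^ 2 < 1 := pow_lt_one₀ zero_le hb two_ne_zero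
    exact absurd h1 (not_le.2 h2)
  have hσc : σ (algebraMap K₀ L c) = algebraMap K₀ L c := σ.commutes c
  have hσa : (σ : L →+* L) (W'⁄L).a₂ = (W'⁄L).a₂ := σ.commutes _
  have hσb : (σ : L →+* L) (W'⁄L).a₄ = (W'⁄L).a₄ := σ.commutes _
  set cU : (A.ValueGroup)ˣ := valUnit A (algebraMap K₀ L c) hc0 with hcU
  have hcUp : cU ^ p = bUnit hyp ^ 2 := by
    apply Units.ext
    simp only [hcU, valUnit, bUnit, Units.val_pow_eq_pow_val, Units.val_mk0]
    exact hc
  -- small case: `0 < r`, `2 r < p`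
  have small : ∀ r : ℕ, 0 < r → 2 * r < p → ∃ P₀ : (W'⁄L).Point, σ • P₀ = P₀ ∧
      φ P₀ = Additive.ofMul (QuotientGroup.mk (cU ^ r)) := by
    intro r hr0 hr
    have hx1 : A.valuation ((algebraMap K₀ L c) ^ r) < 1 := by
      rw [map_pow]
      exact pow_lt_one₀ zero_le hvc1 hr0.ne'
    have hxb : A.valuation (W'⁄L).a₄ < A.valuation ((algebraMap K₀ L c) ^ r) := by
      by_contra h
      push Not at h
      have h2 : A.valuation ((algebraMap K₀ L c) ^ r) ^ 2 ≤ A.valuation (W'⁄L).a₄ ^ 2 :=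
        pow_le_pow_left₀ zero_le h 2
      have h3 : A.valuation (algebraMap K₀ L c) ^ p < A.valuation (algebraMap K₀ L c) ^ (2 * r) :=
        pow_lt_pow_right_of_lt_one₀ (zero_lt_iff.2 hvc0) hvc1 hr
      rw [map_pow, ← pow_mul, mul_comm r 2] at h2
      exact absurd (h3.trans_le h2) (by rw [hc]; exact lt_irrefl _)
    have hσx : (σ : L →+* L) ((algebraMap K₀ L c) ^ r) = (algebraMap K₀ L c) ^ r := by
      rw [map_pow]; congr 1
    obtain ⟨y₀, hns, hbr, hσy⟩ := exists_fixed_branch_point hyp hb' β hβ (σ : L →+* L) hσr hσa hσb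
      _ hσx hx1 hxb
    refine ⟨Point.some _ _ hns, ?_, ?_⟩
    · show Point.some (σ _) (σ y₀) _ = _
      have h1 : σ ((algebraMap K₀ L c) ^ r) = (algebraMap K₀ L c) ^ r := hσx
      have h2 : σ y₀ = y₀ := hσy
      simp only [h1, h2]
    · rw [hφ _ _ hns (pow_ne_zero _ hc0) hxb hx1 hbr]
      congr 2
      apply Units.ext
      simp [hcU, valUnit, map_pow]
  -- all residues `r < p`
  have allr : ∀ r : ℕ, r < p → ∃ P₀ : (W'⁄L).Point, σ • P₀ = P₀ ∧
      φ P₀ = Additive.ofMul (QuotientGroup.mk (cU ^ r)) := by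
    intro r hr
    rcases Nat.eq_zero_or_pos r with rfl | hr0
    · exact ⟨0, smul_zero σ, by simp⟩
    rcases lt_or_gt_of_ne (show 2 * r ≠ p from fun h => by
        obtain ⟨k, hk⟩ := hodd; omega) with h2 | h2
    · exact small r hr0 h2
    · obtain ⟨P₀, hfix, hcomp⟩ := small (p - r) (by omega) (by omega)
      refine ⟨-P₀, by rw [smul_neg, hfix], ?_⟩
      rw [map_neg, hcomp, ← ofMul_inv, ← QuotientGroup.mk_inv]
      congr 1
      rw [QuotientGroup.eq]
      rw [inv_inv, ← pow_add, Nat.sub_add_cancel hr.le, hcUp]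
      exact Subgroup.mem_zpowers _
  -- the component of `P`
  obtain ⟨g, hg⟩ := QuotientGroup.mk_surjective (Additive.toMul (φ P))
  have hgp : g ^ p ∈ Subgroup.zpowers (bUnit hyp ^ 2) := by
    rw [← QuotientGroup.eq_one_iff, QuotientGroup.mk_pow, hg, ← toMul_nsmul, ← map_nsmul, hP',
      map_zero, toMul_zero]
  obtain ⟨k, hk⟩ := Subgroup.mem_zpowers_iff.1 hgp
  have hgk : g = cU ^ k := by
    have : g ^ p = (cU ^ k) ^ p := by
      rw [← hk, ← hcUp, ← zpow_natCast (cU ^ k) p, ← zpow_natCast cU p, ← zpow_mul, ← zpow_mul,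
        mul_comm]
    exact pow_left_injective hp0 this
  have hpZ : (p : ℤ) ≠ 0 := by exact_mod_cast hp0
  obtain ⟨P₀, hfix, hcomp⟩ := allr (k % (p : ℤ)).toNat (by
    have := Int.emod_lt_of_pos k (show (0 : ℤ) < p by omega)
    have := Int.emod_nonneg k hpZ
    omega)
  refine ⟨P₀, hfix, ?_⟩
  rw [hcomp]
  apply Additive.toMul.injective
  rw [toMul_ofMul, ← hg, hgk, QuotientGroup.eq]
  have hkr : cU ^ k = (bUnit hyp ^ 2) ^ (k / (p : ℤ)) * cU ^ (k % (p : ℤ)).toNat := by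
    rw [← hcUp, ← zpow_natCast cU p, ← zpow_mul, ← zpow_natCast cU (k % (p : ℤ)).toNat,
      Int.toNat_of_nonneg (Int.emod_nonneg k hpZ), ← zpow_add, Int.mul_ediv_add_emod]
  rw [hkr, mul_comm, mul_inv_cancel_right]
  exact Subgroup.zpow_mem _ (Subgroup.mem_zpowers _) _

end main

/-- The statement of the core theorem without `|p| = 1`. -/
def Stmt_coreE1 : Prop :=
  ∀ (K₀ L : Type) [Field K₀] [Field L] [DecidableEq L] [Algebra K₀ L] [IsAlgClosed L]
    (A : ValuationSubring L) (W' : Affine K₀), ModelHyp A (W'⁄L) →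
  ∀ (p : ℕ), Odd p →
  ∀ (c : K₀), A.valuation (algebraMap K₀ L c) ^ p = A.valuation (algebraMap K₀ L W'.a₄) ^ 2 →
  ∀ (σ : L ≃ₐ[K₀] L), (∀ x, A.valuation (σ x) = A.valuation x) →
    (∀ x, A.valuation x ≤ 1 → A.valuation (σ x - x) < 1) →
  ∀ P : (W'⁄L).Point, (p : ℤ) • P = 0 → InE1 A (σ • P - P)

/-- `Stmt_coreE1` from the component homomorphism. -/
theorem coreE1_of_M1 (hM1 : ∀ (L : Type) [Field L] [DecidableEq L], Stmt_M1 (L := L)) :
    Stmt_coreE1 := by
  intro K₀ L _ _ _ _ _ A W' hyp p hodd c hc σ hσv hσr P hP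
  rcases lt_or_eq_of_le hyp.b_le with hb | hb
  · exact core_mult_E1 (hM1 L) H5.F2 A W' hyp hb p hodd c hc σ hσv hσr P hP
  · exact H55.smul_sub_inE1 H5.F2 A W' hyp hb σ hσv hσr P

end Fermat.Agent.S05
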