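/-
S05, piece C (F2), helper87: closed form `F2 : Stmt_F2`, from `F2_of_E1_add`, the line data
(`Line.lean`) and closure of `E₁` under addition (`H28_E1add.lean`).
-/
import Fermat.Agent.S05.F2
import Fermat.Agent.S05.Line
import Fermat.Agent.S05.H28_E1add

set_option autoImplicit false

namespace Fermat.Agent.S05

variable {L : Type*} [Field L] [DecidableEq L]

/-- Piece C (F2): inertia moves points of `E₀` inside `E₁`-cosets. -/
theorem F2 : Stmt_F2 (L := L) :=
  F2_of_E1_add (H28.stmt_E1_add_of line)

end Fermat.Agent.S05
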