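import Fermat.Agent.S05.Defs
import Fermat.Agent.S05.H15_Val

/-!
# Arithmetic of the Frey package at ANY odd prime `q` (also `q = p`) (helper15)

Same as `Fermat.Agent.S05.arith` (piece G of S05) but without the hypothesis `q ≠ P.p` and
without the conclusion `|p| = 1`.  Needed for S13 (WP-p, interface I6).
-/

set_option autoImplicit false

namespace Fermat.Agent.S05

open WeierstrassCurve WeierstrassCurve.Affine

local notation "K" => AlgebraicClosure ℚ

namespace H15odd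

/-- `q ∣ n ^ k → q ∣ n` for a prime `q`. -/
theorem not_dvd_pow' {q : ℕ} (hq : q.Prime) {n : ℤ} (h : ¬ (q : ℤ) ∣ n) (k : ℕ) :
    ¬ (q : ℤ) ∣ n ^ k :=
  fun hd => h ((Nat.prime_iff_prime_int.mp hq).dvd_of_dvd_pow hd)

theorem not_dvd_of_gcd_eq_one' {q : ℕ} (hq : q.Prime) {m n : ℤ} (hgcd : gcd m n = 1)
    (hm : (q : ℤ) ∣ m) : ¬ (q : ℤ) ∣ n := by
  intro hn
  have h1 : (q : ℤ) ∣ gcd m n := dvd_gcd hm hn
  rw [hgcd] at h1
  have := Int.natCast_dvd_natCast.1 (by simpa using h1 : ((q : ℕ) : ℤ) ∣ ((1 : ℕ) : ℤ))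
  exact hq.one_lt.ne' (Nat.dvd_one.1 this)

end H15odd

open H15 H15odd
/-- Statement: arithmetic of the Frey package at an odd prime `q` (possibly `q = p`). -/
def Stmt_arith_odd : Prop :=
  ∀ (P : FreyPackage) (q : ℕ), q.Prime → q ≠ 2 →
  ∀ (A : ValuationSubring (AlgebraicClosure ℚ)), A.LiesOverPrime q →
  ∃ e c : ℚ, e ^ 3 + (4 * P.freyCurve.a₂ + 1) * e ^ 2 + 16 * P.freyCurve.a₄ * e = 0 ∧
    ModelHyp A ((modelOf P.freyCurve e)⁄(AlgebraicClosure ℚ)) ∧
    A.valuation (algebraMap ℚ (AlgebraicClosure ℚ) c) ^ P.p =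
      A.valuation (algebraMap ℚ (AlgebraicClosure ℚ) (modelOf P.freyCurve e).a₄) ^ 2

theorem arith_odd : Stmt_arith_odd := by
  intro P q hq hq2 A hA
  have hqK : ((q : ℕ) : AlgebraicClosure ℚ) ∈ A.nonunits := hA
  -- abbreviations
  have h4 : 4 * P.freyCurve.a₂ + 1 = ((P.b ^ P.p - P.a ^ P.p : ℤ) : ℚ) := by
    simp only [FreyPackage.freyCurve]
    push_cast
    ring
  have h16 : 16 * P.freyCurve.a₄ = ((-(P.a ^ P.p * P.b ^ P.p) : ℤ) : ℚ) := by
    simp only [FreyPackage.freyCurve]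
    push_cast
    ring
  have hval2 : A.valuation (2 : K) = 1 := by
    have := valuation_natCast_eq_one_of_ne (A := A) hq hqK Nat.prime_two (Ne.symm hq2)
    simpa using this
  have hcast : ∀ n : ℤ, algebraMap ℚ K ((n : ℤ) : ℚ) = ((n : ℤ) : K) := fun n => by simp
  by_cases hc : (q : ℤ) ∣ P.c
  · -- case `q ∣ c`: `e = a^p`, `c₀ = (a c)^2`
    have hqa : ¬ (q : ℤ) ∣ P.a := fun h =>
      not_dvd_of_gcd_eq_one' hq P.hgcdac h hc
    have hqb : ¬ (q : ℤ) ∣ P.b := fun h =>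
      not_dvd_of_gcd_eq_one' hq P.hgcdbc h hc
    refine ⟨((P.a ^ P.p : ℤ) : ℚ), (((P.a * P.c) ^ 2 : ℤ) : ℚ), ?_, ?_, ?_⟩
    · rw [h4, h16]; push_cast; ring
    · have ha2 : (modelOf P.freyCurve ((P.a ^ P.p : ℤ) : ℚ)).a₂ =
          ((P.b ^ P.p + 2 * P.a ^ P.p : ℤ) : ℚ) := by
        simp only [modelOf]; rw [h4]; push_cast; ring
      have ha4 : (modelOf P.freyCurve ((P.a ^ P.p : ℤ) : ℚ)).a₄ =
          ((P.a ^ P.p * P.c ^ P.p : ℤ) : ℚ) := by
        simp only [modelOf]; rw [h4, h16, ← P.hFLT]; push_cast; ring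
      refine ⟨by simp [modelOf], by simp [modelOf], by simp [modelOf], ?_, ?_, ?_, hval2, ?_⟩
      · show A.valuation (algebraMap ℚ K _) ≤ 1
        rw [ha2, hcast]; exact valuation_intCast_le_one A _
      · show A.valuation (algebraMap ℚ K _) ≤ 1
        rw [ha4, hcast]; exact valuation_intCast_le_one A _
      · show algebraMap ℚ K _ ≠ 0
        rw [ha4, hcast]
        have : (P.a ^ P.p * P.c ^ P.p : ℤ) ≠ 0 :=
          mul_ne_zero (pow_ne_zero _ P.ha0) (pow_ne_zero _ P.hc0)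
        exact_mod_cast this
      · show A.valuation ((algebraMap ℚ K _) ^ 2 - 4 * (algebraMap ℚ K _)) = 1
        rw [ha2, ha4, hcast, hcast]
        have : (((P.b ^ P.p + 2 * P.a ^ P.p : ℤ) : K)) ^ 2 - 4 * ((P.a ^ P.p * P.c ^ P.p : ℤ) : K)
            = (((P.b ^ P.p) ^ 2 : ℤ) : K) := by
          rw [← P.hFLT]; push_cast; ring
        rw [this]
        exact valuation_intCast_eq_one_of_not_dvd hq hqK
          (not_dvd_pow' hq (not_dvd_pow' hq hqb _) _)
    · have ha4 : (modelOf P.freyCurve ((P.a ^ P.p : ℤ) : ℚ)).a₄ =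
          ((P.a ^ P.p * P.c ^ P.p : ℤ) : ℚ) := by
        simp only [modelOf]; rw [h4, h16, ← P.hFLT]; push_cast; ring
      rw [ha4, hcast, hcast, ← map_pow, ← map_pow]
      congr 1
      push_cast
      ring
  · -- case `q ∤ c`: `e = 0`, `c₀ = (a b)^2`
    refine ⟨0, (((P.a * P.b) ^ 2 : ℤ) : ℚ), ?_, ?_, ?_⟩
    · have hp0 : P.p ≠ 0 := P.hp0
      simp
    · have ha2 : (modelOf P.freyCurve 0).a₂ = ((P.b ^ P.p - P.a ^ P.p : ℤ) : ℚ) := by
        simp only [modelOf]; rw [h4]; push_cast; ring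
      have ha4 : (modelOf P.freyCurve 0).a₄ = ((-(P.a ^ P.p * P.b ^ P.p) : ℤ) : ℚ) := by
        simp only [modelOf]; rw [h16]; push_cast; ring
      refine ⟨by simp [modelOf], by simp [modelOf], by simp [modelOf], ?_, ?_, ?_, hval2, ?_⟩
      · show A.valuation (algebraMap ℚ K _) ≤ 1
        rw [ha2, hcast]; exact valuation_intCast_le_one A _
      · show A.valuation (algebraMap ℚ K _) ≤ 1
        rw [ha4, hcast]; exact valuation_intCast_le_one A _
      · show algebraMap ℚ K _ ≠ 0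
        rw [ha4, hcast]
        have : (-(P.a ^ P.p * P.b ^ P.p) : ℤ) ≠ 0 :=
          neg_ne_zero.2 (mul_ne_zero (pow_ne_zero _ P.ha0) (pow_ne_zero _ P.hb0))
        exact_mod_cast this
      · show A.valuation ((algebraMap ℚ K _) ^ 2 - 4 * (algebraMap ℚ K _)) = 1
        rw [ha2, ha4, hcast, hcast]
        have : (((P.b ^ P.p - P.a ^ P.p : ℤ) : K)) ^ 2 - 4 * ((-(P.a ^ P.p * P.b ^ P.p) : ℤ) : K)
            = (((P.c ^ P.p) ^ 2 : ℤ) : K) := by
          rw [← P.hFLT]; push_cast; ring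
        rw [this]
        exact valuation_intCast_eq_one_of_not_dvd hq hqK
          (not_dvd_pow' hq (not_dvd_pow' hq hc _) _)
    · have ha4 : (modelOf P.freyCurve 0).a₄ = ((-(P.a ^ P.p * P.b ^ P.p) : ℤ) : ℚ) := by
        simp only [modelOf]; rw [h16]; push_cast; ring
      rw [ha4, hcast, hcast, ← map_pow, ← map_pow]
      congr 1
      push_cast
      ring

end Fermat.Agent.S05
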